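import Fermat.Agent.KL.HauptL
import Fermat.Agent.S28.BaseCase
import Fermat.Agent.S28.FN7f
import Fermat.Prelude.Def_ModularCurve_ArithmeticGalois

/-!
# KL / Hauptmodul package, part 7: `x_M ∈ k(j(q), j(q^M))` (degree argument, uses S28 base case),
and the leading terms of `x_M`.
-/

set_option autoImplicit false

open ModularCurve IntermediateField Polynomial

namespace Fermat.Agent.KL.Haupt

noncomputable section

section Lead

variable (R : Type*) [CommRing R]

theorem constantCoeff_bUinv (M : ℕ) [NeZero M] (hM : 2 ≤ M) :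
    PowerSeries.constantCoeff (bUinv M) = 1 := by
  have h := congrArg (PowerSeries.constantCoeff (R := ℤ)) (bU_mul_inv M hM)
  rwa [map_mul, constantCoeff_bU M hM, one_mul, map_one] at h

theorem constantCoeff_S3 : PowerSeries.constantCoeff S3 = 0 := by
  rw [S3, map_mul, PowerSeries.constantCoeff_X, zero_mul]

theorem constantCoeff_a2 : PowerSeries.constantCoeff a2 = 1 := by
  rw [a2]
  simp [constantCoeff_S3]

theorem constantCoeff_a3 : PowerSeries.constantCoeff a3 = 1 := by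
  rw [a3]
  simp [constantCoeff_S3]

/-- coefficients of `q⁻¹ u`, `u` a power series. -/
theorem coeff_single_mul_lau (u : PowerSeries ℤ) (n : ℤ) :
    (HahnSeries.single (-1 : ℤ) (1 : R) * lau R u).coeff n = (lau R u).coeff (n + 1) := by
  rw [HahnSeries.coeff_single_mul, one_mul, sub_neg_eq_add]

theorem coeff_lau_of_neg (u : PowerSeries ℤ) {n : ℤ} (hn : n < 0) : (lau R u).coeff n = 0 :=
  ofPowerSeries_coeff_of_neg _ hn

theorem coeff_lau_zero (u : PowerSeries ℤ) :
    (lau R u).coeff 0 = ((PowerSeries.constantCoeff u : ℤ) : R) := by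
  rw [lau_apply, show (0 : ℤ) = ((0 : ℕ) : ℤ) from rfl, HahnSeries.ofPowerSeries_apply_coeff,
    PowerSeries.coeff_map, PowerSeries.coeff_zero_eq_constantCoeff_apply]
  rfl

theorem coeff_xq2_neg_one : (xq2 R).coeff (-1) = 1 := by
  rw [xq2, coeff_single_mul_lau, neg_add_cancel, coeff_lau_zero, map_mul, constantCoeff_a2,
    constantCoeff_bUinv 2 le_rfl]
  simp

theorem coeff_xq2_of_lt {n : ℤ} (hn : n < -1) : (xq2 R).coeff n = 0 := by
  rw [xq2, coeff_single_mul_lau, coeff_lau_of_neg _ _ (by omega)]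

theorem coeff_xq3_neg_one : (xq3 R).coeff (-1) = 1 := by
  rw [xq3, coeff_single_mul_lau, neg_add_cancel, coeff_lau_zero, map_mul, constantCoeff_a3,
    constantCoeff_bUinv 3 (by norm_num)]
  simp

theorem coeff_xq3_of_lt {n : ℤ} (hn : n < -1) : (xq3 R).coeff n = 0 := by
  rw [xq3, coeff_single_mul_lau, coeff_lau_of_neg _ _ (by omega)]

end Lead

section Mem

open Fermat.Agent.S28

variable {k : Type} [Field k]

theorem jd_one : jd k 1 = jqModC k := by
  rw [jd, Vq_eq, qExpand_one_apply]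

/-- `j` as an element of `k(j)`. -/
def jE : Ej k 1 := ⟨jqModC k, by
  rw [Ej, jd_one]; exact mem_adjoin_simple_self k _⟩

/-- the degree argument. -/
theorem mem_of_degree {p : ℕ} [NeZero p] (hp : p.Prime) (hpk : (p : k) ≠ 0) (x : LaurentSeries k)
    (P : (Ej k 1)[X]) (hPm : P.Monic) (hPd : P.natDegree = p + 1) (hPx : aeval x P = 0)
    (hy : jd k p ∈ (Ej k 1)⟮x⟯) : x ∈ modularFunctionFieldC k p := by
  obtain ⟨-, hdeg⟩ := wp4 k p hp hpk (FN7.hasModPoly k hp) (FN7.hasUnitPoly k hp)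
  have hxint : IsIntegral (Ej k 1) x := ⟨P, hPm, hPx⟩
  have hyint : IsIntegral (Ej k 1) (jd k p) := by
    by_contra h
    rw [minpoly.eq_zero h] at hdeg
    simp at hdeg
  have hle : (Ej k 1)⟮jd k p⟯ ≤ (Ej k 1)⟮x⟯ := by
    rw [adjoin_simple_le_iff]; exact hy
  have hfx : Module.finrank (Ej k 1) (Ej k 1)⟮x⟯ ≤ p + 1 := by
    rw [adjoin.finrank hxint, ← hPd]
    exact natDegree_le_of_dvd (minpoly.dvd _ _ hPx) hPm.ne_zero
  have hfy : Module.finrank (Ej k 1) (Ej k 1)⟮jd k p⟯ = p + 1 := by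
    rw [adjoin.finrank hyint, hdeg]
  have : FiniteDimensional (Ej k 1) (Ej k 1)⟮x⟯ := adjoin.finiteDimensional hxint
  have heq : (Ej k 1)⟮jd k p⟯ = (Ej k 1)⟮x⟯ :=
    eq_of_le_of_finrank_le hle (by rw [hfy]; exact hfx)
  have hx : x ∈ (Ej k 1)⟮jd k p⟯ := by rw [heq]; exact mem_adjoin_simple_self _ x
  have hx2 : x ∈ ((Ej k 1)⟮jd k p⟯).restrictScalars k := hx
  rw [Ej, adjoin_adjoin_left, jd_one] at hx2
  rw [modularFunctionFieldC, jqNModC]
  have : jd k p = qExpand k p (jqModC k) := by rw [jd, Vq_eq]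
  rw [this] at hx2
  exact hx2

theorem sub_ne_zero_of_lead {x : LaurentSeries k} (hx : x.coeff (-1) = 1) (c : ℕ) :
    x - (c : LaurentSeries k) ≠ 0 := by
  intro h
  have h1 := congrArg (fun y : LaurentSeries k => y.coeff (-1)) h
  have h2 : ((c : LaurentSeries k)).coeff (-1) = 0 := by
    rw [← map_natCast (HahnSeries.C (Γ := ℤ) (R := k))]
    exact HahnSeries.coeff_single_of_ne (by norm_num)
  simp only [HahnSeries.coeff_sub, hx, h2, HahnSeries.coeff_zero] at h1
  simp at h1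

theorem natDegree_X_pow_add' {K : Type*} [Field K] {n : ℕ} {q : K[X]} (hq : q.degree < n) :
    (X ^ n + q).natDegree = n := by
  have h : q.degree < (X ^ n : K[X]).degree := by rwa [degree_X_pow]
  apply natDegree_eq_of_degree_eq_some
  rw [degree_add_eq_left_of_degree_lt h, degree_X_pow]

theorem poly2_eq : ((X + 192) ^ 3 - C jE * (X - 64) ^ 2 : (Ej k 1)[X])
    = X ^ 3 + (C (576 - jE) * X ^ 2 + C (110592 + 128 * jE) * X + C (7077888 - 4096 * jE)) := by
  simp only [C_sub, C_add, C_mul, map_ofNat]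
  ring

theorem poly2_deg : (C (576 - jE) * X ^ 2 + C (110592 + 128 * jE) * X
    + C (7077888 - 4096 * jE) : (Ej k 1)[X]).degree < (3 : ℕ) := by
  compute_degree
  norm_num

theorem poly3_eq : (X * (X + 216) ^ 3 - C jE * (X - 27) ^ 3 : (Ej k 1)[X])
    = X ^ 4 + (C (648 - jE) * X ^ 3 + C (139968 + 81 * jE) * X ^ 2
      + C (10077696 - 2187 * jE) * X + C (19683 * jE)) := by
  simp only [C_sub, C_add, C_mul, map_ofNat]
  ring

theorem poly3_deg : (C (648 - jE) * X ^ 3 + C (139968 + 81 * jE) * X ^ 2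
    + C (10077696 - 2187 * jE) * X + C (19683 * jE) : (Ej k 1)[X]).degree < (4 : ℕ) := by
  compute_degree
  norm_num

/-- `x₂ ∈ k(j(q), j(q²))` if `2 ≠ 0` in `k`. -/
theorem xq2_mem (h2 : (2 : k) ≠ 0) : xq2 k ∈ modularFunctionFieldC k 2 := by
  have hne : xq2 k - 64 ≠ 0 := by
    have := sub_ne_zero_of_lead (coeff_xq2_neg_one k) 64
    exact_mod_cast this
  refine mem_of_degree Nat.prime_two (by exact_mod_cast h2) (xq2 k)
    ((X + 192) ^ 3 - C jE * (X - 64) ^ 2) ?_ ?_ ?_ ?_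
  · rw [poly2_eq]
    exact monic_X_pow_add poly2_deg
  · rw [poly2_eq]
    exact natDegree_X_pow_add' poly2_deg
  · have h := rel2_j k
    simp only [map_sub, map_add, map_mul, map_pow, aeval_X, aeval_C, map_ofNat]
    rw [sub_eq_zero]
    exact h.symm
  · have h := rel2_j2 k
    have hx : xq2 k ∈ (Ej k 1)⟮xq2 k⟯ := mem_adjoin_simple_self _ _
    have : jd k 2 = (xq2 k - 48) ^ 3 / (xq2 k - 64) := by
      rw [eq_div_iff hne, jd, Vq_eq]; exact h
    rw [this]
    exact div_mem (pow_mem (sub_mem hx (by exact_mod_cast IntermediateField.natCast_mem _ 48)) 3)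
      (sub_mem hx (by exact_mod_cast IntermediateField.natCast_mem _ 64))

/-- `x₃ ∈ k(j(q), j(q³))` if `3 ≠ 0` in `k`. -/
theorem xq3_mem (h3 : (3 : k) ≠ 0) : xq3 k ∈ modularFunctionFieldC k 3 := by
  have hne : xq3 k - 27 ≠ 0 := by
    have := sub_ne_zero_of_lead (coeff_xq3_neg_one k) 27
    exact_mod_cast this
  refine mem_of_degree Nat.prime_three (by exact_mod_cast h3) (xq3 k)
    (X * (X + 216) ^ 3 - C jE * (X - 27) ^ 3) ?_ ?_ ?_ ?_
  · rw [poly3_eq]
    exact monic_X_pow_add poly3_deg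
  · rw [poly3_eq]
    exact natDegree_X_pow_add' poly3_deg
  · have h := rel3_j k
    simp only [map_sub, map_add, map_mul, map_pow, aeval_X, aeval_C, map_ofNat]
    rw [sub_eq_zero]
    exact h.symm
  · have h := rel3_j3 k
    have hx : xq3 k ∈ (Ej k 1)⟮xq3 k⟯ := mem_adjoin_simple_self _ _
    have : jd k 3 = xq3 k * (xq3 k - 24) ^ 3 / (xq3 k - 27) := by
      rw [eq_div_iff hne, jd, Vq_eq]; exact h
    rw [this]
    exact div_mem (mul_mem hx
      (pow_mem (sub_mem hx (by exact_mod_cast IntermediateField.natCast_mem _ 24)) 3))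
      (sub_mem hx (by exact_mod_cast IntermediateField.natCast_mem _ 27))

/-- `x₂` lies in the full function field of level `N` for `2 ∣ N`. -/
theorem xq2_mem_full (h2 : (2 : k) ≠ 0) {N : ℕ} [NeZero N] (hN : 2 ∣ N) :
    xq2 k ∈ modularFunctionFieldFullC k N :=
  full_degeneracyC_le k hN (modularFunctionFieldC_le_full k 2 (xq2_mem h2))

/-- `x₃` lies in the full function field of level `N` for `3 ∣ N`. -/
theorem xq3_mem_full (h3 : (3 : k) ≠ 0) {N : ℕ} [NeZero N] (hN : 3 ∣ N) :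
    xq3 k ∈ modularFunctionFieldFullC k N :=
  full_degeneracyC_le k hN (modularFunctionFieldC_le_full k 3 (xq3_mem h3))

/-- `x₂` lies in the function field of `X₀(N)` over `ℚ̄` for `2 ∣ N`. -/
theorem xq2_mem_bar {N : ℕ} [NeZero N] (hN : 2 ∣ N) :
    xq2 (AlgebraicClosure ℚ) ∈ modularFunctionFieldBar N := by
  have h : xq2 ℚ ∈ modularFunctionFieldFull N := xq2_mem_full (k := ℚ) (by norm_num) hN
  have h2 := coeffEmb_mem_laurentBaseChange (AlgebraicClosure ℚ) h
  rwa [coeffEmb, coeffMap_xq2] at h2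

/-- `x₃` lies in the function field of `X₀(N)` over `ℚ̄` for `3 ∣ N`. -/
theorem xq3_mem_bar {N : ℕ} [NeZero N] (hN : 3 ∣ N) :
    xq3 (AlgebraicClosure ℚ) ∈ modularFunctionFieldBar N := by
  have h : xq3 ℚ ∈ modularFunctionFieldFull N := xq3_mem_full (k := ℚ) (by norm_num) hN
  have h2 := coeffEmb_mem_laurentBaseChange (AlgebraicClosure ℚ) h
  rwa [coeffEmb, coeffMap_xq3] at h2

end Mem

end

end Fermat.Agent.KL.Haupt
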