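import Fermat.Agent.KL.HauptX

/-!
# KL / Hauptmodul package, part 6: Laurent series form.
-/

set_option autoImplicit false

open PowerSeries ModularCurve HahnSeries

namespace Fermat.Agent.KL.Haupt

noncomputable section

section General

variable (R : Type*) [CommRing R]

/-- `ℤ⟦X⟧ → R((q))`. -/
def lau : PowerSeries ℤ →+* LaurentSeries R :=
  (HahnSeries.ofPowerSeries ℤ R).comp (PowerSeries.map (Int.castRingHom R))

theorem lau_apply (u : PowerSeries ℤ) :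
    lau R u = HahnSeries.ofPowerSeries ℤ R (u.map (Int.castRingHom R)) := rfl

theorem lau_X : lau R X = HahnSeries.single (1 : ℤ) 1 := by
  rw [lau_apply, PowerSeries.map_X, HahnSeries.ofPowerSeries_X]

theorem single_neg_one_mul_lau_X : HahnSeries.single (-1 : ℤ) (1 : R) * lau R X = 1 := by
  rw [lau_X, HahnSeries.single_mul_single]
  simp

variable {R} in
theorem coeffMap_lau {S : Type*} [CommRing S] (f : R →+* S) (u : PowerSeries ℤ) :
    coeffMap f (lau R u) = lau S u := by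
  rw [lau_apply, coeffMap_ofPowerSeries,
    ← RingHom.comp_apply (PowerSeries.map f) (PowerSeries.map (Int.castRingHom R)),
    ← PowerSeries.map_comp, RingHom.ext_int (f.comp (Int.castRingHom R)) (Int.castRingHom S)]
  rfl

theorem jqModC_eq : jqModC R = HahnSeries.single (-1 : ℤ) 1 * lau R jNum := rfl

theorem qExpand_ofPowerSeries (M : ℕ) [NeZero M] (u : PowerSeries R) :
    qExpand R M (HahnSeries.ofPowerSeries ℤ R u)
      = HahnSeries.ofPowerSeries ℤ R (expand M (NeZero.ne M) u) := by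
  have hMpos : (0 : ℤ) < M := by exact_mod_cast Nat.pos_of_ne_zero (NeZero.ne M)
  ext k
  by_cases hk : (M : ℤ) ∣ k
  · obtain ⟨m, rfl⟩ := hk
    rw [qExpand_coeff_mul]
    rcases le_or_gt 0 m with hm | hm
    · lift m to ℕ using hm
      rw [HahnSeries.ofPowerSeries_apply_coeff,
        show (M : ℤ) * (m : ℤ) = ((M * m : ℕ) : ℤ) by push_cast; ring,
        HahnSeries.ofPowerSeries_apply_coeff, coeff_expand_mul]
    · rw [ofPowerSeries_coeff_of_neg _ hm,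
        ofPowerSeries_coeff_of_neg _ (mul_neg_of_pos_of_neg hMpos hm)]
  · rw [qExpand_coeff_of_not_dvd _ _ hk]
    rcases le_or_gt 0 k with hk0 | hk0
    · lift k to ℕ using hk0
      rw [HahnSeries.ofPowerSeries_apply_coeff, coeff_expand_of_not_dvd]
      exact_mod_cast hk
    · rw [ofPowerSeries_coeff_of_neg _ hk0]

theorem qExpand_lau (M : ℕ) [NeZero M] (u : PowerSeries ℤ) :
    qExpand R M (lau R u) = lau R (expand M (NeZero.ne M) u) := by
  rw [lau_apply, qExpand_ofPowerSeries, lau_apply, map_expand]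

/-- `j Δ = E₄³`. -/
theorem jq_mul_Ds : jqModC R * lau R Ds = lau R (eisenstein4 ^ 3) := by
  have h : jNum * dedekindEtaUnit = eisenstein4 ^ 3 := by
    rw [jNum, mul_assoc, mul_comm dedekindEtaUnitInv, dedekindEtaUnit_mul_inv, mul_one]
  rw [jqModC_eq, Ds, map_mul, ← h, map_mul]
  linear_combination (lau R jNum * lau R dedekindEtaUnit) * single_neg_one_mul_lau_X R

/-- `j(q^M) Δ(q^M) = E₄(q^M)³`. -/
theorem jqM_mul_Ds (M : ℕ) [NeZero M] :
    qExpand R M (jqModC R) * lau R (expand M (NeZero.ne M) Ds)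
      = lau R (expand M (NeZero.ne M) eisenstein4 ^ 3) := by
  rw [← qExpand_lau, ← map_mul, jq_mul_Ds, qExpand_lau, map_pow]

/-- The Hauptmodul `x₂ = a₂ / b₂ = 1/q + ⋯` of `X₀(2)`. -/
def xq2 : LaurentSeries R := HahnSeries.single (-1 : ℤ) 1 * lau R (a2 * bUinv 2)

/-- The Hauptmodul `x₃ = a₃ / b₃ = 1/q + ⋯` of `X₀(3)`. -/
def xq3 : LaurentSeries R := HahnSeries.single (-1 : ℤ) 1 * lau R (a3 * bUinv 3)

variable {R} in
theorem coeffMap_xq2 {S : Type*} [CommRing S] (f : R →+* S) : coeffMap f (xq2 R) = xq2 S := by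
  rw [xq2, map_mul, coeffMap_single, map_one, coeffMap_lau, xq2]

variable {R} in
theorem coeffMap_xq3 {S : Type*} [CommRing S] (f : R →+* S) : coeffMap f (xq3 R) = xq3 S := by
  rw [xq3, map_mul, coeffMap_single, map_one, coeffMap_lau, xq3]

theorem xq2_mul : xq2 R * lau R (bS 2) = lau R a2 := by
  have h1 := congrArg (lau R) (bU_mul_inv 2 le_rfl)
  rw [map_mul, map_one] at h1
  rw [xq2, bS_eq, map_mul, map_mul]
  linear_combination (lau R a2 * lau R (bU 2) * lau R (bUinv 2)) * single_neg_one_mul_lau_X R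
    + lau R a2 * h1

theorem xq3_mul : xq3 R * lau R (bS 3) = lau R a3 := by
  have h1 := congrArg (lau R) (bU_mul_inv 3 (by norm_num))
  rw [map_mul, map_one] at h1
  rw [xq3, bS_eq, map_mul, map_mul]
  linear_combination (lau R a3 * lau R (bU 3) * lau R (bUinv 3)) * single_neg_one_mul_lau_X R
    + lau R a3 * h1

end General

theorem lau_injective_int : Function.Injective (lau ℤ) := by
  intro u v h
  rw [lau_apply, lau_apply] at h
  have h2 := HahnSeries.ofPowerSeries_injective h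
  ext n
  have := congrArg (PowerSeries.coeff n) h2
  simpa using this

theorem lau_ne_zero_int {u : PowerSeries ℤ} (hu : u ≠ 0) : lau ℤ u ≠ 0 := fun h =>
  hu (lau_injective_int (by rw [h, map_zero]))

theorem bS_ne_zero (M : ℕ) [NeZero M] (hM : 2 ≤ M) : bS M ≠ 0 := by
  intro h
  have h1 := congrArg (PowerSeries.coeff 1) h
  rw [bS_eq, show (1 : ℕ) = 0 + 1 from rfl, coeff_succ_X_mul, coeff_zero_eq_constantCoeff_apply,
    constantCoeff_bU M hM] at h1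
  simp at h1

theorem Ds_ne_zero : Ds ≠ 0 := by
  intro h
  have := coeff_Ds_one
  rw [h] at this
  simp at this

theorem expand_ne_zero (M : ℕ) [NeZero M] {u : PowerSeries ℤ} (hu : u ≠ 0) :
    expand M (NeZero.ne M) u ≠ 0 := by
  intro h
  apply hu
  ext n
  have := congrArg (PowerSeries.coeff (M * n)) h
  rwa [coeff_expand_mul] at this

section Relations

variable (R : Type*) [CommRing R]

theorem rel2_j_int : jqModC ℤ * (xq2 ℤ - 64) ^ 2 = (xq2 ℤ + 192) ^ 3 := by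
  have hB := lau_ne_zero_int (bS_ne_zero 2 le_rfl)
  have hD := lau_ne_zero_int Ds_ne_zero
  have hx := xq2_mul ℤ
  have hj := jq_mul_Ds ℤ
  have h1 := congrArg (lau ℤ) Ds_eq_two
  have h2 := congrArg (lau ℤ) E4_eq_two
  simp only [map_mul, map_pow, map_sub, map_add, map_ofNat] at h1 h2 hj
  apply mul_left_cancel₀ (mul_ne_zero (pow_ne_zero 3 hB) hD)
  rw [h2] at hj
  have e1 : lau ℤ (bS 2) ^ 3 * lau ℤ Ds * (jqModC ℤ * (xq2 ℤ - 64) ^ 2)
      = (jqModC ℤ * lau ℤ Ds) * (lau ℤ (bS 2) * (xq2 ℤ * lau ℤ (bS 2) - 64 * lau ℤ (bS 2)) ^ 2) := by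
    ring
  have e2 : lau ℤ (bS 2) ^ 3 * lau ℤ Ds * (xq2 ℤ + 192) ^ 3
      = (xq2 ℤ * lau ℤ (bS 2) + 192 * lau ℤ (bS 2)) ^ 3 * lau ℤ Ds := by ring
  rw [e1, e2, hx, hj, h1]

theorem rel2_j2_int : qExpand ℤ 2 (jqModC ℤ) * (xq2 ℤ - 64) = (xq2 ℤ - 48) ^ 3 := by
  have hB := lau_ne_zero_int (bS_ne_zero 2 le_rfl)
  have hD := lau_ne_zero_int (expand_ne_zero 2 Ds_ne_zero)
  have hx := xq2_mul ℤ
  have hj := jqM_mul_Ds ℤ 2
  have h1 := congrArg (lau ℤ) Ds2_eq_two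
  have h2 := congrArg (lau ℤ) E42_eq_two
  simp only [map_mul, map_pow, map_sub, map_add, map_ofNat] at h1 h2 hj
  apply mul_left_cancel₀ (mul_ne_zero (pow_ne_zero 3 hB) hD)
  rw [h2] at hj
  have e1 : lau ℤ (bS 2) ^ 3 * lau ℤ (expand 2 (NeZero.ne 2) Ds)
        * (qExpand ℤ 2 (jqModC ℤ) * (xq2 ℤ - 64))
      = (qExpand ℤ 2 (jqModC ℤ) * lau ℤ (expand 2 (NeZero.ne 2) Ds))
        * (lau ℤ (bS 2) ^ 2 * (xq2 ℤ * lau ℤ (bS 2) - 64 * lau ℤ (bS 2))) := by
    ring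
  have e2 : lau ℤ (bS 2) ^ 3 * lau ℤ (expand 2 (NeZero.ne 2) Ds) * (xq2 ℤ - 48) ^ 3
      = (xq2 ℤ * lau ℤ (bS 2) - 48 * lau ℤ (bS 2)) ^ 3 * lau ℤ (expand 2 (NeZero.ne 2) Ds) := by
    ring
  rw [e1, e2, hx, hj, h1]

theorem rel3_j_int : jqModC ℤ * (xq3 ℤ - 27) ^ 3 = xq3 ℤ * (xq3 ℤ + 216) ^ 3 := by
  have hB := lau_ne_zero_int (bS_ne_zero 3 (by norm_num))
  have hD := lau_ne_zero_int Ds_ne_zero
  have hx := xq3_mul ℤ
  have hj := jq_mul_Ds ℤ
  have h1 := congrArg (lau ℤ) Ds_eq_three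
  have h2 := congrArg (lau ℤ) E4_eq_three
  simp only [map_mul, map_pow, map_sub, map_add, map_ofNat] at h1 h2 hj
  apply mul_left_cancel₀ (mul_ne_zero (pow_ne_zero 4 hB) hD)
  rw [h2] at hj
  have e1 : lau ℤ (bS 3) ^ 4 * lau ℤ Ds * (jqModC ℤ * (xq3 ℤ - 27) ^ 3)
      = (jqModC ℤ * lau ℤ Ds) * (lau ℤ (bS 3) * (xq3 ℤ * lau ℤ (bS 3) - 27 * lau ℤ (bS 3)) ^ 3) := by
    ring
  have e2 : lau ℤ (bS 3) ^ 4 * lau ℤ Ds * (xq3 ℤ * (xq3 ℤ + 216) ^ 3)
      = (xq3 ℤ * lau ℤ (bS 3) + 216 * lau ℤ (bS 3)) ^ 3 * ((xq3 ℤ * lau ℤ (bS 3)) * lau ℤ Ds) := by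
    ring
  rw [e1, e2, hx, hj, h1]

theorem rel3_j3_int : qExpand ℤ 3 (jqModC ℤ) * (xq3 ℤ - 27) = xq3 ℤ * (xq3 ℤ - 24) ^ 3 := by
  have hB := lau_ne_zero_int (bS_ne_zero 3 (by norm_num))
  have hD := lau_ne_zero_int (expand_ne_zero 3 Ds_ne_zero)
  have hx := xq3_mul ℤ
  have hj := jqM_mul_Ds ℤ 3
  have h1 := congrArg (lau ℤ) Ds3_eq_three
  have h2 := congrArg (lau ℤ) E43_eq_three
  simp only [map_mul, map_pow, map_sub, map_add, map_ofNat] at h1 h2 hj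
  apply mul_left_cancel₀ (mul_ne_zero (pow_ne_zero 4 hB) hD)
  rw [h2] at hj
  have e1 : lau ℤ (bS 3) ^ 4 * lau ℤ (expand 3 (NeZero.ne 3) Ds)
        * (qExpand ℤ 3 (jqModC ℤ) * (xq3 ℤ - 27))
      = (qExpand ℤ 3 (jqModC ℤ) * lau ℤ (expand 3 (NeZero.ne 3) Ds))
        * (lau ℤ (bS 3) ^ 3 * (xq3 ℤ * lau ℤ (bS 3) - 27 * lau ℤ (bS 3))) := by
    ring
  have e2 : lau ℤ (bS 3) ^ 4 * lau ℤ (expand 3 (NeZero.ne 3) Ds) * (xq3 ℤ * (xq3 ℤ - 24) ^ 3)
      = (xq3 ℤ * lau ℤ (bS 3) - 24 * lau ℤ (bS 3)) ^ 3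
        * ((xq3 ℤ * lau ℤ (bS 3)) * lau ℤ (expand 3 (NeZero.ne 3) Ds)) := by
    ring
  rw [e1, e2, hx, hj, h1]

/-- `j (x₂ - 64)² = (x₂ + 192)³`. -/
theorem rel2_j : jqModC R * (xq2 R - 64) ^ 2 = (xq2 R + 192) ^ 3 := by
  have h := congrArg (coeffMap (Int.castRingHom R)) rel2_j_int
  simpa only [map_mul, map_pow, map_sub, map_add, map_ofNat, coeffMap_jqModC, coeffMap_xq2] using h

/-- `j(q²) (x₂ - 64) = (x₂ - 48)³`. -/
theorem rel2_j2 : qExpand R 2 (jqModC R) * (xq2 R - 64) = (xq2 R - 48) ^ 3 := by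
  have h := congrArg (coeffMap (Int.castRingHom R)) rel2_j2_int
  simpa only [map_mul, map_pow, map_sub, map_add, map_ofNat, coeffMap_jqModC, coeffMap_xq2,
    coeffMap_qExpand] using h

/-- `j (x₃ - 27)³ = x₃ (x₃ + 216)³`. -/
theorem rel3_j : jqModC R * (xq3 R - 27) ^ 3 = xq3 R * (xq3 R + 216) ^ 3 := by
  have h := congrArg (coeffMap (Int.castRingHom R)) rel3_j_int
  simpa only [map_mul, map_pow, map_sub, map_add, map_ofNat, coeffMap_jqModC, coeffMap_xq3] using h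

/-- `j(q³) (x₃ - 27) = x₃ (x₃ - 24)³`. -/
theorem rel3_j3 : qExpand R 3 (jqModC R) * (xq3 R - 27) = xq3 R * (xq3 R - 24) ^ 3 := by
  have h := congrArg (coeffMap (Int.castRingHom R)) rel3_j3_int
  simpa only [map_mul, map_pow, map_sub, map_add, map_ofNat, coeffMap_jqModC, coeffMap_xq3,
    coeffMap_qExpand] using h

end Relations

end

end Fermat.Agent.KL.Haupt
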