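import Fermat.Agent.KL.HauptRaise
import Fermat.Agent.Common.QExpDelta
import Fermat.Agent.S20.CombIndex
import Fermat.Prelude.Thm_ModularForm_sturm_bound_Gamma0

/-!
# KL / Hauptmodul package, part 2: a calculus "modular form on `Γ₀(N)` with integral `q`-expansion"
and the Sturm bound in this language.
-/

set_option autoImplicit false

open UpperHalfPlane ModularForm CongruenceSubgroup Matrix.SpecialLinearGroup
open scoped MatrixGroups ModularForm Manifold

namespace Fermat.Agent.KL.Haupt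

noncomputable section

/-- coefficient change `ℤ⟦X⟧ → ℂ⟦X⟧`. -/
abbrev toC : PowerSeries ℤ →+* PowerSeries ℂ := PowerSeries.map (Int.castRingHom ℂ)

theorem toC_injective : Function.Injective toC := by
  intro p q h
  ext n
  have := congrArg (PowerSeries.coeff n) h
  simpa using this

/-- `f` is a modular form of weight `k` on `Γ₀(N)` whose `q`-expansion is the integral series `p`. -/
structure HasQ (N : ℕ) (k : ℤ) (f : ℍ → ℂ) (p : PowerSeries ℤ) : Prop where
  isMF : S20.IsMF (Gamma0 N) k f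
  qexp : qExpansion 1 f = toC p

variable {N : ℕ} [NeZero N] {k k₁ k₂ : ℤ} {f g : ℍ → ℂ} {p q : PowerSeries ℤ}

theorem HasQ.add (hf : HasQ N k f p) (hg : HasQ N k g q) : HasQ N k (f + g) (p + q) :=
  ⟨hf.isMF.add hg.isMF, by
    rw [qExpansion_add (analyticAt_of_isMF hf.isMF) (analyticAt_of_isMF hg.isMF), hf.qexp, hg.qexp,
      map_add]⟩

theorem HasQ.sub (hf : HasQ N k f p) (hg : HasQ N k g q) : HasQ N k (f - g) (p - q) :=
  ⟨hf.isMF.sub hg.isMF, by
    rw [qExpansion_sub (analyticAt_of_isMF hf.isMF) (analyticAt_of_isMF hg.isMF), hf.qexp, hg.qexp,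
      map_sub]⟩

theorem HasQ.mul (hf : HasQ N k₁ f p) (hg : HasQ N k₂ g q) (hk : k = k₁ + k₂) :
    HasQ N k (f * g) (p * q) :=
  ⟨hf.isMF.mul' hg.isMF hk, by
    rw [qExpansion_mul (analyticAt_of_isMF hf.isMF) (analyticAt_of_isMF hg.isMF), hf.qexp, hg.qexp,
      map_mul]⟩

theorem HasQ.intSmul (c : ℤ) (hf : HasQ N k f p) :
    HasQ N k ((c : ℂ) • f) ((c : PowerSeries ℤ) * p) :=
  ⟨hf.isMF.smul _, by
    rw [qExpansion_smul (analyticAt_of_isMF hf.isMF), hf.qexp, map_mul, map_intCast,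
      PowerSeries.smul_eq_C_mul, ← map_intCast (PowerSeries.C (R := ℂ))]⟩

/-- The Sturm bound. -/
theorem HasQ.eq_zero (hf : HasQ N k f p)
    (h : ∀ n : ℕ, n ≤ (k * (ModularCurve.dedekindPsi N : ℤ)).toNat / 12 → p.coeff n = 0) :
    p = 0 := by
  have h0 : hf.isMF.toModularForm = 0 := by
    apply ModularForm.sturm_bound_Gamma0 N
    intro n hn
    rw [S20.index_Gamma0 N (NeZero.ne N)] at hn
    rw [S20.IsMF.coe_toModularForm, hf.qexp, PowerSeries.coeff_map, h n hn, map_zero]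
  have h1 : f = 0 := by
    have := congrArg (fun F : ModularForm (Gamma0 N : Subgroup (GL (Fin 2) ℝ)) k => (⇑F : ℍ → ℂ)) h0
    simpa using this
  apply toC_injective
  rw [← hf.qexp, h1, qExpansion_zero, map_zero]

omit [NeZero N] in
/-- level one forms, seen on `Γ₀(N)`. -/
theorem hasQ_of_levelOne (F : ModularForm 𝒮ℒ k) (hF : qExpansion 1 F = toC p) : HasQ N k F p :=
  ⟨(S20.isMF_top_coe F).of_top, hF⟩

/-- The function `F(N z)`. -/
def lowFun (k : ℤ) (N : ℕ) (F : ℍ → ℂ) : ℍ → ℂ := ((N : ℂ) ^ (k - 1))⁻¹ • raiseFun k N F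

theorem hasQ_lowFun (F : ModularForm 𝒮ℒ k) (hF : qExpansion 1 F = toC p) :
    HasQ N k (lowFun k N F) (PowerSeries.expand N (NeZero.ne N) p) := by
  refine ⟨(isMF_raise N F).smul _, ?_⟩
  rw [lowFun, qExpansion_smul (analyticAt_of_isMF (isMF_raise N F))]
  ext n
  have hN : ((N : ℂ) ^ (k - 1)) ≠ 0 := zpow_ne_zero _ (by exact_mod_cast NeZero.ne N)
  rw [PowerSeries.coeff_smul, raise_coeff, hF, PowerSeries.coeff_map, PowerSeries.coeff_map,
    PowerSeries.coeff_expand]
  split_ifs with h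
  · rw [smul_eq_mul, inv_mul_cancel_left₀ hN]
  · simp

omit [NeZero N] in
open ModularCurve in
theorem hasQ_E4 : HasQ N 4 E₄ eisenstein4 := hasQ_of_levelOne E₄ Common.qExpansion_E4

open ModularCurve in
theorem hasQ_E4_low : HasQ N 4 (lowFun 4 N E₄) (PowerSeries.expand N (NeZero.ne N) eisenstein4) :=
  hasQ_lowFun E₄ Common.qExpansion_E4

end

end Fermat.Agent.KL.Haupt
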