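import Fermat.Agent.KL.HauptQ

/-!
# KL / Hauptmodul package, part 3: truncated computations modulo `X ^ 6`
-/

set_option autoImplicit false

open PowerSeries ModularCurve

namespace Fermat.Agent.KL.Haupt

noncomputable section

/-- `Δ(q) = q ∏ (1 - q^n)^24` as a formal power series over `ℤ`. -/
def Ds : PowerSeries ℤ := X * dedekindEtaUnit

/-- `ℤ⟦X⟧ / (X ^ 6)`. -/
abbrev Q6 : Type := PowerSeries ℤ ⧸ Ideal.span {(X : PowerSeries ℤ) ^ 6}

/-- the quotient map. -/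
abbrev mk6 : PowerSeries ℤ →+* Q6 := Ideal.Quotient.mk _

/-- the class of `X`. -/
abbrev x6 : Q6 := mk6 X

theorem x6_pow : x6 ^ 6 = 0 := by
  rw [← map_pow, Ideal.Quotient.eq_zero_iff_mem]
  exact Ideal.mem_span_singleton_self _

theorem mk6_eq_zero_iff (p : PowerSeries ℤ) : mk6 p = 0 ↔ ∀ n < 6, p.coeff n = 0 := by
  rw [Ideal.Quotient.eq_zero_iff_mem, Ideal.mem_span_singleton, X_pow_dvd_iff]

theorem mk6_eq (p : PowerSeries ℤ) :
    mk6 p = (p.coeff 0 : Q6) + (p.coeff 1 : Q6) * x6 + (p.coeff 2 : Q6) * x6 ^ 2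
      + (p.coeff 3 : Q6) * x6 ^ 3 + (p.coeff 4 : Q6) * x6 ^ 4 + (p.coeff 5 : Q6) * x6 ^ 5 := by
  have h : mk6 (p - ((p.coeff 0 : PowerSeries ℤ) + (p.coeff 1 : PowerSeries ℤ) * X
      + (p.coeff 2 : PowerSeries ℤ) * X ^ 2 + (p.coeff 3 : PowerSeries ℤ) * X ^ 3
      + (p.coeff 4 : PowerSeries ℤ) * X ^ 4 + (p.coeff 5 : PowerSeries ℤ) * X ^ 5)) = 0 := by
    rw [mk6_eq_zero_iff]
    intro n hn
    have hc : ∀ c : ℤ, (c : PowerSeries ℤ) = C c := fun c => by simp
    simp only [hc, map_sub, map_add, coeff_C_mul, coeff_X_pow, coeff_C, coeff_X]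
    interval_cases n <;> simp
  rw [map_sub, sub_eq_zero] at h
  rw [h]
  simp only [map_add, map_mul, map_pow, map_intCast]

theorem coeff_eisenstein4 (n : ℕ) :
    eisenstein4.coeff n = if n = 0 then 1 else 240 * ∑ d ∈ n.divisors, (d : ℤ) ^ 3 := by
  rw [eisenstein4, coeff_mk]

theorem mk6_E4 : mk6 eisenstein4 = (1) + (240) * x6 + (2160) * x6 ^ 2 + (6720) * x6 ^ 3 + (17520) * x6 ^ 4 + (30240) * x6 ^ 5 := by
  rw [mk6_eq]
  simp only [coeff_eisenstein4]
  have h1 : (∑ d ∈ Nat.divisors 1, (d : ℤ) ^ 3) = 1 := by decide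
  have h2 : (∑ d ∈ Nat.divisors 2, (d : ℤ) ^ 3) = 9 := by decide
  have h3 : (∑ d ∈ Nat.divisors 3, (d : ℤ) ^ 3) = 28 := by decide
  have h4 : (∑ d ∈ Nat.divisors 4, (d : ℤ) ^ 3) = 73 := by decide
  have h5 : (∑ d ∈ Nat.divisors 5, (d : ℤ) ^ 3) = 126 := by decide
  rw [h1, h2, h3, h4, h5]
  norm_num

theorem mk6_E4_two : mk6 (expand 2 two_ne_zero eisenstein4) = (1) + (240) * x6 ^ 2 + (2160) * x6 ^ 4 := by
  rw [mk6_eq]
  simp only [coeff_expand, coeff_eisenstein4]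
  have h1 : (∑ d ∈ Nat.divisors 1, (d : ℤ) ^ 3) = 1 := by decide
  have h2 : (∑ d ∈ Nat.divisors 2, (d : ℤ) ^ 3) = 9 := by decide
  norm_num [h1, h2]

theorem mk6_E4_three : mk6 (expand 3 three_ne_zero eisenstein4) = (1) + (240) * x6 ^ 3 := by
  rw [mk6_eq]
  simp only [coeff_expand, coeff_eisenstein4]
  have h1 : (∑ d ∈ Nat.divisors 1, (d : ℤ) ^ 3) = 1 := by decide
  norm_num [h1]

theorem not_pentagonal {n : ℕ} (h : ∀ k : ℤ, k * (3 * k - 1) ≠ 2 * n) :
    n ∉ Set.range pentagonal := by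
  rintro ⟨k, rfl⟩
  exact h k (two_mul_natCast_pentagonal k).symm

theorem etaProd_eq : etaProd = pentagonalSeries ℤ := by
  rw [etaProd, PowerSeries.WithPiTopology.tprod_one_sub_X_pow]

theorem mk6_etaProd : mk6 etaProd = 1 - x6 - x6 ^ 2 + x6 ^ 5 := by
  rw [mk6_eq, etaProd_eq]
  have h0 : (pentagonalSeries ℤ).coeff 0 = 1 := by
    have := coeff_pentagonalSeries_pentagonal (R := ℤ) 0
    simpa [pentagonal] using this
  have h1 : (pentagonalSeries ℤ).coeff 1 = -1 := by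
    have := coeff_pentagonalSeries_pentagonal (R := ℤ) 1
    simpa [pentagonal] using this
  have h2 : (pentagonalSeries ℤ).coeff 2 = -1 := by
    have := coeff_pentagonalSeries_pentagonal (R := ℤ) (-1)
    simpa [pentagonal] using this
  have h5 : (pentagonalSeries ℤ).coeff 5 = 1 := by
    have := coeff_pentagonalSeries_pentagonal (R := ℤ) 2
    simpa [pentagonal] using this
  have h3 : (pentagonalSeries ℤ).coeff 3 = 0 := by
    apply coeff_pentagonalSeries_eq_zero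
    apply not_pentagonal
    intro k hk
    push_cast at hk
    have hk1 : k ≤ 2 := by nlinarith [sq_nonneg (k - 1)]
    have hk2 : -2 ≤ k := by nlinarith [sq_nonneg (k + 1)]
    interval_cases k <;> simp at hk
  have h4 : (pentagonalSeries ℤ).coeff 4 = 0 := by
    apply coeff_pentagonalSeries_eq_zero
    apply not_pentagonal
    intro k hk
    push_cast at hk
    have hk1 : k ≤ 2 := by nlinarith [sq_nonneg (k - 1)]
    have hk2 : -2 ≤ k := by nlinarith [sq_nonneg (k + 1)]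
    interval_cases k <;> simp at hk
  rw [h0, h1, h2, h3, h4, h5]
  push_cast
  ring

theorem mk6_Ds : mk6 Ds = (1) * x6 + (-24) * x6 ^ 2 + (252) * x6 ^ 3 + (-1472) * x6 ^ 4 + (4830) * x6 ^ 5 := by
  have hx := x6_pow
  have e1 := mk6_etaProd
  have e2 : mk6 etaProd ^ 2 = (1) + (-2) * x6 + (-1) * x6 ^ 2 + (2) * x6 ^ 3 + (1) * x6 ^ 4 + (2) * x6 ^ 5 := by
    rw [e1]
    linear_combination ((-2) + (-2) * x6 + (1) * x6 ^ 4) * hx
  have e4 : mk6 etaProd ^ 4 = (1) + (-4) * x6 + (2) * x6 ^ 2 + (8) * x6 ^ 3 + (-5) * x6 ^ 4 + (-4) * x6 ^ 5 := by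
    rw [show mk6 etaProd ^ 4 = (mk6 etaProd ^ 2) ^ 2 by ring, e2]
    linear_combination ((-6) + (9) * x6 ^ 2 + (4) * x6 ^ 3 + (4) * x6 ^ 4) * hx
  have e8 : mk6 etaProd ^ 8 = (1) + (-8) * x6 + (20) * x6 ^ 2 + (-70) * x6 ^ 4 + (64) * x6 ^ 5 := by
    rw [show mk6 etaProd ^ 8 = (mk6 etaProd ^ 4) ^ 2 by ring, e4]
    linear_combination ((76) + (-96) * x6 + (-39) * x6 ^ 2 + (40) * x6 ^ 3 + (16) * x6 ^ 4) * hx
  have e16 : mk6 etaProd ^ 16 = (1) + (-16) * x6 + (104) * x6 ^ 2 + (-320) * x6 ^ 3 + (260) * x6 ^ 4 + (1248) * x6 ^ 5 := by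
    rw [show mk6 etaProd ^ 16 = (mk6 etaProd ^ 8) ^ 2 by ring, e8]
    linear_combination ((-3824) + (2560) * x6 + (4900) * x6 ^ 2 + (-8960) * x6 ^ 3 + (4096) * x6 ^ 4) * hx
  have e24 : mk6 etaProd ^ 24 = (1) + (-24) * x6 + (252) * x6 ^ 2 + (-1472) * x6 ^ 3 + (4830) * x6 ^ 4 + (-6048) * x6 ^ 5 := by
    rw [show mk6 etaProd ^ 24 = mk6 etaProd ^ 16 * mk6 etaProd ^ 8 by ring, e16, e8]
    linear_combination ((-13088) + (54016) * x6 + (-38680) * x6 ^ 2 + (-70720) * x6 ^ 3 + (79872) * x6 ^ 4) * hx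
  rw [Ds, dedekindEtaUnit, map_mul, map_pow, e24]
  linear_combination (-6048) * hx

theorem coeff_Ds_of_lt {n : ℕ} (hn : n < 6) :
    Ds.coeff n = ((X : PowerSeries ℤ) - C 24 * X ^ 2 + C 252 * X ^ 3 - C 1472 * X ^ 4
      + C 4830 * X ^ 5).coeff n := by
  have hC : ∀ c : ℤ, mk6 (C c) = (c : Q6) := fun c => by
    rw [← map_intCast mk6]
    congr 1
    simp
  have h : mk6 (Ds - ((X : PowerSeries ℤ) - C 24 * X ^ 2 + C 252 * X ^ 3 - C 1472 * X ^ 4
      + C 4830 * X ^ 5)) = 0 := by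
    rw [map_sub, mk6_Ds]
    simp only [map_add, map_sub, map_mul, map_pow, hC]
    push_cast
    ring
  have := (mk6_eq_zero_iff _).1 h n hn
  rwa [map_sub, sub_eq_zero] at this

theorem coeff_Ds_zero : Ds.coeff 0 = 0 := by
  rw [coeff_Ds_of_lt (by norm_num)]
  simp only [map_sub, map_add, coeff_C_mul, coeff_X_pow, coeff_X]
  norm_num

theorem coeff_Ds_one : Ds.coeff 1 = 1 := by
  rw [coeff_Ds_of_lt (by norm_num)]
  simp only [map_sub, map_add, coeff_C_mul, coeff_X_pow, coeff_X]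
  norm_num

theorem coeff_Ds_two : Ds.coeff 2 = -24 := by
  rw [coeff_Ds_of_lt (by norm_num)]
  simp only [map_sub, map_add, coeff_C_mul, coeff_X_pow, coeff_X]
  norm_num

theorem mk6_Ds_two : mk6 (expand 2 two_ne_zero Ds) = (1) * x6 ^ 2 + (-24) * x6 ^ 4 := by
  rw [mk6_eq]
  simp only [coeff_expand]
  norm_num [coeff_Ds_zero, coeff_Ds_one, coeff_Ds_two]

theorem mk6_Ds_three : mk6 (expand 3 three_ne_zero Ds) = (1) * x6 ^ 3 := by
  rw [mk6_eq]
  simp only [coeff_expand]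
  norm_num [coeff_Ds_zero, coeff_Ds_one, coeff_Ds_two]

theorem mk6_id2a : mk6 (54000 * Ds - (eisenstein4 - expand 2 two_ne_zero eisenstein4) * (16 * expand 2 two_ne_zero eisenstein4 - eisenstein4) ^ 2) = 0 := by
  have hx := x6_pow
  simp only [map_sub, map_add, map_mul, map_pow, map_ofNat, mk6_Ds, mk6_E4, mk6_E4_two]
  linear_combination ((338688000) + (874368000) * x6 + (-2626560000) * x6 ^ 2 + (-30153600000) * x6 ^ 3 + (292854528000) * x6 ^ 4 + (-1380685824000) * x6 ^ 5 + (4465152000000) * x6 ^ 6 + (-11386303488000) * x6 ^ 7 + (17118646272000) * x6 ^ 8 + (-27653197824000) * x6 ^ 9) * hx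

theorem mk6_id2b : mk6 (864000 * expand 2 two_ne_zero Ds - (eisenstein4 - expand 2 two_ne_zero eisenstein4) ^ 2 * (16 * expand 2 two_ne_zero eisenstein4 - eisenstein4)) = 0 := by
  have hx := x6_pow
  simp only [map_sub, map_add, map_mul, map_pow, map_ofNat, mk6_Ds_two, mk6_E4, mk6_E4_two]
  linear_combination ((-217728000) + (387072000) * x6 + (1479168000) * x6 ^ 2 + (39370752000) * x6 ^ 3 + (279075456000) * x6 ^ 4 + (1067157504000) * x6 ^ 5 + (3514890240000) * x6 ^ 6 + (9740279808000) * x6 ^ 7 + (12509779968000) * x6 ^ 8 + (27653197824000) * x6 ^ 9) * hx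

theorem mk6_id3a : mk6 (12288000 * ((eisenstein4 + 9 * expand 3 three_ne_zero eisenstein4) * Ds) - (eisenstein4 - expand 3 three_ne_zero eisenstein4) * (81 * expand 3 three_ne_zero eisenstein4 - eisenstein4) ^ 3) = 0 := by
  have hx := x6_pow
  simp only [map_sub, map_add, map_mul, map_pow, map_ofNat, mk6_Ds, mk6_E4, mk6_E4_three]
  linear_combination ((773038080000) + (19212779520000) * x6 + (221361684480000) * x6 ^ 2 + (629668823040000) * x6 ^ 3 + (2457803243520000) * x6 ^ 4 + (-3289794600960000) * x6 ^ 5 + (5341056122880000) * x6 ^ 6 + (965833113600000) * x6 ^ 7 + (-45151561728000000) * x6 ^ 8 + (174317724794880000) * x6 ^ 9 + (-128391575592960000) * x6 ^ 10 + (-633245270999040000) * x6 ^ 11 + (808105449553920000) * x6 ^ 12 + (1937936103505920000) * x6 ^ 13 + (836232702197760000) * x6 ^ 14) * hx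

theorem mk6_id3b : mk6 (110592000 * ((eisenstein4 + 9 * expand 3 three_ne_zero eisenstein4) * expand 3 three_ne_zero Ds) - (eisenstein4 - expand 3 three_ne_zero eisenstein4) ^ 3 * (81 * expand 3 three_ne_zero eisenstein4 - eisenstein4)) = 0 := by
  have hx := x6_pow
  simp only [map_sub, map_add, map_mul, map_pow, map_ofNat, mk6_Ds_three, mk6_E4, mk6_E4_three]
  linear_combination ((26542080000) + (637009920000) * x6 + (6539304960000) * x6 ^ 2 + (29269278720000) * x6 ^ 3 + (134866944000000) * x6 ^ 4 + (497076756480000) * x6 ^ 5 + (2874555924480000) * x6 ^ 6 + (16203813765120000) * x6 ^ 7 + (68054576578560000) * x6 ^ 8 + (231945835806720000) * x6 ^ 9 + (612237563043840000) * x6 ^ 10 + (1212408160911360000) * x6 ^ 11 + (1869988245995520000) * x6 ^ 12 + (1937936103505920000) * x6 ^ 13 + (836232702197760000) * x6 ^ 14) * hx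

end

end Fermat.Agent.KL.Haupt
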