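import Fermat.Agent.KL.Interface2

/-!
# KL-PR4 : `FinOverR P F ↔ FiniteDimensional K F`
-/

set_option autoImplicit false

namespace Fermat.Agent.KL

namespace PR2

variable {P K F : Type} [CommRing P] [IsDomain P] [Field K] [Algebra P K] [IsFractionRing P K]
  [Field F] [Algebra P F] [Algebra K F] [IsScalarTower P K F]

lemma finiteDimensional_of_finOverR (h : FinOverR P F) : FiniteDimensional K F := by
  obtain ⟨s, hs⟩ := h
  refine ⟨⟨s, ?_⟩⟩
  rw [eq_top_iff]
  intro y _
  obtain ⟨d, hd, hy⟩ := hs y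
  have hdK : algebraMap P K d ≠ 0 := by
    intro h0
    exact hd ((IsFractionRing.injective P K) (by rw [h0, map_zero]))
  have h1 : d • y ∈ Submodule.span K (s : Set F) :=
    (Submodule.span_le_restrictScalars P K (s : Set F)) hy
  have h2 : y = (algebraMap P K d)⁻¹ • (d • y) := by
    rw [← algebraMap_smul K d y, smul_smul, inv_mul_cancel₀ hdK, one_smul]
  rw [h2]
  exact Submodule.smul_mem _ _ h1

lemma finOverR_of_finiteDimensional (h : FiniteDimensional K F) : FinOverR P F := by
  classical
  obtain ⟨s, hs⟩ := h.fg_top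
  refine ⟨s, fun y => ?_⟩
  have hy : y ∈ Submodule.span K (s : Set F) := by rw [hs]; trivial
  obtain ⟨c, hc⟩ := (Submodule.mem_span_finset'.mp hy)
  obtain ⟨⟨d, hd⟩, hdc⟩ := IsLocalization.exist_integer_multiples_of_finite
    (nonZeroDivisors P) c
  refine ⟨d, nonZeroDivisors.ne_zero hd, ?_⟩
  choose e he using hdc
  rw [← hc, Finset.smul_sum]
  refine Submodule.sum_mem _ fun i _ => ?_
  have h1 : d • (c i • (i : F)) = e i • (i : F) := by
    rw [← algebraMap_smul K (e i) (i : F), he i, smul_assoc]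
  rw [h1]
  exact Submodule.smul_mem _ _ (Submodule.subset_span i.2)

end PR2

theorem stmt_finOver : Stmt_finOver := by
  intro P K F _ _ _ _ _ _ _ _ _
  exact ⟨PR2.finiteDimensional_of_finOverR, PR2.finOverR_of_finiteDimensional⟩

end Fermat.Agent.KL
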