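/-
KL ("Claim K"): shared definitions.  Namespace `Fermat.Agent.KL`.

Geometric picture: `A₀` is a discrete valuation ring with uniformiser `ϖ`, `F` is a function field
of one variable over `Frac A₀`, `x ∈ F` a coordinate.  `PolyR A₀ x = A₀[x] ⊆ F` and
`Chart A₀ x` = integral closure of `A₀[x]` in `F` (an affine chart of the normal model).
-/
import Mathlib

set_option autoImplicit false

namespace Fermat.Agent.KL

open Polynomial

/-- `ϖ` is "a prime element locally at `𝔫`". -/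
def LocPrime {B : Type} [CommRing B] (ϖ : B) (𝔫 : Ideal B) : Prop :=
  ∀ x y : B, ϖ ∣ x * y → ∃ s : B, s ∉ 𝔫 ∧ (ϖ ∣ s * x ∨ ϖ ∣ s * y)

/-- At most one minimal prime over `ϖ` is contained in `𝔫` ("`V(ϖ)` is irreducible at `𝔫`"). -/
def LocIrred {B : Type} [CommRing B] (ϖ : B) (𝔫 : Ideal B) : Prop :=
  ∀ P Q : Ideal B, P ∈ (Ideal.span {ϖ}).minimalPrimes → Q ∈ (Ideal.span {ϖ}).minimalPrimes →
    P ≤ 𝔫 → Q ≤ 𝔫 → P = Q

/-- Height one primes of a domain, in elementary form. -/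
def IsHtOne {B : Type} [CommRing B] (𝔓 : Ideal B) : Prop :=
  𝔓.IsPrime ∧ 𝔓 ≠ ⊥ ∧ ∀ 𝔮 : Ideal B, 𝔮.IsPrime → 𝔮 ≤ 𝔓 → 𝔮 = ⊥ ∨ 𝔮 = 𝔓

/-- `g` generates the maximal ideal of the local ring at `𝔓`. -/
def LocGen {B : Type} [CommRing B] (g : B) (𝔓 : Ideal B) : Prop :=
  g ∈ 𝔓 ∧ ∀ y ∈ 𝔓, ∃ b : B, b ∉ 𝔓 ∧ g ∣ b * y

/-- `τ` has "ramification index dividing `e`" at `𝔓`: locally at `𝔓`, `τ = unit * π ^ k` with
`π` a local generator of `𝔓` and `k ∣ e`. -/
def TameAt {B : Type} [CommRing B] (e : ℕ) (τ : B) (𝔓 : Ideal B) : Prop :=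
  ∃ (π : B) (k : ℕ) (a b : B), LocGen π 𝔓 ∧ k ∣ e ∧ a ∉ 𝔓 ∧ b ∉ 𝔓 ∧ a * τ = b * π ^ k

/-- `P` is a polynomial ring over `A₀` in the variable `x`. -/
def IsPolyVar (A₀ : Type) {P : Type} [CommRing A₀] [CommRing P] [Algebra A₀ P] (x : P) : Prop :=
  Function.Bijective (Polynomial.aeval x : A₀[X] →ₐ[A₀] P)

/-- The field `F` is a finite extension of the fraction field of its subring `P`
(elementary form). -/
def FinOverR (P F : Type) [CommRing P] [Field F] [Algebra P F] : Prop :=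
  ∃ s : Finset F, ∀ y : F, ∃ d : P, d ≠ 0 ∧ d • y ∈ Submodule.span P (s : Set F)

section Charts

variable (A₀ : Type) {F : Type} [CommRing A₀] [Field F] [Algebra A₀ F]

/-- `A₀[x] ⊆ F`. -/
abbrev PolyR (x : F) : Subalgebra A₀ F := Algebra.adjoin A₀ {x}

/-- `A₀[x, x⁻¹] ⊆ F`. -/
abbrev PolyR2 (x : F) : Subalgebra A₀ F := Algebra.adjoin A₀ {x, x⁻¹}

/-- The integral closure of `A₀[x]` in `F`. -/
abbrev Chart (x : F) : Subalgebra (PolyR A₀ x) F := integralClosure (PolyR A₀ x) F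

/-- The integral closure of `A₀[x, x⁻¹]` in `F`. -/
abbrev Chart2 (x : F) : Subalgebra (PolyR2 A₀ x) F := integralClosure (PolyR2 A₀ x) F

/-- `x` as an element of `A₀[x]`. -/
def polyX (x : F) : PolyR A₀ x := ⟨x, Algebra.self_mem_adjoin_singleton A₀ x⟩

instance instTowerChart (x : F) : IsScalarTower (PolyR A₀ x) (Chart A₀ x) F :=
  IsScalarTower.subalgebra' _ _ _ _

instance instTowerChart2 (x : F) : IsScalarTower (PolyR2 A₀ x) (Chart2 A₀ x) F :=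
  IsScalarTower.subalgebra' _ _ _ _

end Charts

end Fermat.Agent.KL
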