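/-
KL ("Claim K"): exact statements of the ABSTRACT work packages (commutative algebra).
Each `Stmt_x` is a `Prop`; a file `Fermat/Agent/KL/<X>.lean` proves `theorem stmt_x : Stmt_x`
(possibly assuming other `Stmt_y` as explicit hypotheses, as indicated in the task).
-/
import Fermat.Agent.KL.Defs

set_option autoImplicit false

namespace Fermat.Agent.KL

open Polynomial IsLocalRing

/-! ### 0. Basic facts on the local notions -/

/-- KL-0. -/
def Stmt_locIrredOfLocPrime : Prop :=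
  ∀ (B : Type) [CommRing B] (ϖ : B) (𝔫 : Ideal B), 𝔫.IsPrime → LocPrime ϖ 𝔫 → LocIrred ϖ 𝔫

/-! ### A. Discriminants and étale algebras over local rings -/

/-- A1: a finite-dimensional (formally) unramified algebra over a field has non-zero discriminant. -/
def Stmt_discrNeZero : Prop :=
  ∀ (k C : Type) [Field k] [CommRing C] [Algebra k C] [Module.Finite k C]
    [Algebra.FormallyUnramified k C] (ι : Type) [Fintype ι] [DecidableEq ι]
    (b : Module.Basis ι k C), Algebra.discr k b ≠ 0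

/-- A2: non-zero discriminant implies reduced. -/
def Stmt_reducedOfDiscr : Prop :=
  ∀ (k C : Type) [Field k] [CommRing C] [Algebra k C] (ι : Type) [Fintype ι] [DecidableEq ι]
    (b : Module.Basis ι k C), Algebra.discr k b ≠ 0 → IsReduced C

/-- A3: a noetherian local ring whose maximal ideal is generated by a non-zero-divisor is a
domain. -/
def Stmt_domainOfPrincipal : Prop :=
  ∀ (C : Type) [CommRing C] [IsLocalRing C] [IsNoetherianRing C] (τ : C),
    τ ∈ nonZeroDivisors C → maximalIdeal C = Ideal.span {τ} → IsDomain C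

/-- A4: finite free with unit discriminant over a 2-dimensional regular local ring: `ϖ` stays
locally prime. -/
def Stmt_locPrimeOfDiscrUnit : Prop :=
  ∀ (R B : Type) [CommRing R] [IsDomain R] [IsLocalRing R] [IsNoetherianRing R]
    [CommRing B] [Algebra R B] (ι : Type) [Fintype ι] [DecidableEq ι] (b : Module.Basis ι R B),
    IsUnit (Algebra.discr R b) → ∀ (ϖ τ : R), Prime ϖ → ¬ ϖ ∣ τ →
    maximalIdeal R = Ideal.span {ϖ, τ} →
    ∀ 𝔫 : Ideal B, 𝔫.IsMaximal → LocPrime (algebraMap R B ϖ) 𝔫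

/-! ### D. Freeness -/

/-- D2: a finite module over a noetherian local ring with `𝔪 = (ϖ, τ)` on which `ϖ, τ` is a
regular sequence is free. -/
def Stmt_freeOfRegular : Prop :=
  ∀ (R M : Type) [CommRing R] [IsLocalRing R] [IsNoetherianRing R] [AddCommGroup M] [Module R M]
    [Module.Finite R M] (ϖ τ : R), maximalIdeal R = Ideal.span {ϖ, τ} →
    (∀ x : M, ϖ • x = 0 → x = 0) → (∀ x y : M, τ • x = ϖ • y → ∃ z : M, x = ϖ • z) →
    Module.Free R M

/-- D3: the integral closure of a 2-dimensional regular local ring in a finite extension of its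
fraction field (characteristic 0) is finite free. -/
def Stmt_freeIntegralClosure : Prop :=
  ∀ (R K L B : Type) [CommRing R] [IsDomain R] [IsLocalRing R] [IsNoetherianRing R]
    [IsIntegrallyClosed R] [Field K] [CharZero K] [Algebra R K] [IsFractionRing R K]
    [Field L] [Algebra K L] [FiniteDimensional K L] [Algebra R L] [IsScalarTower R K L]
    [CommRing B] [Algebra R B] [Algebra B L] [IsScalarTower R B L] [IsIntegralClosure B R L]
    (ϖ τ : R), Prime ϖ → ¬ ϖ ∣ τ → maximalIdeal R = Ideal.span {ϖ, τ} →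
    Module.Finite R B ∧ Module.Free R B

/-! ### E. Purity -/

/-- N': a prime lying over a principal prime of a UFD has height one. -/
def Stmt_htOneOfLiesOver : Prop :=
  ∀ (R B : Type) [CommRing R] [IsDomain R] [UniqueFactorizationMonoid R]
    [CommRing B] [IsDomain B] [Algebra R B] [FaithfulSMul R B] [Algebra.IsIntegral R B]
    (f : R), Prime f → ∀ 𝔓 : Ideal B, 𝔓.IsPrime → 𝔓.under R = Ideal.span {f} → IsHtOne 𝔓

/-- E: purity of the discriminant. -/
def Stmt_discrUnit : Prop :=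
  ∀ (R K L B : Type) [CommRing R] [IsDomain R] [IsNoetherianRing R] [UniqueFactorizationMonoid R]
    [Field K] [CharZero K] [Algebra R K] [IsFractionRing R K]
    [Field L] [Algebra K L] [FiniteDimensional K L] [Algebra R L] [IsScalarTower R K L]
    [CommRing B] [Algebra R B] [Algebra B L] [IsScalarTower R B L] [IsIntegralClosure B R L]
    (ι : Type) [Fintype ι] [DecidableEq ι] (b : Module.Basis ι R B),
    (∀ (f : R), Prime f → ∀ (𝔓 : Ideal B) [𝔓.IsPrime], 𝔓.under R = Ideal.span {f} →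
      Algebra.IsUnramifiedAt R 𝔓) →
    IsUnit (Algebra.discr R b)

/-- PUR: Zariski–Nagata purity in dimension 2, in the form we need. -/
def Stmt_purity : Prop :=
  ∀ (R K L B : Type) [CommRing R] [IsDomain R] [IsLocalRing R] [IsNoetherianRing R]
    [UniqueFactorizationMonoid R]
    [Field K] [CharZero K] [Algebra R K] [IsFractionRing R K]
    [Field L] [Algebra K L] [FiniteDimensional K L] [Algebra R L] [IsScalarTower R K L]
    [CommRing B] [Algebra R B] [Algebra B L] [IsScalarTower R B L] [IsIntegralClosure B R L]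
    (ϖ τ : R), Prime ϖ → ¬ ϖ ∣ τ → maximalIdeal R = Ideal.span {ϖ, τ} →
    (∀ (𝔓 : Ideal B) [𝔓.IsPrime], IsHtOne 𝔓 → Algebra.IsUnramifiedAt R 𝔓) →
    ∀ 𝔫 : Ideal B, 𝔫.IsMaximal → LocPrime (algebraMap R B ϖ) 𝔫

/-! ### N, U. Height one primes -/

/-- N: the local ring of a noetherian integrally closed domain at a height one prime is a DVR. -/
def Stmt_dvrAtHtOne : Prop :=
  ∀ (B : Type) [CommRing B] [IsDomain B] [IsNoetherianRing B] [IsIntegrallyClosed B]
    (𝔓 : Ideal B) [𝔓.IsPrime], IsHtOne 𝔓 → IsDiscreteValuationRing (Localization.AtPrime 𝔓)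

/-- N'': in the situation of N there is a local generator. -/
def Stmt_exists_locGen : Prop :=
  ∀ (B : Type) [CommRing B] [IsDomain B] [IsNoetherianRing B] [IsIntegrallyClosed B]
    (𝔓 : Ideal B) [𝔓.IsPrime], IsHtOne 𝔓 → ∃ π : B, LocGen π 𝔓

/-- U0: residue characteristic 0 + a local generator coming from the base = unramified. -/
def Stmt_unramOfLocGen : Prop :=
  ∀ (R B : Type) [CommRing R] [CommRing B] [Algebra R B] [Module.Finite R B]
    (𝔓 : Ideal B) [𝔓.IsPrime] (g : R), LocGen (algebraMap R B g) 𝔓 →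
    (∀ n : ℕ, n ≠ 0 → (n : B) ∉ 𝔓) → Algebra.IsUnramifiedAt R 𝔓

/-! ### M. Localisation transfer -/

/-- M1: being unramified at a prime is insensitive to localising base and top. -/
def Stmt_unramLocalization : Prop :=
  ∀ (R B R' B' : Type) [CommRing R] [CommRing B] [CommRing R'] [CommRing B']
    [Algebra R B] [Algebra R R'] [Algebra R' B'] [Algebra B B'] [Algebra R B']
    [IsScalarTower R R' B'] [IsScalarTower R B B'] (M : Submonoid R)
    [IsLocalization M R'] [IsLocalization (Algebra.algebraMapSubmonoid B M) B']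
    (𝔔 : Ideal B') [𝔔.IsPrime] (𝔓 : Ideal B) [𝔓.IsPrime], 𝔓 = 𝔔.under B →
    (Algebra.IsUnramifiedAt R 𝔓 ↔ Algebra.IsUnramifiedAt R' 𝔔)

/-- M2: `LocPrime` descends from a localisation. -/
def Stmt_locPrimeLocalization : Prop :=
  ∀ (B B' : Type) [CommRing B] [CommRing B'] [Algebra B B'] (S : Submonoid B)
    [IsLocalization S B'] (ϖ : B) (𝔫 : Ideal B), 𝔫.IsPrime → Disjoint (S : Set B) (𝔫 : Set B) →
    LocPrime (algebraMap B B' ϖ) (𝔫.map (algebraMap B B')) → LocPrime ϖ 𝔫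

/-- M3: height one primes and localisation. -/
def Stmt_htOneLocalization : Prop :=
  ∀ (B B' : Type) [CommRing B] [IsDomain B] [CommRing B'] [Algebra B B'] (S : Submonoid B)
    [IsLocalization S B'], S ≤ nonZeroDivisors B →
    (∀ 𝔔 : Ideal B', IsHtOne 𝔔 → IsHtOne (𝔔.under B)) ∧
    (∀ 𝔓 : Ideal B, IsHtOne 𝔓 → Disjoint (S : Set B) (𝔓 : Set B) →
      IsHtOne (𝔓.map (algebraMap B B')) ∧ (𝔓.map (algebraMap B B')).under B = 𝔓)

/-! ### K5, K6. Kummer extensions of discrete valuation rings -/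

/-- K5: adjoining an `n`-th root of a local unit, `n` invertible, is unramified. -/
def Stmt_rootUnit : Prop :=
  ∀ (B L B' L' : Type) [CommRing B] [IsDomain B] [Field L] [Algebra B L] [IsFractionRing B L]
    [Field L'] [Algebra L L'] [Algebra B L'] [IsScalarTower B L L']
    [CommRing B'] [Algebra B B'] [Algebra B' L'] [IsScalarTower B B' L'] [IsIntegralClosure B' B L']
    (n : ℕ) (u : B) (θ : L'), θ ^ n = algebraMap B L' u → IntermediateField.adjoin L {θ} = ⊤ →
    ∀ (𝔓' : Ideal B') [𝔓'.IsPrime] (𝔓 : Ideal B) [𝔓.IsPrime], 𝔓 = 𝔓'.under B →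
    IsDiscreteValuationRing (Localization.AtPrime 𝔓) → u ∉ 𝔓 → (n : B) ∉ 𝔓 →
    Algebra.IsUnramifiedAt B 𝔓'

/-- K6: Abhyankar's lemma at a prime of residue characteristic 0. -/
def Stmt_abhyankar : Prop :=
  ∀ (B L B' L' : Type) [CommRing B] [IsDomain B] [Field L] [Algebra B L] [IsFractionRing B L]
    [Field L'] [Algebra L L'] [Algebra B L'] [IsScalarTower B L L']
    [CommRing B'] [Algebra B B'] [Algebra B' L'] [IsScalarTower B B' L'] [IsIntegralClosure B' B L']
    (e : ℕ) (τ : B) (s : B'), 0 < e → s ^ e = algebraMap B B' τ →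
    IntermediateField.adjoin L {algebraMap B' L' s} = ⊤ →
    ∀ (𝔓' : Ideal B') [𝔓'.IsPrime] (𝔓 : Ideal B) [𝔓.IsPrime], 𝔓 = 𝔓'.under B →
    IsDiscreteValuationRing (Localization.AtPrime 𝔓) → (∀ n : ℕ, n ≠ 0 → (n : B) ∉ 𝔓) →
    τ ∈ 𝔓 → TameAt e τ 𝔓 → LocGen s 𝔓'

/-- GD: going down for height one primes in a Galois situation. -/
def Stmt_galoisGoingDown : Prop :=
  ∀ (B B' G : Type) [CommRing B] [IsDomain B] [CommRing B'] [IsDomain B'] [Algebra B B']
    [FaithfulSMul B B'] [Algebra.IsIntegral B B'] [Group G] [Finite G] [MulSemiringAction G B']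
    [SMulCommClass G B B'] [Algebra.IsInvariant B B' G]
    (𝔓' : Ideal B'), IsHtOne 𝔓' → IsHtOne (𝔓'.under B)

/-- K7a: `LocIrred` descends along a Galois integral extension. -/
def Stmt_locIrredDescent : Prop :=
  ∀ (B B' G : Type) [CommRing B] [IsDomain B] [CommRing B'] [IsDomain B'] [Algebra B B']
    [FaithfulSMul B B'] [Algebra.IsIntegral B B'] [Group G] [Finite G] [MulSemiringAction G B']
    [SMulCommClass G B B'] [Algebra.IsInvariant B B' G]
    (ϖ : B) (𝔫 : Ideal B), 𝔫.IsPrime →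
    (∀ 𝔫' : Ideal B', 𝔫'.IsPrime → 𝔫'.under B = 𝔫 → LocIrred (algebraMap B B' ϖ) 𝔫') →
    LocIrred ϖ 𝔫

/-! ### G. Gluing the two charts -/

/-- G1a: idempotents modulo `ϖ ^ n`. -/
def Stmt_idempotentLift : Prop :=
  ∀ (B : Type) [CommRing B] [IsNoetherianRing B] (ϖ : B),
    (∀ 𝔫 : Ideal B, 𝔫.IsMaximal → LocIrred ϖ 𝔫) →
    ∀ P ∈ (Ideal.span {ϖ}).minimalPrimes, ∀ n : ℕ,
    ∃ a : B, ϖ ^ n ∣ a * a - a ∧ a ∈ P ∧
      ∀ P' ∈ (Ideal.span {ϖ}).minimalPrimes, P' ≠ P → a - 1 ∈ P'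

/-- G1b: the idempotents on the two charts agree on the overlap. -/
def Stmt_glue : Prop :=
  ∀ (B₁ B₂ BB : Type) [CommRing B₁] [CommRing B₂] [CommRing BB] [IsNoetherianRing B₁]
    [IsNoetherianRing B₂] [Algebra B₁ BB] [Algebra B₂ BB] (t : B₁) (s : B₂)
    [IsLocalization.Away t BB] [IsLocalization.Away s BB] (ϖ₁ : B₁) (ϖ₂ : B₂),
    algebraMap B₁ BB ϖ₁ = algebraMap B₂ BB ϖ₂ →
    (∀ 𝔫 : Ideal B₁, 𝔫.IsMaximal → LocIrred ϖ₁ 𝔫) →
    (∀ 𝔫 : Ideal B₂, 𝔫.IsMaximal → LocIrred ϖ₂ 𝔫) →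
    (∀ P ∈ (Ideal.span {ϖ₁}).minimalPrimes, t ∉ P) →
    (∀ P ∈ (Ideal.span {ϖ₂}).minimalPrimes, s ∉ P) →
    ∀ P ∈ (Ideal.span {ϖ₁}).minimalPrimes, ∀ Q ∈ (Ideal.span {ϖ₁}).minimalPrimes, P ≠ Q →
    ∀ n : ℕ, ∃ (a : B₁) (b : B₂), a ∈ P ∧ a - 1 ∈ Q ∧
      algebraMap B₁ BB ϖ₁ ^ n ∣ algebraMap B₁ BB a - algebraMap B₂ BB b

/-- G7: `LocIrred` on the second chart away from `s = 0` follows from the first chart. -/
def Stmt_locIrredTransfer : Prop :=
  ∀ (B₁ B₂ BB : Type) [CommRing B₁] [CommRing B₂] [CommRing BB]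
    [Algebra B₁ BB] [Algebra B₂ BB] (t : B₁) (s : B₂)
    [IsLocalization.Away t BB] [IsLocalization.Away s BB] (ϖ₁ : B₁) (ϖ₂ : B₂),
    algebraMap B₁ BB ϖ₁ = algebraMap B₂ BB ϖ₂ →
    (∀ 𝔫 : Ideal B₁, 𝔫.IsMaximal → LocIrred ϖ₁ 𝔫) →
    ∀ 𝔫 : Ideal B₂, 𝔫.IsPrime → s ∉ 𝔫 → LocIrred ϖ₂ 𝔫

/-- G2: bounded torsion of a finitely generated module, in the form we need. -/
def Stmt_H1bound : Prop :=
  ∀ (A M : Type) [CommRing A] [IsNoetherianRing A] [AddCommGroup M] [Module A M] (ϖ : A)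
    (M₁ M₂ N : Submodule A M), N.FG → M₁ ⊔ M₂ ⊔ N = ⊤ →
    ∃ c : ℕ, ∀ (x : M) (k : ℕ), ϖ ^ k • x ∈ M₁ ⊔ M₂ → ϖ ^ c • x ∈ M₁ ⊔ M₂

/-- G5: elements of the base prime to `π` avoid the minimal primes over `π` of the integral
closure. -/
def Stmt_notMemMinimalPrimes : Prop :=
  ∀ (R L : Type) [CommRing R] [IsDomain R] [IsIntegrallyClosed R] [Field L] [Algebra R L]
    [FaithfulSMul R L] (π h : R), Prime π → ¬ π ∣ h →
    ∀ P ∈ (Ideal.span {algebraMap R (integralClosure R L) π}).minimalPrimes,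
      algebraMap R (integralClosure R L) h ∉ P

end Fermat.Agent.KL
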