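/-
KL ("Claim K"): exact statements of the chart-level packages and of Theorem K.

Standing setup ("chart"): `A₀` a DVR with uniformiser `ϖ`; `P` a polynomial ring over `A₀` in the
variable `x` (`IsPolyVar A₀ x`); `F` a field of characteristic 0 containing `P`, finite over
`Frac P` (`FinOverR P F`); `B` the integral closure of `P` in `F`.
-/
import Fermat.Agent.KL.Interface

set_option autoImplicit false

namespace Fermat.Agent.KL

open Polynomial IsLocalRing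

/-! ### PR. Polynomial rings over a DVR and their integral closures -/

/-- PR1. -/
def Stmt_polyRing : Prop :=
  ∀ (A₀ P : Type) [CommRing A₀] [IsDomain A₀] [IsDiscreteValuationRing A₀]
    [CommRing P] [Algebra A₀ P] (x : P), IsPolyVar A₀ x →
    IsDomain P ∧ IsNoetherianRing P ∧ (∀ [IsDomain P], UniqueFactorizationMonoid P) ∧
      IsIntegrallyClosed P ∧ Function.Injective (algebraMap A₀ P) ∧
      ∀ ϖ : A₀, Irreducible ϖ → Prime (algebraMap A₀ P ϖ)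

/-- PR3: the closed points of the special fibre. -/
def Stmt_polyMaximal : Prop :=
  ∀ (A₀ P : Type) [CommRing A₀] [IsDomain A₀] [IsDiscreteValuationRing A₀]
    [CommRing P] [Algebra A₀ P] (x : P), IsPolyVar A₀ x → ∀ ϖ : A₀, Irreducible ϖ →
    (∀ 𝔪 : Ideal P, 𝔪.IsMaximal → algebraMap A₀ P ϖ ∈ 𝔪 →
      ∃ g : P, 𝔪 = Ideal.span {algebraMap A₀ P ϖ, g} ∧ ¬ algebraMap A₀ P ϖ ∣ g) ∧
    (∀ c : A₀, (Ideal.span {algebraMap A₀ P ϖ, x - algebraMap A₀ P c}).IsMaximal ∧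
      ¬ algebraMap A₀ P ϖ ∣ x - algebraMap A₀ P c) ∧
    (∀ c c' : A₀, x - algebraMap A₀ P c' ∈ Ideal.span {algebraMap A₀ P ϖ, x - algebraMap A₀ P c} →
      ϖ ∣ c - c') ∧
    (∀ 𝔭 : Ideal P, 𝔭.IsPrime → algebraMap A₀ P ϖ ∈ 𝔭 → ¬ 𝔭.IsMaximal →
      𝔭 = Ideal.span {algebraMap A₀ P ϖ})

/-- PR4. -/
def Stmt_finOver : Prop :=
  ∀ (P K F : Type) [CommRing P] [IsDomain P] [Field K] [Algebra P K] [IsFractionRing P K]
    [Field F] [Algebra P F] [Algebra K F] [IsScalarTower P K F],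
    FinOverR P F ↔ FiniteDimensional K F

/-- PR5: basic properties of a chart. -/
def Stmt_chartBasic : Prop :=
  ∀ (A₀ P F B : Type) [CommRing A₀] [IsDomain A₀] [IsDiscreteValuationRing A₀]
    [CommRing P] [Algebra A₀ P] [Field F] [CharZero F] [Algebra P F] [FaithfulSMul P F]
    [CommRing B] [Algebra P B] [Algebra B F] [IsScalarTower P B F] [IsIntegralClosure B P F]
    (x : P), IsPolyVar A₀ x → FinOverR P F →
    Module.Finite P B ∧ IsNoetherianRing B ∧ IsDomain B ∧ IsIntegrallyClosed B ∧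
      IsFractionRing B F ∧ FaithfulSMul P B ∧ Algebra.IsIntegral P B

/-! ### CP, CUSP: local irreducibility of the special fibre -/

/-- CP: at a closed point `𝔪` of the special fibre of the `x`-line such that all height one primes
through it are unramified, `ϖ` is locally prime in `B`. -/
def Stmt_chartPoint : Prop :=
  ∀ (A₀ P F B : Type) [CommRing A₀] [IsDomain A₀] [IsDiscreteValuationRing A₀]
    [CommRing P] [Algebra A₀ P] [Field F] [CharZero F] [Algebra P F] [FaithfulSMul P F]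
    [CommRing B] [Algebra P B] [Algebra B F] [IsScalarTower P B F] [IsIntegralClosure B P F]
    (ϖ : A₀) (x : P), Irreducible ϖ → IsPolyVar A₀ x → FinOverR P F →
    ∀ 𝔪 : Ideal P, 𝔪.IsMaximal → algebraMap A₀ P ϖ ∈ 𝔪 →
    (∀ (𝔓 : Ideal B) [𝔓.IsPrime], IsHtOne 𝔓 → 𝔓.under P ≤ 𝔪 → Algebra.IsUnramifiedAt P 𝔓) →
    ∀ 𝔫 : Ideal B, 𝔫.IsMaximal → 𝔫.under P = 𝔪 →
      LocPrime (algebraMap P B (algebraMap A₀ P ϖ)) 𝔫

/-- C1: Kummer extensions. -/
def Stmt_kummerExt : Prop :=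
  ∀ (F : Type) [Field F] [CharZero F] (τ ζ : F) (e : ℕ), τ ≠ 0 → 0 < e → IsPrimitiveRoot ζ e →
    ∃ (F' : Type) (_ : Field F') (_ : Algebra F F') (s : F'), s ^ e = algebraMap F F' τ ∧
      IntermediateField.adjoin F {s} = ⊤ ∧ IsGalois F F' ∧ FiniteDimensional F F'

/-- CUSP: at the closed point `(ϖ, x - c)`, if the only ramified height one primes through it are
those over `x = c`, and these are tame of index dividing `e`, the special fibre of `B` is locally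
irreducible. -/
def Stmt_cuspPoint : Prop :=
  ∀ (A₀ P F B : Type) [CommRing A₀] [IsDomain A₀] [IsDiscreteValuationRing A₀]
    [CommRing P] [Algebra A₀ P] [Field F] [CharZero F] [Algebra P F] [FaithfulSMul P F]
    [CommRing B] [Algebra P B] [Algebra B F] [IsScalarTower P B F] [IsIntegralClosure B P F]
    (ϖ : A₀) (x : P) (c : A₀) (e : ℕ) (ζ : A₀), Irreducible ϖ → IsPolyVar A₀ x → FinOverR P F →
    IsUnit (e : A₀) → IsPrimitiveRoot ζ e →
    (∀ (𝔓 : Ideal B) [𝔓.IsPrime], IsHtOne 𝔓 →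
      𝔓.under P ≤ Ideal.span {algebraMap A₀ P ϖ, x - algebraMap A₀ P c} →
      algebraMap P B (x - algebraMap A₀ P c) ∉ 𝔓 → Algebra.IsUnramifiedAt P 𝔓) →
    (∀ 𝔓 : Ideal B, IsHtOne 𝔓 → algebraMap P B (x - algebraMap A₀ P c) ∈ 𝔓 →
      algebraMap P B (algebraMap A₀ P ϖ) ∉ 𝔓 →
      TameAt e (algebraMap P B (x - algebraMap A₀ P c)) 𝔓) →
    ∀ 𝔫 : Ideal B, 𝔫.IsPrime →
      𝔫.under P = Ideal.span {algebraMap A₀ P ϖ, x - algebraMap A₀ P c} →
      LocIrred (algebraMap P B (algebraMap A₀ P ϖ)) 𝔫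

/-! ### G. The two charts `t`, `t⁻¹` inside `F` -/

/-- PR6. -/
def Stmt_polyRConcrete : Prop :=
  ∀ (A₀ F : Type) [CommRing A₀] [IsDomain A₀] [Field F] [Algebra A₀ F] [FaithfulSMul A₀ F] (t : F),
    Transcendental A₀ t →
    IsPolyVar A₀ (polyX A₀ t) ∧ Transcendental A₀ t⁻¹ ∧
      (FinOverR (PolyR A₀ t) F → FinOverR (PolyR A₀ t⁻¹) F)

/-- G4: `B₁ ∩ B₂` consists of constants. -/
def Stmt_chartInter : Prop :=
  ∀ (A₀ F : Type) [CommRing A₀] [IsDomain A₀] [IsIntegrallyClosed A₀] [Field F] [Algebra A₀ F]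
    [FaithfulSMul A₀ F] (t : F), Transcendental A₀ t →
    ∀ y : F, IsIntegral (PolyR A₀ t) y → IsIntegral (PolyR A₀ t⁻¹) y → IsIntegral A₀ y

/-- G6: `B₁₂ = B₁[1/t] = B₂[t]`. -/
def Stmt_chartOverlap : Prop :=
  ∀ (A₀ F : Type) [CommRing A₀] [Field F] [Algebra A₀ F] (t : F), t ≠ 0 →
    ∀ y : F, IsIntegral (PolyR2 A₀ t) y →
      (∃ k : ℕ, IsIntegral (PolyR A₀ t) (t ^ k * y)) ∧
      (∃ k : ℕ, IsIntegral (PolyR A₀ t⁻¹) (t⁻¹ ^ k * y))

/-- G3: `H¹ = B₁₂ / (B₁ + B₂)` is a finitely generated `A₀`-module. -/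
def Stmt_H1fg : Prop :=
  ∀ (A₀ F : Type) [CommRing A₀] [IsDomain A₀] [IsDiscreteValuationRing A₀] [Field F] [CharZero F]
    [Algebra A₀ F] [FaithfulSMul A₀ F] (t : F), Transcendental A₀ t → FinOverR (PolyR A₀ t) F →
    ∃ S : Finset F, ∀ y : F, IsIntegral (PolyR2 A₀ t) y →
      ∃ a b n : F, IsIntegral (PolyR A₀ t) a ∧ IsIntegral (PolyR A₀ t⁻¹) b ∧
        n ∈ Submodule.span A₀ (S : Set F) ∧ y = a + b + n

/-! ### Theorem K -/

/-- The image of `a : A₀` in the chart. -/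
noncomputable abbrev cst (A₀ : Type) {F : Type} [CommRing A₀] [Field F] [Algebra A₀ F] (x : F)
    (a : A₀) : Chart A₀ x :=
  algebraMap (PolyR A₀ x) (Chart A₀ x) (algebraMap A₀ (PolyR A₀ x) a)

/-- The coordinate `x` in the chart. -/
noncomputable abbrev crd (A₀ : Type) {F : Type} [CommRing A₀] [Field F] [Algebra A₀ F] (x : F) :
    Chart A₀ x :=
  algebraMap (PolyR A₀ x) (Chart A₀ x) (polyX A₀ x)

/-- **Theorem K.**  `F / Frac(A₀)(t)` finite, constants integrally closed, unramified along the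
special fibre, and on the generic fibre unramified outside `t ∈ C ∪ {∞}` (points of `C` distinct
mod `ϖ`), tamely ramified there with indices dividing `e`, `e` invertible in `A₀`, `μ_e ⊆ A₀`.
Then the special fibre of the normal model is irreducible. -/
def Stmt_theoremK : Prop :=
  ∀ (A₀ F : Type) [CommRing A₀] [IsDomain A₀] [IsDiscreteValuationRing A₀] [Field F] [CharZero F]
    [Algebra A₀ F] [FaithfulSMul A₀ F] (ϖ : A₀) (t : F) (e : ℕ) (ζ : A₀) (C : Finset A₀),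
    Irreducible ϖ → Transcendental A₀ t → FinOverR (PolyR A₀ t) F →
    (∀ y : F, IsIntegral A₀ y → y ∈ (algebraMap A₀ F).range) →
    IsUnit (e : A₀) → IsPrimitiveRoot ζ e →
    (∀ c ∈ C, ∀ c' ∈ C, c ≠ c' → IsUnit (c - c')) →
    -- (b) vertical primes
    (∀ (𝔓 : Ideal (Chart A₀ t)) [𝔓.IsPrime], IsHtOne 𝔓 → cst A₀ t ϖ ∈ 𝔓 →
      Algebra.IsUnramifiedAt (PolyR A₀ t) 𝔓) →
    -- (c) horizontal primes away from `C`
    (∀ (𝔓 : Ideal (Chart A₀ t)) [𝔓.IsPrime], IsHtOne 𝔓 → cst A₀ t ϖ ∉ 𝔓 →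
      (∀ c ∈ C, crd A₀ t - cst A₀ t c ∉ 𝔓) → Algebra.IsUnramifiedAt (PolyR A₀ t) 𝔓) →
    -- (c') horizontal primes over `C`
    (∀ c ∈ C, ∀ 𝔓 : Ideal (Chart A₀ t), IsHtOne 𝔓 → cst A₀ t ϖ ∉ 𝔓 →
      crd A₀ t - cst A₀ t c ∈ 𝔓 → TameAt e (crd A₀ t - cst A₀ t c) 𝔓) →
    -- (c'') horizontal primes over `∞`
    (∀ 𝔓 : Ideal (Chart A₀ t⁻¹), IsHtOne 𝔓 → cst A₀ t⁻¹ ϖ ∉ 𝔓 →
      crd A₀ t⁻¹ ∈ 𝔓 → TameAt e (crd A₀ t⁻¹) 𝔓) →
    ∀ P ∈ (Ideal.span {cst A₀ t ϖ}).minimalPrimes, ∀ Q ∈ (Ideal.span {cst A₀ t ϖ}).minimalPrimes,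
      P = Q

end Fermat.Agent.KL
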