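/-
KL-E: purity of the discriminant, and (N') primes over a principal prime have height one.
-/
import Fermat.Agent.KL.Interface2

set_option autoImplicit false

namespace Fermat.Agent.KL

open scoped TensorProduct nonZeroDivisors

namespace E

/-- the discriminant commutes with base change. -/
theorem discr_baseChange {R B : Type} [CommRing R] [CommRing B] [Algebra R B]
    (κ : Type) [CommRing κ] [Algebra R κ] {ι : Type} [Fintype ι] [DecidableEq ι]
    (b : Module.Basis ι R B) :
    Algebra.discr κ (Algebra.TensorProduct.basis κ b) = algebraMap R κ (Algebra.discr R b) := by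
  have : Module.Finite R B := Module.Finite.of_basis b
  have : Module.Free R B := Module.Free.of_basis b
  rw [Algebra.discr_def, Algebra.discr_def, RingHom.map_det]
  congr 1
  ext i j
  rw [RingHom.mapMatrix_apply, Matrix.map_apply, Algebra.traceMatrix_apply,
    Algebra.traceMatrix_apply, Algebra.traceForm_apply, Algebra.traceForm_apply,
    Algebra.TensorProduct.basis_apply, Algebra.TensorProduct.basis_apply,
    Algebra.TensorProduct.tmul_mul_tmul, one_mul, Algebra.trace_apply, Algebra.trace_apply,
    ← Algebra.baseChange_lmul, LinearMap.trace_baseChange]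

end E

theorem stmt_htOneOfLiesOver : Stmt_htOneOfLiesOver := by
  intro R B _ _ _ _ _ _ _ _ f hf 𝔓 h𝔓 hunder
  have hinj : Function.Injective (algebraMap R B) := FaithfulSMul.algebraMap_injective R B
  have hfmem : algebraMap R B f ∈ 𝔓 := by
    have : f ∈ 𝔓.under R := by rw [hunder]; exact Ideal.mem_span_singleton_self f
    exact this
  refine ⟨h𝔓, ?_, ?_⟩
  · intro hbot
    rw [hbot, Ideal.mem_bot] at hfmem
    exact hf.ne_zero (hinj (by rw [hfmem, map_zero]))
  · intro 𝔮 h𝔮 hle
    by_cases hq : 𝔮 = ⊥
    · exact Or.inl hq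
    right
    have hqR : 𝔮.under R ≠ ⊥ := by
      obtain ⟨x, hx, hx0⟩ := Submodule.exists_mem_ne_zero_of_ne_bot hq
      exact Ideal.comap_ne_bot_of_integral_mem hx0 hx (Algebra.IsIntegral.isIntegral x)
    have hqRprime : (𝔮.under R).IsPrime := Ideal.comap_isPrime _ _
    obtain ⟨g, hg, hgprime⟩ := Ideal.IsPrime.exists_mem_prime_of_ne_bot hqRprime hqR
    have hgP : g ∈ 𝔓.under R := Ideal.comap_mono hle hg
    rw [hunder, Ideal.mem_span_singleton] at hgP
    have hass : Associated f g := hf.irreducible.associated_of_dvd hgprime.irreducible hgP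
    have hfq : f ∈ 𝔮.under R := by
      obtain ⟨u, hu⟩ := hass.symm
      rw [← hu]
      exact Ideal.mul_mem_right _ _ hg
    by_contra hne
    have hlt : 𝔮 < 𝔓 := lt_of_le_of_ne hle hne
    obtain ⟨x, hxP, hxq⟩ := SetLike.exists_of_lt hlt
    have := Ideal.comap_lt_comap_of_integral_mem_sdiff (R := R) hle ⟨hxP, hxq⟩
      (Algebra.IsIntegral.isIntegral x)
    have h2 : 𝔓.under R ≤ 𝔮.under R := by
      rw [hunder, Ideal.span_singleton_le_iff_mem]
      exact hfq
    exact absurd this (not_lt_of_ge h2)

theorem stmt_discrUnit (h : Stmt_discrNeZero) : Stmt_discrUnit := by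
  intro R K L B _ _ _ _ _ _ _ _ _ _ _ _ _ _ _ _ _ _ ι _ _ b hunr
  have hfin : Module.Finite R B := Module.Finite.of_basis b
  -- the discriminant is non-zero
  have hd0 : Algebra.discr R b ≠ 0 := by
    have hloc : IsLocalization (Algebra.algebraMapSubmonoid B R⁰) L :=
      IsIntegralClosure.isLocalization R K L B
    have h1 := Algebra.discr_localizationLocalization R R⁰ L (Rₘ := K) b
    have h2 := Algebra.discr_not_zero_of_basis K (b.localizationLocalization K R⁰ L)
    intro h0
    rw [h0, map_zero] at h1
    exact h2 h1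
  by_contra hnu
  obtain ⟨f, hfirr, hfd⟩ := WfDvdMonoid.exists_irreducible_factor hnu hd0
  have hf : Prime f := UniqueFactorizationMonoid.irreducible_iff_prime.mp hfirr
  have hp : (Ideal.span {f} : Ideal R).IsPrime := (Ideal.span_singleton_prime hf.ne_zero).mpr hf
  set p : Ideal R := Ideal.span {f} with hpdef
  have hunram : Algebra.FormallyUnramified p.ResidueField (p.Fiber B) := by
    rw [Algebra.formallyUnramified_iff_forall]
    intro q'
    have hQprime : (q'.asIdeal.comap
        (Algebra.TensorProduct.includeRight : B →ₐ[R] p.Fiber B).toRingHom).IsPrime :=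
      Ideal.comap_isPrime _ _
    have hover : (q'.asIdeal.comap
        (Algebra.TensorProduct.includeRight : B →ₐ[R] p.Fiber B).toRingHom).under R = p := by
      have h1 : q'.asIdeal.under R = p := (Ideal.over_def q'.asIdeal p).symm
      refine Eq.trans ?_ h1
      ext x
      simp only [Ideal.under_def, Ideal.mem_comap]
      rw [show (Algebra.TensorProduct.includeRight : B →ₐ[R] p.Fiber B).toRingHom
        (algebraMap R B x) = algebraMap R (p.Fiber B) x from
        (Algebra.TensorProduct.includeRight : B →ₐ[R] p.Fiber B).commutes x]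
    have hlies : (q'.asIdeal.comap
        (Algebra.TensorProduct.includeRight : B →ₐ[R] p.Fiber B).toRingHom).LiesOver p :=
      ⟨hover.symm⟩
    have hU : Algebra.IsUnramifiedAt R (q'.asIdeal.comap
        (Algebra.TensorProduct.includeRight : B →ₐ[R] p.Fiber B).toRingHom) :=
      hunr f hf _ hover
    exact Algebra.IsUnramifiedAt.residueField p _ q'.asIdeal rfl
  have h3 := h p.ResidueField (p.Fiber B) ι (Algebra.TensorProduct.basis p.ResidueField b)
  apply h3
  rw [E.discr_baseChange, Ideal.algebraMap_residueField_eq_zero, hpdef,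
    Ideal.mem_span_singleton]
  exact hfd

end Fermat.Agent.KL
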