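/-
KL-N: DVR at height one primes, local generators, U0.
-/
import Fermat.Agent.KL.Interface2

set_option autoImplicit false

namespace Fermat.Agent.KL

open IsLocalRing

namespace N

/-- N -/
theorem dvrAtHtOne (B : Type) [CommRing B] [IsDomain B] [IsNoetherianRing B]
    [IsIntegrallyClosed B] (𝔓 : Ideal B) [𝔓.IsPrime] (h : IsHtOne 𝔓) :
    IsDiscreteValuationRing (Localization.AtPrime 𝔓) := by
  obtain ⟨-, hne, hmin⟩ := h
  have hnf : ¬ IsField (Localization.AtPrime 𝔓) := IsLocalization.AtPrime.not_isField B hne _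
  have hic : IsIntegrallyClosed (Localization.AtPrime 𝔓) :=
    isIntegrallyClosed_of_isLocalization _ 𝔓.primeCompl 𝔓.primeCompl_le_nonZeroDivisors
  apply ((IsDiscreteValuationRing.TFAE (Localization.AtPrime 𝔓) hnf).out 0 3).mpr
  refine ⟨hic, maximalIdeal _, ⟨isField_iff_maximalIdeal_eq.not.mp hnf, inferInstance⟩, ?_⟩
  rintro Q ⟨hQ0, hQ⟩
  have hq : (Q.under B).IsPrime := inferInstance
  have hle : Q.under B ≤ 𝔓 := by
    have : Q.under B ≤ (maximalIdeal (Localization.AtPrime 𝔓)).under B :=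
      Ideal.comap_mono (f := algebraMap B (Localization.AtPrime 𝔓)) (le_maximalIdeal hQ.ne_top)
    rwa [Localization.AtPrime.under_maximalIdeal] at this
  have hmc := IsLocalization.map_under 𝔓.primeCompl (Localization.AtPrime 𝔓) Q
  rcases hmin _ hq hle with h0 | h1
  · rw [h0, Ideal.map_bot] at hmc
    exact absurd hmc.symm hQ0
  · rw [h1, Localization.AtPrime.map_eq_maximalIdeal] at hmc
    exact hmc.symm

/-- N'' -/
theorem exists_locGen (B : Type) [CommRing B] [IsDomain B] [IsNoetherianRing B]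
    [IsIntegrallyClosed B] (𝔓 : Ideal B) [𝔓.IsPrime] (h : IsHtOne 𝔓) : ∃ π : B, LocGen π 𝔓 := by
  have := dvrAtHtOne B 𝔓 h
  obtain ⟨ϖ, hϖ⟩ := IsDiscreteValuationRing.exists_irreducible (Localization.AtPrime 𝔓)
  have hmax := hϖ.maximalIdeal_eq
  obtain ⟨π, u, rfl⟩ := IsLocalization.exists_mk'_eq 𝔓.primeCompl ϖ
  have hπ : algebraMap B (Localization.AtPrime 𝔓) π =
      IsLocalization.mk' (Localization.AtPrime 𝔓) π u * algebraMap B _ (u : B) :=
    (IsLocalization.mk'_spec _ π u).symm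
  refine ⟨π, ?_, ?_⟩
  · rw [← IsLocalization.AtPrime.to_map_mem_maximal_iff (Localization.AtPrime 𝔓) 𝔓, hmax, hπ]
    exact Ideal.mul_mem_right _ _ (Ideal.mem_span_singleton_self _)
  · intro y hy
    have hy' : algebraMap B (Localization.AtPrime 𝔓) y ∈ maximalIdeal (Localization.AtPrime 𝔓) :=
      (IsLocalization.AtPrime.to_map_mem_maximal_iff (Localization.AtPrime 𝔓) 𝔓 y).mpr hy
    rw [hmax, Ideal.mem_span_singleton] at hy'
    obtain ⟨c, hc⟩ := hy'
    obtain ⟨c', b, rfl⟩ := IsLocalization.exists_mk'_eq 𝔓.primeCompl c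
    refine ⟨u * b, (u * b).2, ⟨c', ?_⟩⟩
    apply IsLocalization.injective (Localization.AtPrime 𝔓) 𝔓.primeCompl_le_nonZeroDivisors
    have hc' : algebraMap B (Localization.AtPrime 𝔓) c' =
        IsLocalization.mk' (Localization.AtPrime 𝔓) c' b * algebraMap B _ (b : B) :=
      (IsLocalization.mk'_spec _ c' b).symm
    rw [map_mul, map_mul, map_mul, hc, hπ, hc']
    ring

/-- U0 -/
theorem unramOfLocGen (R B : Type) [CommRing R] [CommRing B] [Algebra R B] [Module.Finite R B]
    (𝔓 : Ideal B) [𝔓.IsPrime] (g : R) (hg : LocGen (algebraMap R B g) 𝔓)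
    (hchar : ∀ n : ℕ, n ≠ 0 → (n : B) ∉ 𝔓) : Algebra.IsUnramifiedAt R 𝔓 := by
  let p : Ideal R := 𝔓.under R
  let := Localization.AtPrime.algebraOfLiesOver p 𝔓
  rw [Algebra.isUnramifiedAt_iff_map_eq R p 𝔓]
  constructor
  · have hcz : CharZero p.ResidueField := by
      refine charZero_of_inj_zero fun n hn => ?_
      by_contra hn0
      apply hchar n hn0
      have h1 : algebraMap R p.ResidueField (n : R) = 0 := by simpa using hn
      rw [Ideal.algebraMap_residueField_eq_zero] at h1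
      have h2 : algebraMap R B (n : R) ∈ 𝔓 := h1
      simpa using h2
    exact Algebra.IsAlgebraic.isSeparable_of_perfectField
  · apply le_antisymm
    · rw [← Localization.AtPrime.map_eq_maximalIdeal, IsScalarTower.algebraMap_eq R B,
        ← Ideal.map_map]
      exact Ideal.map_mono Ideal.map_comap_le
    · rw [← Localization.AtPrime.map_eq_maximalIdeal, Ideal.map_le_iff_le_comap]
      intro y hy
      obtain ⟨b, hb, c, hc⟩ := hg.2 y hy
      rw [Ideal.mem_comap]
      have hbu : IsUnit (algebraMap B (Localization.AtPrime 𝔓) b) :=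
        IsLocalization.map_units (Localization.AtPrime 𝔓) (⟨b, hb⟩ : 𝔓.primeCompl)
      rw [← Ideal.unit_mul_mem_iff_mem _ hbu, ← map_mul, hc, map_mul,
        ← IsScalarTower.algebraMap_apply]
      exact Ideal.mul_mem_right _ _ (Ideal.mem_map_of_mem _ hg.1)

end N

theorem stmt_dvrAtHtOne : Stmt_dvrAtHtOne := fun B _ _ _ _ 𝔓 _ h => N.dvrAtHtOne B 𝔓 h

theorem stmt_exists_locGen : Stmt_exists_locGen := fun B _ _ _ _ 𝔓 _ h => N.exists_locGen B 𝔓 h

theorem stmt_unramOfLocGen : Stmt_unramOfLocGen :=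
  fun R B _ _ _ _ 𝔓 _ g hg hchar => N.unramOfLocGen R B 𝔓 g hg hchar

end Fermat.Agent.KL
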