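/-
KL ("Claim K"), package PR, part 1: polynomial rings over a DVR (PR1, PR3).
-/
import Fermat.Agent.KL.Interface2

set_option autoImplicit false

noncomputable section

namespace Fermat.Agent.KL

open Polynomial IsLocalRing

namespace PR

variable {A₀ P : Type} [CommRing A₀] [CommRing P] [Algebra A₀ P] {x : P}

/-- the identification `A₀[X] ≃ P`. -/
def equiv (h : IsPolyVar A₀ x) : A₀[X] ≃ₐ[A₀] P := AlgEquiv.ofBijective (aeval x) h

lemma equiv_apply (h : IsPolyVar A₀ x) (p : A₀[X]) : equiv h p = aeval x p := rfl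

lemma equiv_X (h : IsPolyVar A₀ x) : equiv h X = x := by rw [equiv_apply, aeval_X]

lemma equiv_C (h : IsPolyVar A₀ x) (a : A₀) : equiv h (C a) = algebraMap A₀ P a := by
  rw [equiv_apply, aeval_C]

lemma equiv_symm_x (h : IsPolyVar A₀ x) : (equiv h).symm x = X := by
  rw [AlgEquiv.symm_apply_eq, equiv_X]

lemma equiv_symm_algebraMap (h : IsPolyVar A₀ x) (a : A₀) :
    (equiv h).symm (algebraMap A₀ P a) = C a := by
  rw [AlgEquiv.symm_apply_eq, equiv_C]

variable [IsDomain A₀] [IsDiscreteValuationRing A₀]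

/-- reduction modulo the maximal ideal of `A₀`. -/
def red (h : IsPolyVar A₀ x) : P →+* (ResidueField A₀)[X] :=
  (mapRingHom (residue A₀)).comp ((equiv h).symm : P →+* A₀[X])

lemma red_apply (h : IsPolyVar A₀ x) (p : P) :
    red h p = ((equiv h).symm p).map (residue A₀) := rfl

lemma red_x (h : IsPolyVar A₀ x) : red h x = X := by
  rw [red_apply, equiv_symm_x, map_X]

lemma red_algebraMap (h : IsPolyVar A₀ x) (a : A₀) :
    red h (algebraMap A₀ P a) = C (residue A₀ a) := by
  rw [red_apply, equiv_symm_algebraMap, map_C]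

lemma red_surjective (h : IsPolyVar A₀ x) : Function.Surjective (red h) := by
  intro q
  obtain ⟨p, hp⟩ := Polynomial.map_surjective (residue A₀) residue_surjective q
  exact ⟨equiv h p, by rw [red_apply, AlgEquiv.symm_apply_apply, hp]⟩

lemma residue_eq_zero_iff_dvd {ϖ : A₀} (hϖ : Irreducible ϖ) (a : A₀) :
    residue A₀ a = 0 ↔ ϖ ∣ a := by
  rw [residue_eq_zero_iff, hϖ.maximalIdeal_eq, Ideal.mem_span_singleton]

lemma red_eq_zero_iff (h : IsPolyVar A₀ x) {ϖ : A₀} (hϖ : Irreducible ϖ) (p : P) :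
    red h p = 0 ↔ algebraMap A₀ P ϖ ∣ p := by
  constructor
  · intro hp
    have h1 : (equiv h).symm p ∈ RingHom.ker (mapRingHom (residue A₀)) := hp
    rw [ker_mapRingHom, ker_residue, hϖ.maximalIdeal_eq, Ideal.map_span, Set.image_singleton,
      Ideal.mem_span_singleton] at h1
    obtain ⟨q, hq⟩ := h1
    refine ⟨equiv h q, ?_⟩
    rw [← equiv_C h, ← map_mul, ← hq, AlgEquiv.apply_symm_apply]
  · rintro ⟨q, rfl⟩
    rw [map_mul, red_algebraMap, (residue_eq_zero_iff_dvd hϖ ϖ).2 dvd_rfl, C_0, zero_mul]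

lemma ker_red (h : IsPolyVar A₀ x) {ϖ : A₀} (hϖ : Irreducible ϖ) :
    RingHom.ker (red h) = Ideal.span {algebraMap A₀ P ϖ} := by
  ext p
  rw [RingHom.mem_ker, red_eq_zero_iff h hϖ, Ideal.mem_span_singleton]

lemma eq_of_map_eq (h : IsPolyVar A₀ x) {I J : Ideal P} (hI : RingHom.ker (red h) ≤ I)
    (hJ : RingHom.ker (red h) ≤ J) (hIJ : I.map (red h) = J.map (red h)) : I = J := by
  have h1 := Ideal.comap_map_of_surjective (red h) (red_surjective h) I
  have h2 := Ideal.comap_map_of_surjective (red h) (red_surjective h) J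
  have hI' : I ⊔ Ideal.comap (red h) ⊥ = I := sup_eq_left.2 hI
  have hJ' : J ⊔ Ideal.comap (red h) ⊥ = J := sup_eq_left.2 hJ
  rw [hI'] at h1
  rw [hJ'] at h2
  rw [← h1, ← h2, hIJ]

/-- evaluation at `c` followed by reduction. -/
def ev (h : IsPolyVar A₀ x) (c : A₀) : P →+* ResidueField A₀ :=
  (residue A₀).comp ((evalRingHom c).comp ((equiv h).symm : P →+* A₀[X]))

lemma ev_apply (h : IsPolyVar A₀ x) (c : A₀) (p : P) :
    ev h c p = residue A₀ (((equiv h).symm p).eval c) := rfl

lemma ev_x (h : IsPolyVar A₀ x) (c : A₀) : ev h c x = residue A₀ c := by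
  rw [ev_apply, equiv_symm_x, eval_X]

lemma ev_algebraMap (h : IsPolyVar A₀ x) (c a : A₀) :
    ev h c (algebraMap A₀ P a) = residue A₀ a := by
  rw [ev_apply, equiv_symm_algebraMap, eval_C]

lemma ev_surjective (h : IsPolyVar A₀ x) (c : A₀) : Function.Surjective (ev h c) := by
  intro y
  obtain ⟨a, rfl⟩ := residue_surjective y
  exact ⟨algebraMap A₀ P a, ev_algebraMap h c a⟩

lemma ker_ev (h : IsPolyVar A₀ x) {ϖ : A₀} (hϖ : Irreducible ϖ) (c : A₀) :
    RingHom.ker (ev h c) = Ideal.span {algebraMap A₀ P ϖ, x - algebraMap A₀ P c} := by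
  apply le_antisymm
  · intro p hp
    rw [RingHom.mem_ker, ev_apply, residue_eq_zero_iff_dvd hϖ] at hp
    obtain ⟨a, ha⟩ := hp
    have h1 := modByMonic_add_div ((equiv h).symm p) (X - C c)
    rw [modByMonic_X_sub_C_eq_C_eval, ha] at h1
    have h2 : p = algebraMap A₀ P ϖ * algebraMap A₀ P a
        + (x - algebraMap A₀ P c) * equiv h ((equiv h).symm p /ₘ (X - C c)) := by
      have h3 := congrArg (equiv h) h1
      rw [AlgEquiv.apply_symm_apply, map_add, C_mul, map_mul, map_mul, map_sub, equiv_X, equiv_C,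
        equiv_C, equiv_C] at h3
      exact h3.symm
    rw [h2]
    refine Ideal.add_mem _ (Ideal.mul_mem_right _ _ (Ideal.subset_span (by simp)))
      (Ideal.mul_mem_right _ _ (Ideal.subset_span (by simp)))
  · rw [Ideal.span_le]
    intro p hp
    rcases hp with rfl | rfl
    · show ev h c _ = 0
      rw [ev_algebraMap, residue_eq_zero_iff_dvd hϖ]
    · show ev h c _ = 0
      rw [map_sub, ev_x, ev_algebraMap, sub_self]

end PR

open PR

/-- PR1. -/
theorem stmt_polyRing : Stmt_polyRing := by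
  intro A₀ P _ _ _ _ _ x h
  have hdom : IsDomain P := MulEquiv.isDomain A₀[X] ((equiv h).symm : P ≃* A₀[X])
  refine ⟨hdom, isNoetherianRing_of_ringEquiv A₀[X] (equiv h).toRingEquiv, ?_,
    IsIntegrallyClosed.of_equiv (equiv h).toRingEquiv, ?_, ?_⟩
  · intro _
    exact MulEquiv.uniqueFactorizationMonoid ((equiv h) : A₀[X] ≃* P) inferInstance
  · intro a b hab
    rw [← equiv_C h, ← equiv_C h] at hab
    exact C_injective ((equiv h).injective hab)
  · intro ϖ hϖ
    rw [← equiv_C h, MulEquiv.prime_iff, prime_C_iff]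
    exact hϖ.prime

/-- PR3. -/
theorem stmt_polyMaximal : Stmt_polyMaximal := by
  intro A₀ P _ _ _ _ _ x h ϖ hϖ
  have hker := ker_red h hϖ
  refine ⟨?_, ?_, ?_, ?_⟩
  · intro 𝔪 h𝔪 hmem
    have hle : RingHom.ker (red h) ≤ 𝔪 := by
      rw [hker, Ideal.span_singleton_le_iff_mem]
      exact hmem
    obtain ⟨g', hg'⟩ := (IsPrincipalIdealRing.principal (𝔪.map (red h))).principal
    obtain ⟨g, rfl⟩ := red_surjective h g'
    have hspan : 𝔪 = Ideal.span {algebraMap A₀ P ϖ, g} := by
      apply eq_of_map_eq h hle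
      · rw [hker]
        exact Ideal.span_mono (by simp)
      · rw [hg', Ideal.map_span, Set.image_pair, (red_eq_zero_iff h hϖ _).2 dvd_rfl]
        apply le_antisymm
        · exact Ideal.span_mono (by simp)
        · rw [Ideal.span_le]
          intro y hy
          rcases hy with rfl | rfl
          · exact Ideal.zero_mem _
          · exact Ideal.subset_span rfl
    refine ⟨g, hspan, ?_⟩
    intro hdvd
    have hbot : 𝔪.map (red h) = ⊥ := by
      rw [hg', (red_eq_zero_iff h hϖ g).2 hdvd]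
      simp
    rcases Ideal.map_eq_top_or_isMaximal_of_surjective (red h) (red_surjective h) h𝔪 with h1 | h1
    · rw [hbot] at h1
      exact bot_ne_top h1
    · rw [hbot] at h1
      exact Polynomial.not_isField _ (Ring.isField_iff_maximal_bot.2 h1)
  · intro c
    refine ⟨?_, ?_⟩
    · rw [← ker_ev h hϖ c]
      exact RingHom.ker_isMaximal_of_surjective _ (ev_surjective h c)
    · intro hdvd
      have h1 := (red_eq_zero_iff h hϖ _).2 hdvd
      rw [map_sub, red_x, red_algebraMap] at h1
      exact X_sub_C_ne_zero _ h1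
  · intro c c' hmem
    rw [← ker_ev h hϖ c, RingHom.mem_ker, map_sub, ev_x, ev_algebraMap, ← map_sub,
      residue_eq_zero_iff_dvd hϖ] at hmem
    exact hmem
  · intro 𝔭 h𝔭 hmem hnmax
    have hle : RingHom.ker (red h) ≤ 𝔭 := by
      rw [hker, Ideal.span_singleton_le_iff_mem]
      exact hmem
    have hprime : (𝔭.map (red h)).IsPrime := Ideal.map_isPrime_of_surjective (red_surjective h) hle
    by_cases hbot : 𝔭.map (red h) = ⊥
    · apply eq_of_map_eq h hle hker.le
      rw [hbot, ← hker]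
      symm
      rw [Ideal.map_eq_bot_iff_le_ker]
    · exfalso
      have hmax : (𝔭.map (red h)).IsMaximal := IsPrime.to_maximal_ideal hbot
      have h1 := Ideal.comap_isMaximal_of_surjective (red h) (red_surjective h) (K := 𝔭.map (red h))
      rw [Ideal.comap_map_of_surjective (red h) (red_surjective h)] at h1
      have h2 : 𝔭 ⊔ Ideal.comap (red h) ⊥ = 𝔭 := sup_eq_left.2 hle
      rw [h2] at h1
      exact hnmax h1

end Fermat.Agent.KL

end

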