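import Fermat.Agent.KL.Interface2

/-!
# KL-PR5: basic properties of a chart
-/

set_option autoImplicit false

namespace Fermat.Agent.KL

theorem chartBasic (h1 : Stmt_polyRing) (h4 : Stmt_finOver) : Stmt_chartBasic := by
  intro A₀ P F B _ _ _ _ _ _ _ _ _ _ _ _ _ _ x hx hfin
  obtain ⟨hdom, hnoeth, -, hic, -, -⟩ := h1 A₀ P x hx
  let _ : Algebra (FractionRing P) F := FractionRing.liftAlgebra P F
  have : IsScalarTower P (FractionRing P) F := FractionRing.isScalarTower_liftAlgebra P F
  have hfd : FiniteDimensional (FractionRing P) F := (h4 P (FractionRing P) F).1 hfin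
  have : CharZero (FractionRing P) :=
    ((algebraMap (FractionRing P) F).charZero_iff (algebraMap (FractionRing P) F).injective).2
      inferInstance
  have hsep : Algebra.IsSeparable (FractionRing P) F := inferInstance
  have hfinite : Module.Finite P B := IsIntegralClosure.finite P (FractionRing P) F B
  have hnoethB : IsNoetherianRing B := IsIntegralClosure.isNoetherianRing P (FractionRing P) F B
  have hinjB : Function.Injective (algebraMap B F) := IsIntegralClosure.algebraMap_injective B P F
  have hdomB : IsDomain B := hinjB.isDomain (algebraMap B F)
  have hfrac : IsFractionRing B F :=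
    IsIntegralClosure.isFractionRing_of_finite_extension P (FractionRing P) F B
  have hint : Algebra.IsIntegral P B := IsIntegralClosure.isIntegral_algebra P F
  have hicB : IsIntegrallyClosed B := by
    rw [isIntegrallyClosed_iff F]
    intro y hy
    have hy' : IsIntegral P y := isIntegral_trans y hy
    exact IsIntegralClosure.isIntegral_iff.1 hy'
  have hfaith : FaithfulSMul P B := by
    rw [faithfulSMul_iff_algebraMap_injective]
    intro a b hab
    apply FaithfulSMul.algebraMap_injective P F
    rw [IsScalarTower.algebraMap_apply P B F, IsScalarTower.algebraMap_apply P B F, hab]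
  exact ⟨hfinite, hnoethB, hdomB, hicB, hfrac, hfaith, hint⟩

end Fermat.Agent.KL
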