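/-
KL-PR6 : the two charts `A₀[t]`, `A₀[t⁻¹]` inside `F` (`Stmt_polyRConcrete`).
-/
import Fermat.Agent.KL.Interface2

set_option autoImplicit false

namespace Fermat.Agent.KL

open Polynomial

namespace PR4

variable {A₀ F : Type} [CommRing A₀] [Field F] [Algebra A₀ F]

theorem isPolyVar_polyX {t : F} (ht : Transcendental A₀ t) : IsPolyVar A₀ (polyX A₀ t) :=
  (Polynomial.algEquivOfTranscendental A₀ t ht).bijective

theorem transcendental_inv {t : F} (ht : Transcendental A₀ t) : Transcendental A₀ t⁻¹ :=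
  fun h => ht (IsAlgebraic.inv_iff.1 h)

/-- multiplying an element of `A₀[t]` by a high power of `t⁻¹` lands in `A₀[t⁻¹]`. -/
theorem inv_pow_mul_mem (t : F) (ht : t ≠ 0) (a : F) (ha : a ∈ PolyR A₀ t) :
    ∃ N : ℕ, ∀ n, N ≤ n → t⁻¹ ^ n * a ∈ PolyR A₀ t⁻¹ := by
  have htm : ∀ n : ℕ, t⁻¹ ^ n ∈ PolyR A₀ t⁻¹ := fun n =>
    pow_mem (Algebra.self_mem_adjoin_singleton A₀ t⁻¹) n
  induction ha using Algebra.adjoin_induction with
  | mem x hx =>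
    rw [Set.mem_singleton_iff] at hx
    subst hx
    refine ⟨1, fun n hn => ?_⟩
    obtain ⟨m, rfl⟩ := Nat.exists_eq_add_of_le hn
    rw [add_comm, pow_succ, mul_assoc, inv_mul_cancel₀ ht, mul_one]
    exact htm m
  | algebraMap r => exact ⟨0, fun n _ => mul_mem (htm n) (Subalgebra.algebraMap_mem _ r)⟩
  | add x y _ _ ihx ihy =>
    obtain ⟨N₁, h₁⟩ := ihx
    obtain ⟨N₂, h₂⟩ := ihy
    refine ⟨max N₁ N₂, fun n hn => ?_⟩
    rw [mul_add]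
    exact add_mem (h₁ n (le_trans (le_max_left _ _) hn)) (h₂ n (le_trans (le_max_right _ _) hn))
  | mul x y _ _ ihx ihy =>
    obtain ⟨N₁, h₁⟩ := ihx
    obtain ⟨N₂, h₂⟩ := ihy
    refine ⟨N₁ + N₂, fun n hn => ?_⟩
    obtain ⟨m, rfl⟩ := Nat.exists_eq_add_of_le hn
    have : t⁻¹ ^ (N₁ + N₂ + m) * (x * y) = (t⁻¹ ^ N₁ * x) * (t⁻¹ ^ (N₂ + m) * y) := by
      rw [add_assoc, pow_add]; ring
    rw [this]
    exact mul_mem (h₁ _ le_rfl) (h₂ _ (Nat.le_add_right _ _))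

/-- the same for the span of a set. -/
theorem inv_pow_mul_mem_span (t : F) (ht : t ≠ 0) (s : Set F) (w : F)
    (hw : w ∈ Submodule.span (PolyR A₀ t) s) :
    ∃ N : ℕ, ∀ n, N ≤ n → t⁻¹ ^ n * w ∈ Submodule.span (PolyR A₀ t⁻¹) s := by
  have htm : ∀ n : ℕ, t⁻¹ ^ n ∈ PolyR A₀ t⁻¹ := fun n =>
    pow_mem (Algebra.self_mem_adjoin_singleton A₀ t⁻¹) n
  induction hw using Submodule.span_induction with
  | mem x hx =>
    refine ⟨0, fun n _ => ?_⟩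
    exact Submodule.smul_mem _ (⟨t⁻¹ ^ n, htm n⟩ : PolyR A₀ t⁻¹) (Submodule.subset_span hx)
  | zero => exact ⟨0, fun n _ => by rw [mul_zero]; exact Submodule.zero_mem _⟩
  | add x y _ _ ihx ihy =>
    obtain ⟨N₁, h₁⟩ := ihx
    obtain ⟨N₂, h₂⟩ := ihy
    refine ⟨max N₁ N₂, fun n hn => ?_⟩
    rw [mul_add]
    exact add_mem (h₁ n (le_trans (le_max_left _ _) hn)) (h₂ n (le_trans (le_max_right _ _) hn))
  | smul a x _ ihx =>
    obtain ⟨N₁, h₁⟩ := inv_pow_mul_mem t ht (a : F) a.2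
    obtain ⟨N₂, h₂⟩ := ihx
    refine ⟨N₁ + N₂, fun n hn => ?_⟩
    obtain ⟨m, rfl⟩ := Nat.exists_eq_add_of_le hn
    have : t⁻¹ ^ (N₁ + N₂ + m) * (a • x) = (t⁻¹ ^ N₁ * (a : F)) * (t⁻¹ ^ (N₂ + m) * x) := by
      rw [Subalgebra.smul_def, smul_eq_mul, add_assoc, pow_add]; ring
    rw [this]
    exact Submodule.smul_mem _ (⟨_, h₁ _ le_rfl⟩ : PolyR A₀ t⁻¹) (h₂ _ (Nat.le_add_right _ _))

theorem finOverR_inv (t : F) (ht : t ≠ 0) (h : FinOverR (PolyR A₀ t) F) :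
    FinOverR (PolyR A₀ t⁻¹) F := by
  obtain ⟨s, hs⟩ := h
  refine ⟨s, fun y => ?_⟩
  obtain ⟨d, hd0, hd⟩ := hs y
  obtain ⟨N₁, h₁⟩ := inv_pow_mul_mem t ht (d : F) d.2
  obtain ⟨N₂, h₂⟩ := inv_pow_mul_mem_span t ht _ _ hd
  refine ⟨⟨_, h₁ (max N₁ N₂) (le_max_left _ _)⟩, ?_, ?_⟩
  · intro h0
    have h1 : t⁻¹ ^ (max N₁ N₂) * (d : F) = 0 := congrArg Subtype.val h0
    rcases mul_eq_zero.1 h1 with h2 | h2
    · exact pow_ne_zero _ (inv_ne_zero ht) h2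
    · exact hd0 (Subtype.ext h2)
  · have h3 := h₂ (max N₁ N₂) (le_max_right _ _)
    rw [Subalgebra.smul_def, smul_eq_mul, ← mul_assoc] at h3
    exact h3

end PR4

theorem stmt_polyRConcrete : Stmt_polyRConcrete := by
  intro A₀ F _ _ _ _ _ t ht
  have ht0 : t ≠ 0 := by
    rintro rfl
    exact ht isAlgebraic_zero
  exact ⟨PR4.isPolyVar_polyX ht, PR4.transcendental_inv ht, PR4.finOverR_inv t ht0⟩

end Fermat.Agent.KL
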