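/-
KL ("Claim K"), package PR: assembly of PR1, PR3, PR4, PR5, PR6.

* `stmt_polyRing`, `stmt_polyMaximal` : `PolyRing1.lean`
* `stmt_finOver` : `PolyRing2.lean`
* `stmt_chartBasic` : here (from `PolyRing3.lean`)
* `stmt_polyRConcrete` : `PolyRing4.lean`
-/
import Fermat.Agent.KL.PolyRing1
import Fermat.Agent.KL.PolyRing2
import Fermat.Agent.KL.PolyRing3
import Fermat.Agent.KL.PolyRing4

set_option autoImplicit false

namespace Fermat.Agent.KL

/-- PR5. -/
theorem stmt_chartBasic : Stmt_chartBasic := chartBasic stmt_polyRing stmt_finOver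

end Fermat.Agent.KL
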