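/-
KL-G2 (bounded torsion) and KL-G5 (base elements prime to `π` avoid the minimal primes over `π`).
-/
import Fermat.Agent.KL.Interface2
import Fermat.Agent.S28.QEPAlg

set_option autoImplicit false

namespace Fermat.Agent.KL

/-- G2. -/
theorem stmt_H1bound : Stmt_H1bound := by
  intro A M _ _ _ _ ϖ M₁ M₂ N hN htop
  set W : Submodule A M := M₁ ⊔ M₂ with hW
  have hfg : (⊤ : Submodule A (M ⧸ W)).FG := by
    have h1 : N.map W.mkQ = ⊤ := by
      rw [eq_top_iff]
      rintro y -
      obtain ⟨x, rfl⟩ := W.mkQ_surjective y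
      have hx : x ∈ W ⊔ N := htop ▸ Submodule.mem_top
      obtain ⟨w, hw, n, hn, rfl⟩ := Submodule.mem_sup.1 hx
      refine ⟨n, hn, ?_⟩
      have hw0 : W.mkQ w = 0 := (Submodule.Quotient.mk_eq_zero W).2 hw
      rw [map_add, hw0, zero_add]
    rw [← h1]
    exact hN.map _
  have hfin : Module.Finite A (M ⧸ W) := ⟨hfg⟩
  have hnoeth : IsNoetherian A (M ⧸ W) := inferInstance
  let f : ℕ →o Submodule A (M ⧸ W) :=
    { toFun := fun k => LinearMap.ker (LinearMap.lsmul A (M ⧸ W) (ϖ ^ k))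
      monotone' := by
        intro a b hab y hy
        rw [LinearMap.mem_ker, LinearMap.lsmul_apply] at hy ⊢
        obtain ⟨d, rfl⟩ := Nat.exists_eq_add_of_le hab
        rw [pow_add, mul_comm, mul_smul, hy, smul_zero] }
  obtain ⟨c, hc⟩ := monotone_stabilizes_iff_noetherian.2 hnoeth f
  refine ⟨c, ?_⟩
  intro x k hx
  have h1 : W.mkQ x ∈ f k := by
    show W.mkQ x ∈ LinearMap.ker (LinearMap.lsmul A (M ⧸ W) (ϖ ^ k))
    rw [LinearMap.mem_ker, LinearMap.lsmul_apply, ← map_smul]
    exact (Submodule.Quotient.mk_eq_zero W).2 hx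
  have h2 : W.mkQ x ∈ f (max c k) := f.monotone (le_max_right c k) h1
  rw [← hc _ (le_max_left c k)] at h2
  have h3 : W.mkQ x ∈ LinearMap.ker (LinearMap.lsmul A (M ⧸ W) (ϖ ^ c)) := h2
  rw [LinearMap.mem_ker, LinearMap.lsmul_apply, ← map_smul] at h3
  exact (Submodule.Quotient.mk_eq_zero W).1 h3

/-- G5. -/
theorem stmt_notMemMinimalPrimes : Stmt_notMemMinimalPrimes := by
  intro R L _ _ _ _ _ _ π h hπ hh P hP hmem
  obtain ⟨y, hy, hxy⟩ := Ideal.exists_mul_mem_of_mem_minimalPrimes hP hmem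
  apply hy
  rw [Ideal.mem_span_singleton] at hxy ⊢
  obtain ⟨w, hw⟩ := hxy
  have hπL : algebraMap R L π ≠ 0 := by
    rw [Ne, FaithfulSMul.algebraMap_eq_zero_iff]
    exact hπ.ne_zero
  have hw' : algebraMap R L h * (y : L) = algebraMap R L π * (w : L) :=
    congrArg (fun b : integralClosure R L => (b : L)) hw
  have h1 : IsIntegral R (π • ((y : L) / algebraMap R L π)) := by
    have : π • ((y : L) / algebraMap R L π) = (y : L) := by
      rw [Algebra.smul_def]
      field_simp
    rw [this]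
    exact y.2
  have h2 : IsIntegral R (h • ((y : L) / algebraMap R L π)) := by
    have : h • ((y : L) / algebraMap R L π) = (w : L) := by
      rw [Algebra.smul_def, ← mul_div_assoc, hw']
      field_simp
    rw [this]
    exact w.2
  have h3 := Fermat.Agent.S28.QEP.isIntegral_of_smul_of_smul hπ hh h1 h2
  refine ⟨⟨(y : L) / algebraMap R L π, h3⟩, ?_⟩
  apply Subtype.ext
  show (y : L) = algebraMap R L π * ((y : L) / algebraMap R L π)
  field_simp

end Fermat.Agent.KL
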