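/-
KL-0, M2, M3: `LocPrime ⇒ LocIrred`; localisation transfer of `LocPrime` / `IsHtOne`.
-/
import Fermat.Agent.KL.Interface2

set_option autoImplicit false

namespace Fermat.Agent.KL

namespace LocBasic

/-- the ideal `{x | ∃ s ∉ 𝔫, ϖ ∣ s * x}` -/
def locIdeal {B : Type} [CommRing B] (ϖ : B) (𝔫 : Ideal B) (h𝔫 : 𝔫.IsPrime) : Ideal B where
  carrier := {x | ∃ s : B, s ∉ 𝔫 ∧ ϖ ∣ s * x}
  zero_mem' := ⟨1, fun h => h𝔫.ne_top ((Ideal.eq_top_iff_one _).2 h), by simp⟩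
  add_mem' := by
    rintro x y ⟨s, hs, hx⟩ ⟨t, ht, hy⟩
    refine ⟨s * t, fun h => (h𝔫.mem_or_mem h).elim hs ht, ?_⟩
    have : s * t * (x + y) = t * (s * x) + s * (t * y) := by ring
    rw [this]
    exact dvd_add (Dvd.dvd.mul_left hx _) (Dvd.dvd.mul_left hy _)
  smul_mem' := by
    rintro c x ⟨s, hs, hx⟩
    refine ⟨s, hs, ?_⟩
    have : s * (c • x) = c * (s * x) := by simp only [smul_eq_mul]; ring
    rw [this]
    exact Dvd.dvd.mul_left hx _

theorem eq_locIdeal {B : Type} [CommRing B] (ϖ : B) (𝔫 : Ideal B) (h𝔫 : 𝔫.IsPrime)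
    (hp : LocPrime ϖ 𝔫) (P : Ideal B) (hP : P ∈ (Ideal.span {ϖ}).minimalPrimes) (hPn : P ≤ 𝔫) :
    P = locIdeal ϖ 𝔫 h𝔫 := by
  have hϖP : ϖ ∈ P := hP.1.2 (Ideal.mem_span_singleton_self ϖ)
  have hle : locIdeal ϖ 𝔫 h𝔫 ≤ P := by
    rintro x ⟨s, hs, hx⟩
    have h1 : s * x ∈ P := P.mem_of_dvd hx hϖP
    exact (hP.1.1.mem_or_mem h1).resolve_left (fun h => hs (hPn h))
  have hprime : (locIdeal ϖ 𝔫 h𝔫).IsPrime := by
    refine ⟨fun htop => hP.1.1.ne_top (top_le_iff.1 (htop ▸ hle)), ?_⟩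
    rintro x y ⟨s, hs, hxy⟩
    have h1 : ϖ ∣ (s * x) * y := by rwa [mul_assoc]
    obtain ⟨t, ht, h2 | h2⟩ := hp _ _ h1
    · left
      exact ⟨t * s, fun h => (h𝔫.mem_or_mem h).elim ht hs, by rwa [mul_assoc]⟩
    · right
      exact ⟨t, ht, h2⟩
  have hspan : Ideal.span {ϖ} ≤ locIdeal ϖ 𝔫 h𝔫 := by
    rw [Ideal.span_singleton_le_iff_mem]
    exact ⟨1, fun h => h𝔫.ne_top ((Ideal.eq_top_iff_one _).2 h), by simp⟩
  exact le_antisymm (hP.2 ⟨hprime, hspan⟩ hle) hle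

end LocBasic

/-- KL-0. -/
theorem stmt_locIrredOfLocPrime : Stmt_locIrredOfLocPrime := by
  intro B _ ϖ 𝔫 h𝔫 hp P Q hP hQ hPn hQn
  rw [LocBasic.eq_locIdeal ϖ 𝔫 h𝔫 hp P hP hPn, LocBasic.eq_locIdeal ϖ 𝔫 h𝔫 hp Q hQ hQn]

namespace LocBasic

theorem descend_dvd {B B' : Type} [CommRing B] [CommRing B'] [Algebra B B'] (S : Submonoid B)
    [IsLocalization S B'] (ϖ : B) (𝔫 : Ideal B) (h𝔫 : 𝔫.IsPrime)
    (hdisj : Disjoint (S : Set B) (𝔫 : Set B)) (x : B) (s' : B')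
    (hs' : s' ∉ 𝔫.map (algebraMap B B')) (hdvd : algebraMap B B' ϖ ∣ s' * algebraMap B B' x) :
    ∃ s : B, s ∉ 𝔫 ∧ ϖ ∣ s * x := by
  have hS : ∀ c ∈ S, c ∉ 𝔫 := fun c hc hcn => Set.disjoint_left.1 hdisj hc hcn
  obtain ⟨s1, u, rfl⟩ := IsLocalization.exists_mk'_eq S s'
  have hs1 : s1 ∉ 𝔫 := by
    intro h
    apply hs'
    rw [IsLocalization.mk'_eq_mul_mk'_one]
    exact Ideal.mul_mem_right _ _ (Ideal.mem_map_of_mem _ h)
  obtain ⟨z, hz⟩ := hdvd
  obtain ⟨z1, v, rfl⟩ := IsLocalization.exists_mk'_eq S z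
  have e1 : algebraMap B B' (s1 * x * v) = algebraMap B B' (ϖ * z1 * u) := by
    have h1 : IsLocalization.mk' B' s1 u * algebraMap B B' u = algebraMap B B' s1 :=
      IsLocalization.mk'_spec _ _ _
    have h2 : IsLocalization.mk' B' z1 v * algebraMap B B' v = algebraMap B B' z1 :=
      IsLocalization.mk'_spec _ _ _
    simp only [map_mul]
    rw [← h1, ← h2]
    linear_combination (algebraMap B B' u * algebraMap B B' v) * hz
  obtain ⟨c, hc⟩ := (IsLocalization.eq_iff_exists S B').1 e1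
  refine ⟨c * v * s1, ?_, ?_⟩
  · intro h
    rcases h𝔫.mem_or_mem h with h | h
    · rcases h𝔫.mem_or_mem h with h | h
      · exact hS c c.2 h
      · exact hS v v.2 h
    · exact hs1 h
  · refine ⟨c * z1 * u, ?_⟩
    linear_combination hc

end LocBasic

/-- M2. -/
theorem stmt_locPrimeLocalization : Stmt_locPrimeLocalization := by
  intro B B' _ _ _ S _ ϖ 𝔫 h𝔫 hdisj hp x y hxy
  have h1 : algebraMap B B' ϖ ∣ algebraMap B B' x * algebraMap B B' y := by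
    rw [← map_mul]
    exact map_dvd _ hxy
  obtain ⟨s', hs', h2 | h2⟩ := hp _ _ h1
  · obtain ⟨s, hs, h3⟩ := LocBasic.descend_dvd S ϖ 𝔫 h𝔫 hdisj x s' hs' h2
    exact ⟨s, hs, Or.inl h3⟩
  · obtain ⟨s, hs, h3⟩ := LocBasic.descend_dvd S ϖ 𝔫 h𝔫 hdisj y s' hs' h2
    exact ⟨s, hs, Or.inr h3⟩

/-- M3. -/
theorem stmt_htOneLocalization : Stmt_htOneLocalization := by
  intro B B' _ _ _ _ S _ hS
  have hinj : Function.Injective (algebraMap B B') := IsLocalization.injective B' hS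
  have hbot : (⊥ : Ideal B').under B = ⊥ := by
    rw [Ideal.under_def, ← RingHom.ker_eq_comap_bot]
    exact (RingHom.injective_iff_ker_eq_bot _).1 hinj
  constructor
  · rintro 𝔔 ⟨hQp, hQ0, hQmin⟩
    have hdisjQ : Disjoint (S : Set B) ((𝔔.under B : Ideal B) : Set B) :=
      ((IsLocalization.isPrime_iff_isPrime_disjoint S B' 𝔔).1 hQp).2
    refine ⟨Ideal.comap_isPrime _ _, ?_, ?_⟩
    · intro h
      apply hQ0
      rw [← IsLocalization.map_under S B' 𝔔, h, Ideal.map_bot]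
    · intro 𝔮 hq hle
      have hdisj : Disjoint (S : Set B) (𝔮 : Set B) :=
        Set.disjoint_of_subset_right hle hdisjQ
      have hq' : (𝔮.map (algebraMap B B')).IsPrime :=
        IsLocalization.isPrime_of_isPrime_disjoint S B' 𝔮 hq hdisj
      have hle' : 𝔮.map (algebraMap B B') ≤ 𝔔 := Ideal.map_le_iff_le_comap.2 hle
      have hcm := IsLocalization.under_map_of_isPrime_disjoint S B' hq hdisj
      rcases hQmin _ hq' hle' with h | h
      · left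
        rw [← hcm, h, hbot]
      · right
        rw [← hcm, h]
  · rintro 𝔓 ⟨hPp, hP0, hPmin⟩ hdisj
    have hcm := IsLocalization.under_map_of_isPrime_disjoint S B' hPp hdisj
    refine ⟨⟨IsLocalization.isPrime_of_isPrime_disjoint S B' 𝔓 hPp hdisj, ?_, ?_⟩, hcm⟩
    · intro h
      apply hP0
      rw [← hcm, h, hbot]
    · intro 𝔮' hq' hle
      have h1 : 𝔮'.under B ≤ 𝔓 := by
        rw [← hcm]
        exact Ideal.comap_mono hle
      rcases hPmin (𝔮'.under B) (Ideal.comap_isPrime _ _) h1 with h | h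
      · left
        rw [← IsLocalization.map_under S B' 𝔮', h, Ideal.map_bot]
      · right
        rw [← IsLocalization.map_under S B' 𝔮', h]

end Fermat.Agent.KL
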