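import Fermat.Agent.KL.Interface2

/-!
# KL-A2 + A3 : nonzero discriminant ⇒ reduced; noetherian local ring with maximal ideal generated
by a non-zero-divisor ⇒ domain
-/

set_option autoImplicit false

namespace Fermat.Agent.KL

open IsLocalRing

namespace A23

lemma trace_mul_eq_zero_of_isNilpotent {k C : Type} [Field k] [CommRing C] [Algebra k C]
    [Module.Finite k C] {x : C} (hx : IsNilpotent x) (y : C) : Algebra.trace k C (x * y) = 0 := by
  have h1 : IsNilpotent (x * y) := (Commute.all x y).isNilpotent_mul_right hx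
  have h2 : IsNilpotent (Algebra.lmul k C (x * y)) := h1.map (Algebra.lmul k C)
  have h3 := LinearMap.isNilpotent_trace_of_isNilpotent h2
  rw [Algebra.trace_apply]
  exact h3.eq_zero

lemma exists_unit_mul_pow {C : Type} [CommRing C] [IsLocalRing C] [IsNoetherianRing C] {τ : C}
    (hm : maximalIdeal C = Ideal.span {τ}) {x : C} (hx : x ≠ 0) :
    ∃ (n : ℕ) (u : C), IsUnit u ∧ x = τ ^ n * u := by
  have hK : (⨅ n : ℕ, (maximalIdeal C) ^ n) = ⊥ :=
    Ideal.iInf_pow_eq_bot_of_isLocalRing _ (Ideal.IsPrime.ne_top inferInstance)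
  have hex : ∃ n : ℕ, x ∉ (maximalIdeal C) ^ n := by
    by_contra hcon
    push Not at hcon
    have : x ∈ (⨅ n : ℕ, (maximalIdeal C) ^ n) := by
      rw [Ideal.mem_iInf]; exact hcon
    rw [hK] at this
    exact hx (by simpa using this)
  classical
  set n0 := Nat.find hex with hn0
  have h1 : x ∉ (maximalIdeal C) ^ n0 := Nat.find_spec hex
  have h0 : n0 ≠ 0 := by
    intro h
    rw [h, pow_zero, Ideal.one_eq_top] at h1
    exact h1 Submodule.mem_top
  obtain ⟨n, hn⟩ := Nat.exists_eq_succ_of_ne_zero h0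
  have h2 : x ∈ (maximalIdeal C) ^ n := by
    by_contra h
    have := Nat.find_min' hex h
    omega
  rw [hm, Ideal.span_singleton_pow, Ideal.mem_span_singleton] at h2
  obtain ⟨u, hu⟩ := h2
  refine ⟨n, u, ?_, hu⟩
  by_contra hnu
  have h3 : u ∈ maximalIdeal C := (mem_maximalIdeal u).mpr hnu
  rw [hm, Ideal.mem_span_singleton] at h3
  obtain ⟨w, hw⟩ := h3
  apply h1
  rw [hn, hm, Ideal.span_singleton_pow, Ideal.mem_span_singleton]
  exact ⟨w, by rw [hu, hw, pow_succ]; ring⟩

end A23

theorem stmt_reducedOfDiscr : Stmt_reducedOfDiscr := by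
  intro k C _ _ _ ι _ _ b hb
  have : Module.Finite k C := Module.Finite.of_basis b
  have hnd : (Algebra.traceForm k C).Nondegenerate := by
    rw [LinearMap.BilinForm.nondegenerate_iff_det_ne_zero b, ← Algebra.traceMatrix_of_basis,
      ← Algebra.discr_def]
    exact hb
  refine ⟨fun x hx => ?_⟩
  apply hnd.1 x
  intro y
  rw [Algebra.traceForm_apply]
  exact A23.trace_mul_eq_zero_of_isNilpotent hx y

theorem stmt_domainOfPrincipal : Stmt_domainOfPrincipal := by
  intro C _ _ _ τ hτ hm
  have : NoZeroDivisors C := by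
    refine ⟨fun {x y} hxy => ?_⟩
    by_contra hcon
    push Not at hcon
    obtain ⟨n, u, hu, hx⟩ := A23.exists_unit_mul_pow hm hcon.1
    obtain ⟨n', u', hu', hy⟩ := A23.exists_unit_mul_pow hm hcon.2
    have h1 : τ ^ (n + n') * (u * u') = 0 := by
      rw [← hxy, hx, hy, pow_add]; ring
    have h2 : τ ^ (n + n') ∈ nonZeroDivisors C := pow_mem hτ _
    have h3 : u * u' = 0 := by
      rw [mul_comm] at h1
      exact (mem_nonZeroDivisors_iff_right.mp h2) _ h1
    exact (hu.mul hu').ne_zero h3
  exact NoZeroDivisors.to_isDomain C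

end Fermat.Agent.KL
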