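import Fermat.Agent.KL.AbhInterface

/-!
# KL-K6 (Abhyankar's lemma): the field level statement `Stmt_abhField` (helper2)
-/

set_option autoImplicit false

namespace Fermat.Agent.KL

namespace AbhField

open Polynomial

variable (L : Type) {L' : Type} [Field L] [Field L'] [Algebra L L'] (O : ValuationSubring L')

/-- `V = O ∩ L` -/
abbrev VV : ValuationSubring L := O.comap (algebraMap L L')

/-- `V → O` -/
def jO : VV L O →+* O :=
  (algebraMap L L').restrict (VV L O) O (fun _ hx => ValuationSubring.mem_comap.mp hx)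

theorem coe_jO (c : VV L O) : ((jO L O c : O) : L') = algebraMap L L' (c : L) := rfl

variable {L}

theorem mem_VV {c : L} : c ∈ VV L O ↔ O.valuation (algebraMap L L' c) ≤ 1 := by
  rw [ValuationSubring.mem_comap, ValuationSubring.valuation_le_one_iff]

theorem isUnit_VV (c : VV L O) (hc : O.valuation (algebraMap L L' (c : L)) = 1) : IsUnit c := by
  have hc0 : (c : L) ≠ 0 := by
    intro h
    rw [h, map_zero, map_zero] at hc
    exact zero_ne_one hc
  have hmem : (c : L)⁻¹ ∈ VV L O := by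
    rw [mem_VV, map_inv₀, map_inv₀, hc, inv_one]
  exact IsUnit.of_mul_eq_one ⟨(c : L)⁻¹, hmem⟩ (Subtype.ext (mul_inv_cancel₀ hc0))

theorem lt_one_of_not_isUnit (c : VV L O) (hc : ¬ IsUnit c) :
    O.valuation (algebraMap L L' (c : L)) < 1 :=
  lt_of_le_of_ne ((mem_VV O).mp c.2) (fun h => hc (isUnit_VV O c h))

section gen

variable {O} {π : L} (hπ0 : π ≠ 0) (hπ1 : O.valuation (algebraMap L L' π) < 1)
  (hgen : ∀ ℓ : L, ℓ ≠ 0 →
      ∃ n : ℤ, O.valuation (algebraMap L L' ℓ) = O.valuation (algebraMap L L' π) ^ n)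

include hπ0 in
theorem val_pi_pos : 0 < O.valuation (algebraMap L L' π) := by
  rw [Valuation.pos_iff]
  exact (_root_.map_ne_zero _).mpr hπ0

include hπ0 hπ1 hgen in
theorem G1 (c : L) (hc : O.valuation (algebraMap L L' c) < 1) :
    O.valuation (algebraMap L L' c) ≤ O.valuation (algebraMap L L' π) := by
  by_cases hc0 : c = 0
  · rw [hc0, map_zero, map_zero]
    exact zero_le
  obtain ⟨n, hn⟩ := hgen c hc0
  rw [hn] at hc ⊢
  have hn0 : 0 < n := (zpow_lt_one_iff_right_of_lt_one₀ (val_pi_pos hπ0) hπ1).mp hc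
  have := zpow_le_zpow_right_of_le_one₀ (val_pi_pos (O := O) hπ0) hπ1.le
    (show (1 : ℤ) ≤ n by omega)
  simpa using this

include hπ0 hπ1 hgen in
theorem G2 (c : L) (hc0 : c ≠ 0) :
    ∃ N : ℕ, O.valuation (algebraMap L L' π) ^ N ≤ O.valuation (algebraMap L L' c) := by
  obtain ⟨n, hn⟩ := hgen c hc0
  refine ⟨n.toNat, ?_⟩
  rw [hn, ← zpow_natCast]
  exact zpow_le_zpow_right_of_le_one₀ (val_pi_pos hπ0) hπ1.le (Int.self_le_toNat n)

include hπ0 hπ1 hgen in
/-- the maximal ideal of `V` is generated by `π` -/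
theorem dvd_of_not_isUnit (hπV : π ∈ VV L O) (c : VV L O) (hc : ¬ IsUnit c) :
    (⟨π, hπV⟩ : VV L O) ∣ c := by
  have h1 := G1 hπ0 hπ1 hgen c (lt_one_of_not_isUnit O c hc)
  have hmem : (c : L) / π ∈ VV L O := by
    rw [mem_VV, map_div₀, map_div₀]
    exact div_le_one_of_le₀ h1 zero_le
  refine ⟨⟨(c : L) / π, hmem⟩, Subtype.ext ?_⟩
  show (c : L) = π * ((c : L) / π)
  field_simp

include hπ0 hπ1 hgen in
/-- the polynomial lemma -/
theorem PL (hP : Stmt_abhPoly) (hchar : ∀ n : ℕ, n ≠ 0 → O.valuation (n : L') = 1)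
    (hπV : π ∈ VV L O) (uV : VV L O) (hu : IsUnit uV) {k : ℕ} (hk : 0 < k) (q : (VV L O)[X]) :
    ∃ t g h : (VV L O)[X],
      q * (1 - q * t) = C (⟨π, hπV⟩ : VV L O) * g + (X ^ k - C uV) * h := by
  set ρ := IsLocalRing.residue (VV L O) with hρ
  have hkunit : IsUnit ((k : ℕ) : VV L O) := by
    apply isUnit_VV
    have : algebraMap L L' (((k : ℕ) : VV L O) : L) = ((k : ℕ) : L') := by simp
    rw [this]
    exact hchar k hk.ne'
  have hk0 : ((k : ℕ) : IsLocalRing.ResidueField (VV L O)) ≠ 0 := by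
    have := (IsLocalRing.residue_ne_zero_iff_isUnit _).mpr hkunit
    simpa using this
  have hu0 : ρ uV ≠ 0 := (IsLocalRing.residue_ne_zero_iff_isUnit _).mpr hu
  have hsep := (separable_X_pow_sub_C (ρ uV) hk0 hu0).squarefree
  obtain ⟨tb, hb, e⟩ := hP _ _ (q.map ρ) hsep
  obtain ⟨t, rfl⟩ := Polynomial.map_surjective ρ IsLocalRing.residue_surjective tb
  obtain ⟨h, rfl⟩ := Polynomial.map_surjective ρ IsLocalRing.residue_surjective hb
  have hD : (q * (1 - q * t) - (X ^ k - C uV) * h).map ρ = 0 := by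
    simp only [Polynomial.map_sub, Polynomial.map_mul, Polynomial.map_one, Polynomial.map_pow,
      Polynomial.map_X, Polynomial.map_C]
    rw [e, sub_self]
  have hdvd : C (⟨π, hπV⟩ : VV L O) ∣ q * (1 - q * t) - (X ^ k - C uV) * h := by
    rw [Polynomial.C_dvd_iff_dvd_coeff]
    intro i
    apply dvd_of_not_isUnit hπ0 hπ1 hgen
    have := congrArg (fun p => Polynomial.coeff p i) hD
    simp only [Polynomial.coeff_map, Polynomial.coeff_zero] at this
    rw [IsLocalRing.residue_eq_zero_iff] at this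
    exact this
  obtain ⟨g, hg⟩ := hdvd
  exact ⟨t, g, h, by linear_combination hg⟩

end gen

section abstract

variable {Vr Or : Type} [CommRing Vr] [CommRing Or] (j : Vr →+* Or) (θ s : Or)

/-- `V[X][Y] → O`, `X ↦ θ`, `Y ↦ s` -/
noncomputable def Phi : Vr[X][X] →+* Or := eval₂RingHom (eval₂RingHom j θ) s

theorem Phi_C (p : Vr[X]) : Phi j θ s (C p) = eval₂ j θ p := by
  simp [Phi]

theorem Phi_CC (c : Vr) : Phi j θ s (C (C c)) = j c := by
  simp [Phi]

theorem Phi_X : Phi j θ s X = s := by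
  simp [Phi]

theorem KEY (πV uV uinv : Vr) {k d : ℕ} (hk : 0 < k) (hd : 0 < d) (huu : uV * uinv = 1)
    (hθ : θ ^ k = j uV) (hs : s ^ d = j πV * θ)
    (PLh : ∀ q : Vr[X], ∃ t g h : Vr[X], q * (1 - q * t) = C πV * g + (X ^ k - C uV) * h)
    (F : Vr[X][X]) :
    ∃ T G : Vr[X][X], Phi j θ s F * (1 - Phi j θ s F * Phi j θ s T) = s * Phi j θ s G := by
  obtain ⟨t, g, h, e⟩ := PLh (F.coeff 0)
  refine ⟨C t, X ^ (d - 1) * C (X ^ (k - 1) * C uinv * g) + divX F * (1 - F * C t)
    - C (F.coeff 0) * divX F * C t, ?_⟩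
  have hF : Phi j θ s F = Phi j θ s (divX F) * s + eval₂ j θ (F.coeff 0) := by
    conv_lhs => rw [← divX_mul_X_add F]
    rw [map_add, map_mul, Phi_X, Phi_C]
  have e' := congrArg (eval₂ j θ) e
  simp only [eval₂_mul, eval₂_sub, eval₂_add, eval₂_one, eval₂_C, eval₂_pow, eval₂_X] at e'
  have hS : s * s ^ (d - 1) = j πV * θ := by rw [mul_pow_sub_one hd.ne', hs]
  have hΘ : θ * θ ^ (k - 1) = j uV := by rw [mul_pow_sub_one hk.ne', hθ]
  have hU : j uV * j uinv = 1 := by rw [← map_mul, huu, map_one]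
  simp only [map_add, map_sub, map_mul, map_pow, map_one, Phi_X, Phi_C, eval₂_X, eval₂_C]
  rw [hF]
  rw [hθ, sub_self, zero_mul, add_zero] at e'
  linear_combination e' - (θ ^ (k - 1) * j uinv * eval₂ j θ g) * hS
    - (j πV * j uinv * eval₂ j θ g) * hΘ - (j πV * eval₂ j θ g) * hU

end abstract

theorem main (hP : Stmt_abhPoly) : Stmt_abhField := by
  intro L L' _ _ _ O π u s k d hk hd hπ0 hπ1 hgen hchar hu hs hadj
  have hιπ0 : algebraMap L L' π ≠ 0 := (_root_.map_ne_zero _).mpr hπ0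
  obtain ⟨θ, hθdef⟩ : ∃ θ : L', θ = s ^ d / algebraMap L L' π := ⟨_, rfl⟩
  have hθk : θ ^ k = algebraMap L L' u := by
    rw [hθdef, div_pow, ← pow_mul, mul_comm d k, hs, map_mul, map_pow]
    field_simp
  have hwθ : O.valuation θ = 1 := by
    have h1 : O.valuation θ ^ k = 1 := by rw [← map_pow, hθk, hu]
    rcases lt_trichotomy (O.valuation θ) 1 with h | h | h
    · exact absurd h1 (pow_lt_one₀ zero_le h hk.ne').ne
    · exact h
    · exact absurd h1 (one_lt_pow₀ h hk.ne').ne'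
  have hsd : s ^ d = algebraMap L L' π * θ := by
    rw [hθdef]
    field_simp
  have hwsd : O.valuation s ^ d = O.valuation (algebraMap L L' π) := by
    rw [← map_pow, hsd, map_mul, hwθ, mul_one]
  have hws1 : O.valuation s < 1 := by
    by_contra h
    rw [not_lt] at h
    have h2 := one_le_pow₀ h (n := d)
    rw [hwsd] at h2
    exact absurd hπ1 (not_lt.mpr h2)
  have hs0 : s ≠ 0 := by
    rintro rfl
    rw [zero_pow hd.ne'] at hsd
    have hθ0 : θ ≠ 0 := by
      rintro rfl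
      simp at hwθ
    exact (mul_ne_zero hιπ0 hθ0) hsd.symm
  have hws0 : 0 < O.valuation s := (Valuation.pos_iff _).mpr hs0
  have hπV : π ∈ VV L O := (mem_VV O).mpr hπ1.le
  have huV : u ∈ VV L O := (mem_VV O).mpr hu.le
  have huunit : IsUnit (⟨u, huV⟩ : VV L O) := isUnit_VV O _ hu
  obtain ⟨uinv, huu⟩ := huunit.exists_right_inv
  obtain ⟨θO, hθO⟩ : ∃ θO : O, (θO : L') = θ := ⟨⟨θ, (O.valuation_le_one_iff θ).mp hwθ.le⟩, rfl⟩
  obtain ⟨sO, hsO⟩ : ∃ sO : O, (sO : L') = s := ⟨⟨s, (O.valuation_le_one_iff s).mp hws1.le⟩, rfl⟩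
  have hθOk : θO ^ k = jO L O ⟨u, huV⟩ := by
    apply Subtype.ext
    rw [coe_jO]
    push_cast
    rw [hθO, hθk]
  have hsOd : sO ^ d = jO L O ⟨π, hπV⟩ * θO := by
    apply Subtype.ext
    push_cast
    rw [coe_jO, hθO, hsO, hsd]
  have key := KEY (jO L O) θO sO ⟨π, hπV⟩ ⟨u, huV⟩ uinv hk hd huu hθOk hsOd
    (PL hπ0 hπ1 hgen hP hchar hπV _ huunit hk)
  obtain ⟨Φ, hΦ⟩ : ∃ Φ : (VV L O)[X][X] →+* O, Φ = Phi (jO L O) θO sO := ⟨_, rfl⟩
  rw [← hΦ] at key
  have hle : ∀ z : O, O.valuation (z : L') ≤ 1 := fun z => (O.valuation_le_one_iff _).mpr z.2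
  -- one step
  have step : ∀ F, O.valuation (Φ F : L') < 1 →
      ∃ G, O.valuation (Φ F : L') = O.valuation s * O.valuation (Φ G : L') := by
    intro F hF
    obtain ⟨T, G, e⟩ := key F
    refine ⟨G, ?_⟩
    have e' := congrArg (fun z : O => O.valuation (z : L')) e
    push_cast at e'
    rw [map_mul, map_mul, hsO] at e'
    have h1 : O.valuation (1 - (Φ F : L') * (Φ T : L')) = 1 := by
      apply Valuation.map_one_sub_of_lt
      rw [map_mul]
      exact mul_lt_one_of_nonneg_of_lt_one_left zero_le hF (hle _)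
    rw [h1, mul_one] at e'
    exact e'
  -- algebraicity
  have halg : ∀ z : L', IsAlgebraic L z := by
    have hint : IsIntegral L s :=
      ⟨X ^ (k * d) - C (u * π ^ k), monic_X_pow_sub_C _ (Nat.mul_pos hk hd).ne', by simp [hs]⟩
    have h1 := IntermediateField.isAlgebraic_adjoin_simple hint
    intro z
    have hz : z ∈ IntermediateField.adjoin L {s} := by rw [hadj]; trivial
    exact (h1.isAlgebraic ⟨z, hz⟩).algHom (IntermediateField.adjoin L {s}).val
  -- lower bound
  have LB : ∀ z : O, z ≠ 0 → ∃ N : ℕ, O.valuation s ^ N ≤ O.valuation (z : L') := by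
    intro z hz
    let _ : Algebra (VV L O) L' := ((algebraMap L L').comp (VV L O).subtype).toAlgebra
    have : IsScalarTower (VV L O) L L' := IsScalarTower.of_algebraMap_eq (fun _ => rfl)
    have hz' : (z : L') ≠ 0 := fun h => hz (Subtype.ext h)
    have h1 : IsAlgebraic (VV L O) (z : L') :=
      (IsFractionRing.isAlgebraic_iff (VV L O) L L').mpr (halg z)
    obtain ⟨q, hq0, hq⟩ := h1.exists_nonzero_coeff_and_aeval_eq_zero
      (mem_nonZeroDivisors_of_ne_zero hz')
    have h2 : eval₂ (jO L O) z q = 0 := by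
      apply Subtype.ext
      have := hom_eval₂ q (jO L O) O.subtype z
      rw [show ((eval₂ (jO L O) z q : O) : L') = O.subtype (eval₂ (jO L O) z q) from rfl, this]
      exact hq
    rw [← divX_mul_X_add q, eval₂_add, eval₂_mul, eval₂_X, eval₂_C] at h2
    have h3 : ((jO L O (q.coeff 0) : O) : L') = -((eval₂ (jO L O) z q.divX : O) : L') * z := by
      have := congrArg (fun t : O => (t : L')) h2
      push_cast at this
      linear_combination this
    have hc0 : ((q.coeff 0 : VV L O) : L) ≠ 0 := fun h => hq0 (Subtype.ext h)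
    obtain ⟨N, hN⟩ := G2 hπ0 hπ1 hgen _ hc0
    refine ⟨d * N, ?_⟩
    rw [pow_mul, hwsd]
    refine hN.trans ?_
    rw [← coe_jO, h3, map_mul, Valuation.map_neg]
    exact mul_le_of_le_one_left zero_le (hle _)
  -- all values are powers of `w s`
  have claim : ∀ N : ℕ, ∀ F, O.valuation s ^ N ≤ O.valuation (Φ F : L') →
      ∃ n : ℕ, O.valuation (Φ F : L') = O.valuation s ^ n := by
    intro N
    induction N with
    | zero =>
      intro F hF
      rw [pow_zero] at hF
      exact ⟨0, by rw [pow_zero]; exact le_antisymm (hle _) hF⟩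
    | succ N ih =>
      intro F hF
      rcases (hle (Φ F)).lt_or_eq with h | h
      · obtain ⟨G, hG⟩ := step F h
        rw [hG, pow_succ', mul_le_mul_iff_right₀ hws0] at hF
        obtain ⟨n, hn⟩ := ih G hF
        exact ⟨n + 1, by rw [hG, hn, pow_succ']⟩
      · exact ⟨0, by rw [pow_zero]; exact h⟩
  have claim' : ∀ F, Φ F ≠ 0 → ∃ n : ℕ, O.valuation (Φ F : L') = O.valuation s ^ n := by
    intro F hF
    obtain ⟨N, hN⟩ := LB _ hF
    exact claim N F hN
  -- `L'` is the fraction field of the image of `Φ`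
  have frac : ∀ y : L', ∃ F₁ F₂, Φ F₂ ≠ 0 ∧ y * (Φ F₂ : L') = (Φ F₁ : L') := by
    intro y
    have hy : y ∈ IntermediateField.adjoin L {s} := by rw [hadj]; trivial
    induction hy using IntermediateField.adjoin_induction with
    | mem x hx =>
      rw [Set.mem_singleton_iff] at hx
      refine ⟨X, 1, by rw [map_one]; exact one_ne_zero, ?_⟩
      rw [map_one, hΦ, Phi_X, hsO, hx]
      simp
    | algebraMap ℓ =>
      rcases (VV L O).mem_or_inv_mem ℓ with h | h
      · refine ⟨C (C ⟨ℓ, h⟩), 1, by rw [map_one]; exact one_ne_zero, ?_⟩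
        rw [map_one, hΦ, Phi_CC, coe_jO]
        simp
      · by_cases hℓ : ℓ = 0
        · refine ⟨0, 1, by rw [map_one]; exact one_ne_zero, ?_⟩
          rw [hℓ]
          simp
        · refine ⟨1, C (C ⟨ℓ⁻¹, h⟩), ?_, ?_⟩
          · rw [hΦ, Phi_CC]
            intro h0
            have := congrArg (fun t : O => (t : L')) h0
            simp only [coe_jO] at this
            simp [hℓ] at this
          · rw [map_one, hΦ, Phi_CC, coe_jO]
            simp [hℓ]
    | add x y _ _ hx hy =>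
      obtain ⟨A₁, A₂, a0, ea⟩ := hx
      obtain ⟨B₁, B₂, b0, eb⟩ := hy
      refine ⟨A₁ * B₂ + B₁ * A₂, A₂ * B₂, by rw [map_mul]; exact mul_ne_zero a0 b0, ?_⟩
      rw [map_mul, map_add, map_mul, map_mul]
      push_cast
      linear_combination (Φ B₂ : L') * ea + (Φ A₂ : L') * eb
    | inv x _ hx =>
      obtain ⟨A₁, A₂, a0, ea⟩ := hx
      by_cases h1 : Φ A₁ = 0
      · have hx0 : x = 0 := by
          rw [h1] at ea
          have a0' : (Φ A₂ : L') ≠ 0 := fun h => a0 (Subtype.ext h)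
          rcases mul_eq_zero.mp ea with h | h
          · exact h
          · exact absurd h a0'
        refine ⟨0, 1, by rw [map_one]; exact one_ne_zero, ?_⟩
        rw [hx0]
        simp
      · refine ⟨A₂, A₁, h1, ?_⟩
        have hx0 : x ≠ 0 := by
          rintro rfl
          rw [zero_mul] at ea
          exact h1 (Subtype.ext ea.symm)
        rw [← ea]
        field_simp
    | mul x y _ _ hx hy =>
      obtain ⟨A₁, A₂, a0, ea⟩ := hx
      obtain ⟨B₁, B₂, b0, eb⟩ := hy
      refine ⟨A₁ * B₁, A₂ * B₂, by rw [map_mul]; exact mul_ne_zero a0 b0, ?_⟩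
      rw [map_mul, map_mul]
      push_cast
      rw [← ea, ← eb]
      ring
  -- conclusion
  intro y hy
  by_cases hy0 : y = 0
  · rw [hy0, map_zero]
    exact zero_le
  obtain ⟨F₁, F₂, h2, e⟩ := frac y
  have h2' : (Φ F₂ : L') ≠ 0 := fun h => h2 (Subtype.ext h)
  have h1 : Φ F₁ ≠ 0 := by
    intro h
    rw [h] at e
    exact (mul_ne_zero hy0 h2') e
  obtain ⟨n₁, e₁⟩ := claim' F₁ h1
  obtain ⟨n₂, e₂⟩ := claim' F₂ h2
  have e' := congrArg O.valuation e
  rw [map_mul, e₁, e₂] at e'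
  have hpos : 0 < O.valuation s ^ n₂ := pow_pos hws0 n₂
  have hlt : O.valuation s ^ n₁ < O.valuation s ^ n₂ := by
    rw [← e']
    exact mul_lt_of_lt_one_left hpos hy
  have hn : n₂ < n₁ := (pow_lt_pow_iff_right_of_lt_one₀ hws0 hws1).mp hlt
  have h3 : O.valuation s ^ n₁ ≤ O.valuation s ^ (n₂ + 1) :=
    pow_le_pow_of_le_one zero_le hws1.le hn
  rw [← e', pow_succ', mul_le_mul_iff_left₀ hpos] at h3
  exact h3

end AbhField

theorem stmt_abhField (hP : Stmt_abhPoly) : Stmt_abhField := AbhField.main hP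

end Fermat.Agent.KL
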