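import Fermat.Agent.KL.Interface2

/-!
# KL-K6 (Abhyankar's lemma): sub-interface (sub-lead helper2)

Route (valuation theoretic, no Dedekind domains, no explicit DVRs):
* `Stmt_abhLoc`: the local ring `B'_{𝔓'}` is the intersection of the valuation rings of `L'`
  dominating it (Mathlib: `LocalSubring.exists_le_valuationSubring_of_isIntegrallyClosedIn`).
* `Stmt_abhVal`: in `B`, every nonzero element is `unit * π ^ n` locally at `𝔓`.
* `Stmt_abhField`: for every valuation ring `O` of `L' = L(s)`, `s ^ (k d) = u π ^ k`, whose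
  restriction to `L` has value group generated by the value of `π`, residue characteristic `0`,
  the maximal ideal of `O` is generated by `s`.
-/

set_option autoImplicit false

namespace Fermat.Agent.KL

open Polynomial

/-- K6-LOC -/
def Stmt_abhLoc : Prop :=
  ∀ (B B' L' : Type) [CommRing B] [Field L'] [Algebra B L'] [CommRing B'] [Algebra B B']
    [Algebra B' L'] [IsScalarTower B B' L'] [IsIntegralClosure B' B L'] (𝔓' : Ideal B')
    [𝔓'.IsPrime] (x : L'),
    (∀ O : ValuationSubring L', (∀ b : B', algebraMap B' L' b ∈ O) →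
      (∀ b : B', b ∈ 𝔓' ↔ algebraMap B' L' b ∈ O.nonunits) → x ∈ O) →
    ∃ t c : B', t ∉ 𝔓' ∧ algebraMap B' L' t * x = algebraMap B' L' c

/-- K6-VAL -/
def Stmt_abhVal : Prop :=
  ∀ (B : Type) [CommRing B] [IsDomain B] (𝔓 : Ideal B) [𝔓.IsPrime] (π : B),
    IsDiscreteValuationRing (Localization.AtPrime 𝔓) → LocGen π 𝔓 →
    π ≠ 0 ∧ ∀ x : B, x ≠ 0 → ∃ (n : ℕ) (a t : B), a ∉ 𝔓 ∧ t ∉ 𝔓 ∧ t * x = a * π ^ n

/-- K6-POLY: `κ[X] / (f)` is von Neumann regular for squarefree `f`. -/
def Stmt_abhPoly : Prop :=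
  ∀ (κ : Type) [Field κ] (f q : κ[X]), Squarefree f → ∃ t h : κ[X], q * (1 - q * t) = f * h

/-- K6-FIELD -/
def Stmt_abhField : Prop :=
  ∀ (L L' : Type) [Field L] [Field L'] [Algebra L L'] (O : ValuationSubring L') (π u : L) (s : L')
    (k d : ℕ), 0 < k → 0 < d → π ≠ 0 → O.valuation (algebraMap L L' π) < 1 →
    (∀ ℓ : L, ℓ ≠ 0 →
      ∃ n : ℤ, O.valuation (algebraMap L L' ℓ) = O.valuation (algebraMap L L' π) ^ n) →
    (∀ n : ℕ, n ≠ 0 → O.valuation (n : L') = 1) →
    O.valuation (algebraMap L L' u) = 1 →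
    s ^ (k * d) = algebraMap L L' (u * π ^ k) →
    IntermediateField.adjoin L {s} = ⊤ →
    ∀ y : L', O.valuation y < 1 → O.valuation y ≤ O.valuation s

end Fermat.Agent.KL
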