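/-
K6-LOC (helper65): `B'_{𝔓'}` is the intersection of the valuation rings of `L'` dominating it.
-/
import Fermat.Agent.KL.AbhInterface

set_option autoImplicit false

namespace Fermat.Agent.KL

namespace AbhLoc

open IsLocalRing

theorem main {B' L' : Type} [CommRing B'] [Field L'] [Algebra B' L']
    (hinj : Function.Injective (algebraMap B' L'))
    (hcl : ∀ y : L', IsIntegral B' y → y ∈ (algebraMap B' L').range)
    (𝔓' : Ideal B') [𝔓'.IsPrime] (x : L')
    (hx : ∀ O : ValuationSubring L', (∀ b : B', algebraMap B' L' b ∈ O) →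
      (∀ b : B', b ∈ 𝔓' ↔ algebraMap B' L' b ∈ O.nonunits) → x ∈ O) :
    ∃ t c : B', t ∉ 𝔓' ∧ algebraMap B' L' t * x = algebraMap B' L' c := by
  set g := algebraMap B' L' with hg
  let A : Subring L' := g.range
  let φ : B' ≃+* A := RingEquiv.ofBijective g.rangeRestrict
    ⟨fun a b h => hinj (congrArg Subtype.val h), g.rangeRestrict_surjective⟩
  have hφ : ∀ b, ((φ b : A) : L') = g b := fun b => rfl
  have hφs : ∀ a : A, g (φ.symm a) = (a : L') := fun a => by
    rw [← hφ, RingEquiv.apply_symm_apply]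
  let P : Ideal A := 𝔓'.comap (φ.symm : A →+* B')
  have hP : P.IsPrime := Ideal.comap_isPrime _ _
  have hmemP : ∀ b, φ b ∈ P ↔ b ∈ 𝔓' := by
    intro b
    show φ.symm (φ b) ∈ 𝔓' ↔ _
    rw [RingEquiv.symm_apply_apply]
  -- (1) `A` is integrally closed in `L'`
  have hA : ∀ y : L', IsIntegral A y → y ∈ A := by
    intro y hy
    have h1 : IsIntegral B' ((RingHom.id L') y) :=
      IsIntegral.map_of_comp_eq (φ.symm : A →+* B') (RingHom.id L')
        (by ext a; exact hφs a) hy
    exact hcl y h1
  -- (2) the localisation is integrally closed in `L'`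
  let W := LocalSubring.ofPrime A P
  have hAW : A ≤ W.toSubring := LocalSubring.le_ofPrime A P
  have hW : IsIntegrallyClosedIn W.toSubring L' := by
    rw [Subring.isIntegrallyClosedIn_iff]
    intro y hy
    obtain ⟨m, hm⟩ := IsIntegral.exists_multiple_integral_of_isLocalization P.primeCompl y hy
    have h1 : m • y ∈ A := hA _ hm
    obtain ⟨u, hu⟩ : IsUnit (algebraMap A W.toSubring m) := IsLocalization.map_units _ m
    have hu' : ((u : W.toSubring) : L') = ((m : A) : L') := by rw [hu]; rfl
    have h2 : ((u : W.toSubring) : L') * (((u⁻¹ : (W.toSubring)ˣ) : W.toSubring) : L') = 1 :=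
      congrArg Subtype.val u.mul_inv
    have h3 : y = (((u⁻¹ : (W.toSubring)ˣ) : W.toSubring) : L') * (m • y) := by
      have h4 : m • y = ((m : A) : L') * y := rfl
      rw [h4, ← hu', ← mul_assoc, mul_comm _ ((u : W.toSubring) : L'), h2, one_mul]
    rw [h3]
    exact W.toSubring.mul_mem (Subtype.property _) (hAW h1)
  -- (3) `x` lies in the localisation
  have hxW : x ∈ W.toSubring := by
    by_contra hcon
    obtain ⟨O, ⟨hle, hloc⟩, hxO⟩ :=
      LocalSubring.exists_le_valuationSubring_of_isIntegrallyClosedIn hcon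
    apply hxO
    refine hx O (fun b => hle (hAW (φ b).2)) fun b => ?_
    have e1 : b ∈ 𝔓' ↔ algebraMap A W.toSubring (φ b) ∈ maximalIdeal W.toSubring := by
      rw [IsLocalization.AtPrime.to_map_mem_maximal_iff W.toSubring P (φ b), hmemP]
    rw [e1, mem_maximalIdeal, mem_nonunits_iff]
    have e2 : g b = ((Subring.inclusion hle (algebraMap A W.toSubring (φ b)) : O.toSubring) : L') :=
      rfl
    have e3 : (g b ∈ O.nonunits) ↔
        ¬ IsUnit (Subring.inclusion hle (algebraMap A W.toSubring (φ b))) := by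
      rw [e2]
      exact (ValuationSubring.coe_mem_nonunits_iff (A := O)).trans Iff.rfl
    rw [e3, not_iff_not]
    exact ⟨fun h => h.map _, fun h => hloc.map_nonunit _ h⟩
  -- (4) conclusion
  obtain ⟨⟨a, t⟩, hat⟩ := IsLocalization.surj P.primeCompl (⟨x, hxW⟩ : W.toSubring)
  refine ⟨φ.symm t, φ.symm a, t.2, ?_⟩
  rw [hφs, hφs, mul_comm]
  exact congrArg Subtype.val hat

end AbhLoc

theorem stmt_abhLoc : Stmt_abhLoc := by
  intro B B' L' _ _ _ _ _ _ _ _ 𝔓' _ x hx
  refine AbhLoc.main (IsIntegralClosure.algebraMap_injective B' B L') (fun y hy => ?_) 𝔓' x hx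
  have : Algebra.IsIntegral B B' := IsIntegralClosure.isIntegral_algebra B L'
  have h1 : IsIntegral B y := isIntegral_trans y hy
  exact (IsIntegralClosure.isIntegral_iff (A := B')).mp h1

end Fermat.Agent.KL
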