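import Fermat.Agent.KL.AbhInterface

/-! # KL-K6 : `Stmt_abhVal` and `Stmt_abhPoly` -/

set_option autoImplicit false

namespace Fermat.Agent.KL

open Polynomial

namespace AbhVal

theorem maximalIdeal_eq {B : Type} [CommRing B] [IsDomain B] (𝔓 : Ideal B) [𝔓.IsPrime] (π : B)
    (h : LocGen π 𝔓) :
    IsLocalRing.maximalIdeal (Localization.AtPrime 𝔓) =
      Ideal.span {algebraMap B (Localization.AtPrime 𝔓) π} := by
  rw [← IsLocalization.AtPrime.map_eq_maximalIdeal 𝔓 (Localization.AtPrime 𝔓)]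
  apply le_antisymm
  · rw [Ideal.map_le_iff_le_comap]
    intro y hy
    obtain ⟨b, hb, c, hc⟩ := h.2 y hy
    rw [Ideal.mem_comap, Ideal.mem_span_singleton]
    have hu : IsUnit (algebraMap B (Localization.AtPrime 𝔓) b) :=
      IsLocalization.map_units (Localization.AtPrime 𝔓) (⟨b, hb⟩ : 𝔓.primeCompl)
    have h1 : algebraMap B (Localization.AtPrime 𝔓) b * algebraMap B (Localization.AtPrime 𝔓) y =
        algebraMap B (Localization.AtPrime 𝔓) π * algebraMap B (Localization.AtPrime 𝔓) c := by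
      rw [← map_mul, ← map_mul, hc]
    exact (hu.dvd_mul_left).1 ⟨_, h1⟩
  · rw [Ideal.span_singleton_le_iff_mem]
    exact Ideal.mem_map_of_mem _ h.1

end AbhVal

theorem stmt_abhVal : Stmt_abhVal := by
  intro B _ _ 𝔓 _ π hDVR hgen
  set D := Localization.AtPrime 𝔓 with hD
  set ϖ : D := algebraMap B D π with hϖ
  have hmax : IsLocalRing.maximalIdeal D = Ideal.span {ϖ} := AbhVal.maximalIdeal_eq 𝔓 π hgen
  have hirr : Irreducible ϖ := (IsDiscreteValuationRing.irreducible_iff_uniformizer ϖ).2 hmax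
  have hinj : Function.Injective (algebraMap B D) :=
    IsLocalization.injective D (Ideal.primeCompl_le_nonZeroDivisors 𝔓)
  refine ⟨fun h0 => hirr.ne_zero (by rw [hϖ, h0, map_zero]), fun x hx => ?_⟩
  have hx' : algebraMap B D x ≠ 0 := by
    rw [Ne, map_eq_zero_iff _ hinj]; exact hx
  obtain ⟨n, u, hu⟩ := IsDiscreteValuationRing.eq_unit_mul_pow_irreducible hx' hirr
  obtain ⟨a, t, hat⟩ := IsLocalization.exists_mk'_eq 𝔓.primeCompl (u : D)
  have ha : a ∉ 𝔓 := by
    have h1 : IsUnit (IsLocalization.mk' D a t) := by rw [hat]; exact u.isUnit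
    have h2 := (IsLocalization.AtPrime.isUnit_mk'_iff D 𝔓 a t).1 h1
    exact h2
  refine ⟨n, a, t, ha, t.2, ?_⟩
  apply hinj
  rw [map_mul, map_mul, map_pow, hu, ← hat, ← mul_assoc, IsLocalization.mk'_spec']

theorem stmt_abhPoly : Stmt_abhPoly := by
  intro κ _ f q hf
  classical
  have hf0 : f ≠ 0 := hf.ne_zero
  set δ := EuclideanDomain.gcd q f with hδ
  obtain ⟨q₁, hq₁⟩ : δ ∣ q := EuclideanDomain.gcd_dvd_left q f
  obtain ⟨ν, hν⟩ : δ ∣ f := EuclideanDomain.gcd_dvd_right q f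
  have hδ0 : δ ≠ 0 := by
    intro h
    rw [h, zero_mul] at hν
    exact hf0 hν
  have hcop1 : IsCoprime q₁ ν := by
    have h := EuclideanDomain.gcd_eq_gcd_ab q f
    rw [← hδ] at h
    refine ⟨EuclideanDomain.gcdA q f, EuclideanDomain.gcdB q f, ?_⟩
    apply mul_left_cancel₀ hδ0
    calc δ * (EuclideanDomain.gcdA q f * q₁ + EuclideanDomain.gcdB q f * ν)
        = (δ * q₁) * EuclideanDomain.gcdA q f + (δ * ν) * EuclideanDomain.gcdB q f := by ring
      _ = δ * 1 := by rw [← hq₁, ← hν, mul_one]; exact h.symm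
  have hcop2 : IsCoprime δ ν := by
    have h := hf
    rw [hν, squarefree_mul_iff] at h
    exact h.1.isCoprime
  have hcop : IsCoprime q ν := by
    rw [hq₁]
    exact hcop2.mul_left hcop1
  obtain ⟨a, b, hab⟩ := hcop
  refine ⟨a, q₁ * b, ?_⟩
  have h1 : 1 - q * a = b * ν := by rw [← hab]; ring
  rw [h1]
  calc q * (b * ν) = (δ * q₁) * (b * ν) := by rw [← hq₁]
    _ = (δ * ν) * (q₁ * b) := by ring
    _ = f * (q₁ * b) := by rw [← hν]

end Fermat.Agent.KL
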