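import Fermat.Agent.KL.AbhField
import Fermat.Agent.KL.AbhLoc
import Fermat.Agent.KL.AbhVal

/-!
# KL-K6: Abhyankar's lemma at a prime of residue characteristic 0 (assembly, helper2)
-/

set_option autoImplicit false

namespace Fermat.Agent.KL

namespace K6

theorem main (hLoc : Stmt_abhLoc) (hVal : Stmt_abhVal) (hField : Stmt_abhField) :
    Stmt_abhyankar := by
  intro B L B' L' _ _ _ _ _ _ _ _ _ _ _ _ _ _ e τ s he hse hadj 𝔓' _ 𝔓 _ h𝔓 hDVR hchar hτ hT
  obtain ⟨π, k, a, b, hπ, hke, ha, hb, hab⟩ := hT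
  obtain ⟨hπ0, hfac⟩ := hVal B 𝔓 π hDVR hπ
  obtain ⟨d, rfl⟩ := hke
  have hk : 0 < k := Nat.pos_of_mul_pos_right he
  have hd : 0 < d := Nat.pos_of_mul_pos_left he
  have hmem : ∀ x : B, x ∈ 𝔓 ↔ algebraMap B B' x ∈ 𝔓' := by
    intro x
    rw [h𝔓, Ideal.mem_comap]
  have hs𝔓 : s ∈ 𝔓' := by
    apply Ideal.IsPrime.mem_of_pow_mem inferInstance (k * d)
    rw [hse]
    exact (hmem τ).mp hτ
  have hinjB : Function.Injective (algebraMap B L) := IsFractionRing.injective B L
  have hinj' : Function.Injective (algebraMap B' L') := IsIntegralClosure.algebraMap_injective B' B L'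
  have hτ0 : τ ≠ 0 := by
    rintro rfl
    rw [mul_zero] at hab
    have hb0 : b ≠ 0 := fun h => hb (h ▸ 𝔓.zero_mem)
    exact (mul_ne_zero hb0 (pow_ne_zero k hπ0)) hab.symm
  have hBL' : ∀ x : B, algebraMap B' L' (algebraMap B B' x) = algebraMap L L' (algebraMap B L x) := by
    intro x
    rw [← IsScalarTower.algebraMap_apply B B' L', ← IsScalarTower.algebraMap_apply B L L']
  have hs0 : algebraMap B' L' s ≠ 0 := by
    intro h
    have h1 : algebraMap B' L' (s ^ (k * d)) = 0 := by rw [map_pow, h, zero_pow he.ne']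
    rw [hse, hBL'] at h1
    have h2 : algebraMap B L τ = 0 := (algebraMap L L').injective (h1.trans (map_zero _).symm)
    exact hτ0 (hinjB (h2.trans (map_zero _).symm))
  refine ⟨hs𝔓, fun y hy => ?_⟩
  suffices H : ∀ O : ValuationSubring L', (∀ b : B', algebraMap B' L' b ∈ O) →
      (∀ b : B', b ∈ 𝔓' ↔ algebraMap B' L' b ∈ O.nonunits) →
      algebraMap B' L' y / algebraMap B' L' s ∈ O by
    obtain ⟨t, c, ht, hc⟩ := hLoc B B' L' 𝔓' (algebraMap B' L' y / algebraMap B' L' s) H
    refine ⟨t, ht, c, ?_⟩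
    apply hinj'
    rw [map_mul, map_mul, ← hc]
    field_simp
  intro O hO1 hO2
  -- values of elements of `B`
  have hlt : ∀ x : B, x ∈ 𝔓 → O.valuation (algebraMap L L' (algebraMap B L x)) < 1 := by
    intro x hx
    rw [← hBL']
    exact (ValuationSubring.mem_nonunits_iff O).mp ((hO2 _).mp ((hmem x).mp hx))
  have hone : ∀ x : B, x ∉ 𝔓 → O.valuation (algebraMap L L' (algebraMap B L x)) = 1 := by
    intro x hx
    rw [← hBL']
    refine le_antisymm ((O.valuation_le_one_iff _).mpr (hO1 _)) ?_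
    rw [← not_lt]
    intro h
    exact hx ((hmem x).mpr ((hO2 _).mpr ((ValuationSubring.mem_nonunits_iff O).mpr h)))
  have hvalB : ∀ x : B, x ≠ 0 → ∃ n : ℕ, O.valuation (algebraMap L L' (algebraMap B L x))
      = O.valuation (algebraMap L L' (algebraMap B L π)) ^ n := by
    intro x hx
    obtain ⟨n, a', t', ha', ht', e'⟩ := hfac x hx
    refine ⟨n, ?_⟩
    have := congrArg (fun z => O.valuation (algebraMap L L' (algebraMap B L z))) e'
    simp only [map_mul, map_pow] at this
    rw [hone a' ha', hone t' ht', one_mul, one_mul] at this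
    exact this
  have hπL0 : algebraMap B L π ≠ 0 := fun h => hπ0 (hinjB (h.trans (map_zero _).symm))
  have hwπ0 : O.valuation (algebraMap L L' (algebraMap B L π)) ≠ 0 := by
    rw [Valuation.ne_zero_iff]
    exact (map_ne_zero _).mpr hπL0
  have ha0 : algebraMap B L a ≠ 0 := by
    intro h
    exact ha ((hinjB (h.trans (map_zero _).symm)) ▸ 𝔓.zero_mem)
  rw [← O.valuation_le_one_iff, map_div₀]
  refine div_le_one_of_le₀ ?_ zero_le
  refine hField L L' O (algebraMap B L π) (algebraMap B L b / algebraMap B L a)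
    (algebraMap B' L' s) k d hk hd hπL0 (hlt π hπ.1) ?_ ?_ ?_ ?_ hadj _ ?_
  · intro ℓ hℓ
    obtain ⟨x₁, x₂, hx₂, rfl⟩ := IsFractionRing.div_surjective (A := B) ℓ
    have hx₂0 : x₂ ≠ 0 := nonZeroDivisors.ne_zero hx₂
    have hx₁0 : x₁ ≠ 0 := by
      rintro rfl
      simp at hℓ
    obtain ⟨n₁, e₁⟩ := hvalB x₁ hx₁0
    obtain ⟨n₂, e₂⟩ := hvalB x₂ hx₂0
    refine ⟨(n₁ : ℤ) - n₂, ?_⟩
    rw [map_div₀, map_div₀, e₁, e₂, zpow_sub₀ hwπ0, zpow_natCast, zpow_natCast]
  · intro n hn
    have := hone (n : B) (hchar n hn)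
    simpa using this
  · rw [map_div₀, map_div₀, hone a ha, hone b hb, div_one]
  · rw [← map_pow, hse, hBL']
    congr 1
    have := congrArg (algebraMap B L) hab
    rw [map_mul, map_mul, map_pow] at this
    field_simp
    linear_combination this
  · exact (ValuationSubring.mem_nonunits_iff O).mp ((hO2 y).mp hy)

end K6

theorem stmt_abhyankar : Stmt_abhyankar :=
  K6.main stmt_abhLoc stmt_abhVal (stmt_abhField stmt_abhPoly)

end Fermat.Agent.KL
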