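import Fermat.Agent.KL.Interface2

/-! # KL-CP: the chart point theorem (localise + purity).  (helper72) -/

set_option autoImplicit false

namespace Fermat.Agent.KL
namespace CP

open IsLocalRing

theorem prime_map {P R : Type*} [CommRing P] [IsDomain P] [CommRing R] [Algebra P R]
    (M : Submonoid P) [IsLocalization M R] (hM : M ≤ nonZeroDivisors P) (p : P) (hp : Prime p)
    (hd : Disjoint (M : Set P) (Ideal.span {p} : Ideal P)) : Prime (algebraMap P R p) := by
  have h1 : (Ideal.span {p} : Ideal P).IsPrime := (Ideal.span_singleton_prime hp.ne_zero).2 hp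
  have h2 := IsLocalization.isPrime_of_isPrime_disjoint M R _ h1 hd
  rw [Ideal.map_span, Set.image_singleton] at h2
  have h3 : algebraMap P R p ≠ 0 := by
    intro h
    exact hp.ne_zero ((IsLocalization.to_map_eq_zero_iff R hM).1 h)
  exact (Ideal.span_singleton_prime h3).1 h2

theorem ufd {P R : Type*} [CommRing P] [IsDomain P] [UniqueFactorizationMonoid P] [CommRing R]
    [IsDomain R] [Algebra P R] (M : Submonoid P) [IsLocalization M R]
    (hM : M ≤ nonZeroDivisors P) : UniqueFactorizationMonoid R := by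
  apply UniqueFactorizationMonoid.iff_exists_prime_mem_of_isPrime.2
  intro I hI hIp
  have hJp : (I.under P).IsPrime := Ideal.comap_isPrime _ _
  have hJ0 : I.under P ≠ ⊥ := by
    intro h
    apply hI
    rw [← IsLocalization.map_under M R I, h, Ideal.map_bot]
  obtain ⟨p, hpJ, hp⟩ := hJp.exists_mem_prime_of_ne_bot hJ0
  refine ⟨algebraMap P R p, hpJ, prime_map M hM p hp ?_⟩
  have hd : Disjoint (M : Set P) (I.under P : Ideal P) :=
    ((IsLocalization.isPrime_iff_isPrime_disjoint M R I).1 hIp).2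
  exact hd.mono_right (by
    intro z hz
    exact (Ideal.span_singleton_le_iff_mem _).2 hpJ hz)

/-- a maximal ideal disjoint from the submonoid stays maximal in the localisation -/
theorem isMaximal_map {B B' : Type*} [CommRing B] [CommRing B'] [Algebra B B'] (S : Submonoid B)
    [IsLocalization S B'] (𝔫 : Ideal B) (h𝔫 : 𝔫.IsMaximal) (hd : Disjoint (S : Set B) (𝔫 : Set B)) :
    (𝔫.map (algebraMap B B')).IsMaximal := by
  have hp := IsLocalization.isPrime_of_isPrime_disjoint S B' 𝔫 h𝔫.isPrime hd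
  obtain ⟨J, hJ, hle⟩ := Ideal.exists_le_maximal _ hp.ne_top
  have h1 : 𝔫 ≤ J.under B := by
    rw [← IsLocalization.under_map_of_isPrime_disjoint S B' h𝔫.isPrime hd]
    exact Ideal.comap_mono hle
  have h2 : J.under B ≠ ⊤ := (Ideal.comap_isPrime (algebraMap B B') J).ne_top
  have h3 : 𝔫 = J.under B := h𝔫.eq_of_le h2 h1
  rw [h3, IsLocalization.map_under S B' J]
  exact hJ

/-- `FinOverR` passes to a bigger base ring -/
theorem finOverR_tower {P R F : Type} [CommRing P] [CommRing R] [Field F] [Algebra P R]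
    [Algebra P F] [Algebra R F] [IsScalarTower P R F] [FaithfulSMul P F] (h : FinOverR P F) :
    FinOverR R F := by
  obtain ⟨s, hs⟩ := h
  refine ⟨s, fun y => ?_⟩
  obtain ⟨d, hd, hdy⟩ := hs y
  refine ⟨algebraMap P R d, ?_, ?_⟩
  · intro h0
    apply hd
    apply FaithfulSMul.algebraMap_injective P F
    rw [IsScalarTower.algebraMap_apply P R F, h0, map_zero, map_zero]
  · rw [algebraMap_smul]
    exact Submodule.span_le_restrictScalars P R (s : Set F) hdy

/-- integral closure commutes with localisation (for abstract `IsIntegralClosure`) -/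
theorem isIntegralClosure_loc {P F B R B' : Type*} [CommRing P] [Field F] [Algebra P F]
    [CommRing B] [Algebra P B] [Algebra B F] [IsScalarTower P B F] [IsIntegralClosure B P F]
    [CommRing R] [CommRing B'] [Algebra P R] [Algebra B B']
    [Algebra R F] [Algebra B' F] [IsScalarTower B B' F]
    [IsScalarTower P R F] (M : Submonoid P) [IsLocalization M R]
    [IsLocalization (Algebra.algebraMapSubmonoid B M) B']
    (hinj : Function.Injective (algebraMap B' F)) : IsIntegralClosure B' R F := by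
  have hunit : ∀ m : M, algebraMap P F m ≠ 0 := by
    intro m
    rw [IsScalarTower.algebraMap_apply P R F]
    exact ((IsLocalization.map_units R m).map (algebraMap R F)).ne_zero
  refine ⟨hinj, fun {x} => ⟨fun hx => ?_, ?_⟩⟩
  · obtain ⟨m, hm⟩ := IsIntegral.exists_multiple_integral_of_isLocalization M x hx
    obtain ⟨b, hb⟩ := (IsIntegralClosure.isIntegral_iff (A := B)).1 hm
    refine ⟨IsLocalization.mk' B' b
      (⟨algebraMap P B m, m, m.2, rfl⟩ : Algebra.algebraMapSubmonoid B M), ?_⟩
    have h1 := IsLocalization.mk'_spec B' b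
      (⟨algebraMap P B m, m, m.2, rfl⟩ : Algebra.algebraMapSubmonoid B M)
    have h2 := congrArg (algebraMap B' F) h1
    rw [map_mul, ← IsScalarTower.algebraMap_apply B B' F, ← IsScalarTower.algebraMap_apply B B' F,
      hb, ← IsScalarTower.algebraMap_apply P B F, Submonoid.smul_def, Algebra.smul_def,
      mul_comm] at h2
    exact mul_left_cancel₀ (hunit m) h2
  · rintro ⟨y, rfl⟩
    obtain ⟨b, ⟨_, m, hm, rfl⟩, rfl⟩ :=
      IsLocalization.exists_mk'_eq (Algebra.algebraMapSubmonoid B M) y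
    have h1 := IsLocalization.mk'_spec B' b
      (⟨algebraMap P B m, m, hm, rfl⟩ : Algebra.algebraMapSubmonoid B M)
    have h2 := congrArg (algebraMap B' F) h1
    rw [map_mul, ← IsScalarTower.algebraMap_apply B B' F, ← IsScalarTower.algebraMap_apply B B' F,
      ← IsScalarTower.algebraMap_apply P B F, IsScalarTower.algebraMap_apply P R F] at h2
    obtain ⟨u, hu⟩ := IsLocalization.map_units R (⟨m, hm⟩ : M)
    have h3 : algebraMap B' F (IsLocalization.mk' B' b
        (⟨algebraMap P B m, m, hm, rfl⟩ : Algebra.algebraMapSubmonoid B M)) =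
        algebraMap B F b * algebraMap R F ((u⁻¹ : Rˣ) : R) := by
      rw [← h2, mul_assoc, ← map_mul]
      have : algebraMap P R m * ((u⁻¹ : Rˣ) : R) = 1 := by
        have hu' : (u : R) = algebraMap P R m := hu
        rw [← hu', Units.mul_inv]
      rw [this, map_one, mul_one]
    rw [h3]
    have hb : IsIntegral P (algebraMap B F b) := (IsIntegralClosure.isIntegral_iff (A := B)).2 ⟨b, rfl⟩
    exact IsIntegral.mul hb.tower_top isIntegral_algebraMap

/-- the chart point theorem, with the localisations given abstractly -/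
theorem core (h1 : Stmt_purity) (h2 : Stmt_unramLocalization) (h3 : Stmt_locPrimeLocalization)
    (h4 : Stmt_htOneLocalization) (h7 : Stmt_finOver)
    (P F B R B' K : Type) [CommRing P] [IsDomain P] [IsNoetherianRing P]
    [UniqueFactorizationMonoid P] [Field F] [CharZero F] [Algebra P F] [FaithfulSMul P F]
    [CommRing B] [IsDomain B] [Algebra P B] [Algebra B F] [IsScalarTower P B F]
    [IsIntegralClosure B P F]
    [CommRing R] [CommRing B'] [Algebra P R] [Algebra R B'] [Algebra B B'] [Algebra P B']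
    [IsScalarTower P R B'] [IsScalarTower P B B']
    [Algebra R F] [Algebra B' F] [IsScalarTower R B' F] [IsScalarTower B B' F]
    [IsScalarTower P R F]
    [Field K] [Algebra R K] [IsFractionRing R K] [Algebra K F] [IsScalarTower R K F]
    (𝔪 : Ideal P) [h𝔪max : 𝔪.IsMaximal] [IsLocalization.AtPrime R 𝔪]
    [IsLocalization (Algebra.algebraMapSubmonoid B 𝔪.primeCompl) B']
    (hinj : Function.Injective (algebraMap B' F))
    (ϖ g : P) (hϖ : Prime ϖ) (hg : ¬ ϖ ∣ g) (h𝔪 : 𝔪 = Ideal.span {ϖ, g}) (hfin : FinOverR P F)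
    (hunr : ∀ (𝔓 : Ideal B) [𝔓.IsPrime], IsHtOne 𝔓 → 𝔓.under P ≤ 𝔪 →
      Algebra.IsUnramifiedAt P 𝔓)
    (𝔫 : Ideal B) (h𝔫 : 𝔫.IsMaximal) (h𝔫𝔪 : 𝔫.under P = 𝔪) :
    LocPrime (algebraMap P B ϖ) 𝔫 := by
  have hM : 𝔪.primeCompl ≤ nonZeroDivisors P := 𝔪.primeCompl_le_nonZeroDivisors
  have : IsDomain R := IsLocalization.isDomain_of_le_nonZeroDivisors R hM
  have : IsLocalRing R := IsLocalization.AtPrime.isLocalRing R 𝔪
  have : IsNoetherianRing R := IsLocalization.isNoetherianRing 𝔪.primeCompl R inferInstance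
  have : UniqueFactorizationMonoid R := ufd 𝔪.primeCompl hM
  have : CharZero K := (algebraMap K F).charZero
  have : FiniteDimensional K F := (h7 R K F).1 (finOverR_tower hfin)
  have : IsIntegralClosure B' R F := isIntegralClosure_loc (B := B) 𝔪.primeCompl hinj
  have hPB : Function.Injective (algebraMap P B) := by
    have h := FaithfulSMul.algebraMap_injective P F
    rw [IsScalarTower.algebraMap_eq P B F] at h
    exact Function.Injective.of_comp h
  have hS : Algebra.algebraMapSubmonoid B 𝔪.primeCompl ≤ nonZeroDivisors B := by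
    rintro _ ⟨m, hm, rfl⟩
    apply mem_nonZeroDivisors_of_ne_zero
    intro h0
    have : m = 0 := hPB (by rw [h0, map_zero])
    exact hm (this ▸ 𝔪.zero_mem)
  have hϖ𝔪 : ϖ ∈ 𝔪 := by rw [h𝔪]; exact Ideal.subset_span (by simp)
  -- the three hypotheses on `ϖ, g` in `R`
  have hϖR : Prime (algebraMap P R ϖ) := by
    apply prime_map 𝔪.primeCompl hM ϖ hϖ
    rw [Set.disjoint_left]
    intro z hz hz'
    exact hz ((Ideal.span_singleton_le_iff_mem _).2 hϖ𝔪 hz')
  have hgR : ¬ algebraMap P R ϖ ∣ algebraMap P R g := by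
    rintro ⟨z, hz⟩
    obtain ⟨a, s, rfl⟩ := IsLocalization.exists_mk'_eq 𝔪.primeCompl z
    have e : algebraMap P R (g * s) = algebraMap P R (ϖ * a) := by
      rw [map_mul, map_mul, hz, mul_assoc, IsLocalization.mk'_spec]
    have e' := IsLocalization.injective R hM e
    have hdvd : ϖ ∣ g * s := ⟨a, e'⟩
    rcases hϖ.dvd_or_dvd hdvd with h | h
    · exact hg h
    · exact s.2 (𝔪.mem_of_dvd h hϖ𝔪)
  have hmax : maximalIdeal R = Ideal.span {algebraMap P R ϖ, algebraMap P R g} := by
    rw [← IsLocalization.AtPrime.map_eq_maximalIdeal 𝔪 R, h𝔪, Ideal.map_span, Set.image_pair]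
  have hd𝔫 : Disjoint (Algebra.algebraMapSubmonoid B 𝔪.primeCompl : Set B) (𝔫 : Set B) := by
    rw [Set.disjoint_left]
    rintro _ ⟨m, hm, rfl⟩ hmem
    apply hm
    rw [← h𝔫𝔪]
    exact hmem
  have key := h1 R K F B' (algebraMap P R ϖ) (algebraMap P R g) hϖR hgR hmax (by
    intro 𝔔 _ h𝔔
    have hht : IsHtOne (𝔔.under B) :=
      (h4 B B' (Algebra.algebraMapSubmonoid B 𝔪.primeCompl) hS).1 𝔔 h𝔔
    have : (𝔔.under B).IsPrime := hht.1
    have hle : (𝔔.under B).under P ≤ 𝔪 := by
      intro p hp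
      by_contra hpm
      have hdisj := ((IsLocalization.isPrime_iff_isPrime_disjoint
        (Algebra.algebraMapSubmonoid B 𝔪.primeCompl) B' 𝔔).1 inferInstance).2
      exact Set.disjoint_left.1 hdisj ⟨p, hpm, rfl⟩ hp
    exact (h2 P B R B' 𝔪.primeCompl 𝔔 (𝔔.under B) rfl).1 (hunr _ hht hle))
    (𝔫.map (algebraMap B B')) (isMaximal_map _ 𝔫 h𝔫 hd𝔫)
  apply h3 B B' (Algebra.algebraMapSubmonoid B 𝔪.primeCompl) _ 𝔫 h𝔫.isPrime hd𝔫
  rwa [← IsScalarTower.algebraMap_apply P R B', IsScalarTower.algebraMap_apply P B B'] at key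

/-- a ring hom out of a localisation of a domain which is injective on the base is injective -/
theorem injective_of_comp {P R F : Type*} [CommRing P] [CommRing R] [CommRing F] [Algebra P R]
    [Algebra P F] [Algebra R F] [IsScalarTower P R F] (M : Submonoid P) [IsLocalization M R]
    (h : Function.Injective (algebraMap P F)) : Function.Injective (algebraMap R F) := by
  rw [injective_iff_map_eq_zero]
  intro r hr
  obtain ⟨p, m, rfl⟩ := IsLocalization.exists_mk'_eq M r
  have h1 := congrArg (algebraMap R F) (IsLocalization.mk'_spec R p m)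
  rw [map_mul, hr, zero_mul, ← IsScalarTower.algebraMap_apply P R F] at h1
  have h2 : p = 0 := h (by rw [← h1, map_zero])
  rw [h2, IsLocalization.mk'_zero]

/-- `core` with `K := FractionRing R` -/
theorem core2 (h1 : Stmt_purity) (h2 : Stmt_unramLocalization) (h3 : Stmt_locPrimeLocalization)
    (h4 : Stmt_htOneLocalization) (h7 : Stmt_finOver)
    (P F B R B' : Type) [CommRing P] [IsDomain P] [IsNoetherianRing P]
    [UniqueFactorizationMonoid P] [Field F] [CharZero F] [Algebra P F] [FaithfulSMul P F]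
    [CommRing B] [IsDomain B] [Algebra P B] [Algebra B F] [IsScalarTower P B F]
    [IsIntegralClosure B P F]
    [CommRing R] [CommRing B'] [Algebra P R] [Algebra R B'] [Algebra B B'] [Algebra P B']
    [IsScalarTower P R B'] [IsScalarTower P B B']
    [Algebra R F] [Algebra B' F] [IsScalarTower R B' F] [IsScalarTower B B' F]
    [IsScalarTower P R F]
    (𝔪 : Ideal P) [h𝔪max : 𝔪.IsMaximal] [IsLocalization.AtPrime R 𝔪]
    [IsLocalization (Algebra.algebraMapSubmonoid B 𝔪.primeCompl) B']
    (ϖ g : P) (hϖ : Prime ϖ) (hg : ¬ ϖ ∣ g) (h𝔪 : 𝔪 = Ideal.span {ϖ, g}) (hfin : FinOverR P F)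
    (hunr : ∀ (𝔓 : Ideal B) [𝔓.IsPrime], IsHtOne 𝔓 → 𝔓.under P ≤ 𝔪 →
      Algebra.IsUnramifiedAt P 𝔓)
    (𝔫 : Ideal B) (h𝔫 : 𝔫.IsMaximal) (h𝔫𝔪 : 𝔫.under P = 𝔪) :
    LocPrime (algebraMap P B ϖ) 𝔫 := by
  have hBF : Function.Injective (algebraMap B F) := IsIntegralClosure.algebraMap_injective B P F
  have hPF : Function.Injective (algebraMap P F) := FaithfulSMul.algebraMap_injective P F
  have hRF : Function.Injective (algebraMap R F) := injective_of_comp 𝔪.primeCompl hPF
  have hB'F : Function.Injective (algebraMap B' F) :=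
    injective_of_comp (Algebra.algebraMapSubmonoid B 𝔪.primeCompl) hBF
  have fs : FaithfulSMul R F := (faithfulSMul_iff_algebraMap_injective _ _).2 hRF
  have hMle : 𝔪.primeCompl ≤ nonZeroDivisors P := 𝔪.primeCompl_le_nonZeroDivisors
  have hdR : IsDomain R := IsLocalization.isDomain_of_le_nonZeroDivisors _ hMle
  let algKF : Algebra (FractionRing R) F := FractionRing.liftAlgebra R F
  exact core h1 h2 h3 h4 h7 P F B R B' (FractionRing R) 𝔪 hB'F ϖ g hϖ hg h𝔪 hfin hunr 𝔫 h𝔫 h𝔫𝔪

end CP

theorem stmt_chartPoint (h1 : Stmt_purity) (h2 : Stmt_unramLocalization)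
    (h3 : Stmt_locPrimeLocalization) (h4 : Stmt_htOneLocalization) (h5 : Stmt_polyRing)
    (h6 : Stmt_polyMaximal) (h7 : Stmt_finOver) (h8 : Stmt_chartBasic) : Stmt_chartPoint := by
  intro A₀ P F B _ _ _ _ _ _ _ _ _ _ _ _ _ _ ϖ x hϖ hx hfin 𝔪 h𝔪 hϖ𝔪 hunr 𝔫 h𝔫 h𝔫𝔪
  obtain ⟨hdom, hnoeth, hufd, -, -, hprime⟩ := h5 A₀ P x hx
  have hufd' : UniqueFactorizationMonoid P := hufd
  obtain ⟨-, -, hdB, -, -, -, -⟩ := h8 A₀ P F B x hx hfin
  obtain ⟨g, hg𝔪, hg⟩ := (h6 A₀ P x hx ϖ hϖ).1 𝔪 h𝔪 hϖ𝔪
  have hBF : Function.Injective (algebraMap B F) := IsIntegralClosure.algebraMap_injective B P F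
  have hPF : Function.Injective (algebraMap P F) := FaithfulSMul.algebraMap_injective P F
  have hSunits : ∀ s : Algebra.algebraMapSubmonoid B 𝔪.primeCompl,
      IsUnit (algebraMap B F s) := by
    rintro ⟨_, m, hm, rfl⟩
    rw [← IsScalarTower.algebraMap_apply P B F, isUnit_iff_ne_zero]
    intro h0
    have : m = 0 := hPF (by rw [h0, map_zero])
    exact hm (this ▸ 𝔪.zero_mem)
  let algB'F : Algebra (Localization (Algebra.algebraMapSubmonoid B 𝔪.primeCompl)) F :=
    (IsLocalization.lift hSunits).toAlgebra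
  let algRF : Algebra (Localization.AtPrime 𝔪) F :=
    ((algebraMap (Localization (Algebra.algebraMapSubmonoid B 𝔪.primeCompl)) F).comp
      (algebraMap (Localization.AtPrime 𝔪)
        (Localization (Algebra.algebraMapSubmonoid B 𝔪.primeCompl)))).toAlgebra
  have t1 : IsScalarTower (Localization.AtPrime 𝔪)
      (Localization (Algebra.algebraMapSubmonoid B 𝔪.primeCompl)) F :=
    IsScalarTower.of_algebraMap_eq' rfl
  have t2 : IsScalarTower B (Localization (Algebra.algebraMapSubmonoid B 𝔪.primeCompl)) F :=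
    IsScalarTower.of_algebraMap_eq' (IsLocalization.lift_comp hSunits).symm
  have t3 : IsScalarTower P (Localization.AtPrime 𝔪) F := by
    apply IsScalarTower.of_algebraMap_eq
    intro p
    rw [IsScalarTower.algebraMap_apply (Localization.AtPrime 𝔪)
        (Localization (Algebra.algebraMapSubmonoid B 𝔪.primeCompl)) F,
      ← IsScalarTower.algebraMap_apply P (Localization.AtPrime 𝔪)
        (Localization (Algebra.algebraMapSubmonoid B 𝔪.primeCompl)),
      IsScalarTower.algebraMap_apply P B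
        (Localization (Algebra.algebraMapSubmonoid B 𝔪.primeCompl)),
      ← IsScalarTower.algebraMap_apply B
        (Localization (Algebra.algebraMapSubmonoid B 𝔪.primeCompl)) F,
      ← IsScalarTower.algebraMap_apply P B F]
  exact CP.core2 h1 h2 h3 h4 h7 P F B (Localization.AtPrime 𝔪)
    (Localization (Algebra.algebraMapSubmonoid B 𝔪.primeCompl)) 𝔪 (algebraMap A₀ P ϖ) g
    (hprime ϖ hϖ) hg hg𝔪 hfin hunr 𝔫 h𝔫 h𝔫𝔪

end Fermat.Agent.KL
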