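/-
KL-CUSP: split of the cusp point theorem (sub-lead helper5).

Setting ("Kummer cover of a chart"): `(A₀, P, F, B)` a chart with coordinate `x`; `τ = x - c`;
`F' = F(s)`, `s ^ e = τ`; `P' = A₀[s]` a polynomial ring in `s`, `P → P'`, `x ↦ s ^ e + c`;
`B' = integralClosure P' F'`, which is also the integral closure of `B` in `F'`.
-/
import Fermat.Agent.KL.Interface2

set_option autoImplicit false

namespace Fermat.Agent.KL

open Polynomial IsLocalRing

section Setting

variable (A₀ P F B P' F' : Type)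
  [CommRing A₀] [IsDomain A₀] [IsDiscreteValuationRing A₀]
  [CommRing P] [Algebra A₀ P] [Field F] [CharZero F] [Algebra P F] [FaithfulSMul P F]
  [CommRing B] [Algebra P B] [Algebra B F] [IsScalarTower P B F] [IsIntegralClosure B P F]
  [CommRing P'] [Algebra A₀ P'] [Field F'] [CharZero F'] [Algebra P' F'] [FaithfulSMul P' F']
  [Algebra P P'] [IsScalarTower A₀ P P']
  [Algebra F F'] [Algebra B F'] [IsScalarTower B F F']
  [Algebra B (integralClosure P' F')] [IsScalarTower B (integralClosure P' F') F']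
  [IsIntegralClosure (integralClosure P' F') B F']
  [Algebra P (integralClosure P' F')] [IsScalarTower P B (integralClosure P' F')]
  [IsScalarTower P P' (integralClosure P' F')]
  [IsGalois F F'] [FiniteDimensional F F']

/-- The numerical / generating hypotheses of the Kummer cover. -/
structure IsKummerCover (x : P) (c : A₀) (e : ℕ) (s : P') : Prop where
  polyVar : IsPolyVar A₀ x
  finOver : FinOverR P F
  polyVar' : IsPolyVar A₀ s
  finOver' : FinOverR P' F'
  e_pos : 0 < e
  pow_eq : algebraMap P P' (x - algebraMap A₀ P c) = s ^ e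
  gen : IntermediateField.adjoin F {algebraMap P' F' s} = ⊤

/-- CUSP-G: the Galois package: `B'/B` is integral, faithful, `Aut(B'/B)` is finite with invariants
`B`; both rings are noetherian integrally closed domains; height one primes go down. -/
def Stmt_cuspGalois_at : Prop :=
  ∀ (x : P) (c : A₀) (e : ℕ) (s : P'), IsKummerCover A₀ P F P' F' x c e s →
    FaithfulSMul B (integralClosure P' F') ∧ Algebra.IsIntegral B (integralClosure P' F') ∧
    Finite ((integralClosure P' F') ≃ₐ[B] (integralClosure P' F')) ∧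
    Algebra.IsInvariant B (integralClosure P' F')
      ((integralClosure P' F') ≃ₐ[B] (integralClosure P' F')) ∧
    ∀ 𝔓' : Ideal (integralClosure P' F'), IsHtOne 𝔓' → IsHtOne (𝔓'.under B)

/-- CUSP-3a: height one primes of `B'` through `s = 0` are unramified over `P'`. -/
def Stmt_cusp3a_at : Prop :=
  ∀ (ϖ : A₀) (x : P) (c : A₀) (e : ℕ) (s : P'), Irreducible ϖ →
    IsKummerCover A₀ P F P' F' x c e s →
    (∀ 𝔓 : Ideal B, IsHtOne 𝔓 → algebraMap P B (x - algebraMap A₀ P c) ∈ 𝔓 →
      algebraMap P B (algebraMap A₀ P ϖ) ∉ 𝔓 →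
      TameAt e (algebraMap P B (x - algebraMap A₀ P c)) 𝔓) →
    ∀ (𝔓' : Ideal (integralClosure P' F')) [𝔓'.IsPrime], IsHtOne 𝔓' →
      algebraMap P' (integralClosure P' F') s ∈ 𝔓' → Algebra.IsUnramifiedAt P' 𝔓'

/-- CUSP-3b: height one primes of `B'` through the closed point `(ϖ, s)` not containing `s` are
unramified over `P'`. -/
def Stmt_cusp3b_at : Prop :=
  ∀ (ϖ : A₀) (x : P) (c : A₀) (e : ℕ) (s : P'), Irreducible ϖ → IsUnit (e : A₀) →
    IsKummerCover A₀ P F P' F' x c e s →
    (∀ (𝔓 : Ideal B) [𝔓.IsPrime], IsHtOne 𝔓 →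
      𝔓.under P ≤ Ideal.span {algebraMap A₀ P ϖ, x - algebraMap A₀ P c} →
      algebraMap P B (x - algebraMap A₀ P c) ∉ 𝔓 → Algebra.IsUnramifiedAt P 𝔓) →
    ∀ (𝔓' : Ideal (integralClosure P' F')) [𝔓'.IsPrime], IsHtOne 𝔓' →
      𝔓'.under P' ≤ Ideal.span {algebraMap A₀ P' ϖ, s} →
      algebraMap P' (integralClosure P' F') s ∉ 𝔓' → Algebra.IsUnramifiedAt P' 𝔓'

/-- CUSP-4: the conclusion of the cusp point theorem in the presence of a Kummer cover. -/
def Stmt_cusp4_at : Prop :=
  ∀ (ϖ : A₀) (x : P) (c : A₀) (e : ℕ) (s : P'), Irreducible ϖ → IsUnit (e : A₀) →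
    IsKummerCover A₀ P F P' F' x c e s →
    (∀ (𝔓 : Ideal B) [𝔓.IsPrime], IsHtOne 𝔓 →
      𝔓.under P ≤ Ideal.span {algebraMap A₀ P ϖ, x - algebraMap A₀ P c} →
      algebraMap P B (x - algebraMap A₀ P c) ∉ 𝔓 → Algebra.IsUnramifiedAt P 𝔓) →
    (∀ 𝔓 : Ideal B, IsHtOne 𝔓 → algebraMap P B (x - algebraMap A₀ P c) ∈ 𝔓 →
      algebraMap P B (algebraMap A₀ P ϖ) ∉ 𝔓 →
      TameAt e (algebraMap P B (x - algebraMap A₀ P c)) 𝔓) →
    ∀ 𝔫 : Ideal B, 𝔫.IsPrime →
      𝔫.under P = Ideal.span {algebraMap A₀ P ϖ, x - algebraMap A₀ P c} →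
      LocIrred (algebraMap P B (algebraMap A₀ P ϖ)) 𝔫

end Setting

/-- closed form of `Stmt_cuspGalois_at` -/
def Stmt_cuspGalois : Prop :=
  ∀ (A₀ P F B P' F' : Type)
    [CommRing A₀] [IsDomain A₀] [IsDiscreteValuationRing A₀]
    [CommRing P] [Algebra A₀ P] [Field F] [CharZero F] [Algebra P F] [FaithfulSMul P F]
    [CommRing B] [Algebra P B] [Algebra B F] [IsScalarTower P B F] [IsIntegralClosure B P F]
    [CommRing P'] [Algebra A₀ P'] [Field F'] [CharZero F'] [Algebra P' F'] [FaithfulSMul P' F']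
    [Algebra P P'] [IsScalarTower A₀ P P']
    [Algebra F F'] [Algebra B F'] [IsScalarTower B F F']
    [Algebra B (integralClosure P' F')] [IsScalarTower B (integralClosure P' F') F']
    [IsIntegralClosure (integralClosure P' F') B F']
    [Algebra P (integralClosure P' F')] [IsScalarTower P B (integralClosure P' F')]
    [IsScalarTower P P' (integralClosure P' F')]
    [IsGalois F F'] [FiniteDimensional F F'],
    Stmt_cuspGalois_at A₀ P F B P' F'

/-- closed form of `Stmt_cusp3a_at` -/
def Stmt_cusp3a : Prop :=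
  ∀ (A₀ P F B P' F' : Type)
    [CommRing A₀] [IsDomain A₀] [IsDiscreteValuationRing A₀]
    [CommRing P] [Algebra A₀ P] [Field F] [CharZero F] [Algebra P F] [FaithfulSMul P F]
    [CommRing B] [Algebra P B] [Algebra B F] [IsScalarTower P B F] [IsIntegralClosure B P F]
    [CommRing P'] [Algebra A₀ P'] [Field F'] [CharZero F'] [Algebra P' F'] [FaithfulSMul P' F']
    [Algebra P P'] [IsScalarTower A₀ P P']
    [Algebra F F'] [Algebra B F'] [IsScalarTower B F F']
    [Algebra B (integralClosure P' F')] [IsScalarTower B (integralClosure P' F') F']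
    [IsIntegralClosure (integralClosure P' F') B F']
    [Algebra P (integralClosure P' F')] [IsScalarTower P B (integralClosure P' F')]
    [IsScalarTower P P' (integralClosure P' F')]
    [IsGalois F F'] [FiniteDimensional F F'],
    Stmt_cusp3a_at A₀ P F B P' F'

/-- closed form of `Stmt_cusp3b_at` -/
def Stmt_cusp3b : Prop :=
  ∀ (A₀ P F B P' F' : Type)
    [CommRing A₀] [IsDomain A₀] [IsDiscreteValuationRing A₀]
    [CommRing P] [Algebra A₀ P] [Field F] [CharZero F] [Algebra P F] [FaithfulSMul P F]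
    [CommRing B] [Algebra P B] [Algebra B F] [IsScalarTower P B F] [IsIntegralClosure B P F]
    [CommRing P'] [Algebra A₀ P'] [Field F'] [CharZero F'] [Algebra P' F'] [FaithfulSMul P' F']
    [Algebra P P'] [IsScalarTower A₀ P P']
    [Algebra F F'] [Algebra B F'] [IsScalarTower B F F']
    [Algebra B (integralClosure P' F')] [IsScalarTower B (integralClosure P' F') F']
    [IsIntegralClosure (integralClosure P' F') B F']
    [Algebra P (integralClosure P' F')] [IsScalarTower P B (integralClosure P' F')]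
    [IsScalarTower P P' (integralClosure P' F')]
    [IsGalois F F'] [FiniteDimensional F F'],
    Stmt_cusp3b_at A₀ P F B P' F'

/-- closed form of `Stmt_cusp4_at` -/
def Stmt_cusp4 : Prop :=
  ∀ (A₀ P F B P' F' : Type)
    [CommRing A₀] [IsDomain A₀] [IsDiscreteValuationRing A₀]
    [CommRing P] [Algebra A₀ P] [Field F] [CharZero F] [Algebra P F] [FaithfulSMul P F]
    [CommRing B] [Algebra P B] [Algebra B F] [IsScalarTower P B F] [IsIntegralClosure B P F]
    [CommRing P'] [Algebra A₀ P'] [Field F'] [CharZero F'] [Algebra P' F'] [FaithfulSMul P' F']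
    [Algebra P P'] [IsScalarTower A₀ P P']
    [Algebra F F'] [Algebra B F'] [IsScalarTower B F F']
    [Algebra B (integralClosure P' F')] [IsScalarTower B (integralClosure P' F') F']
    [IsIntegralClosure (integralClosure P' F') B F']
    [Algebra P (integralClosure P' F')] [IsScalarTower P B (integralClosure P' F')]
    [IsScalarTower P P' (integralClosure P' F')]
    [IsGalois F F'] [FiniteDimensional F F'],
    Stmt_cusp4_at A₀ P F B P' F'

/-- CUSP-2: existence of the Kummer cover of a chart. -/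
def Stmt_cuspSetup : Prop :=
  ∀ (A₀ P F B : Type) [CommRing A₀] [IsDomain A₀] [IsDiscreteValuationRing A₀]
    [CommRing P] [Algebra A₀ P] [Field F] [CharZero F] [Algebra P F] [FaithfulSMul P F]
    [CommRing B] [Algebra P B] [Algebra B F] [IsScalarTower P B F] [IsIntegralClosure B P F]
    (x : P) (c : A₀) (e : ℕ) (ζ : A₀), IsPolyVar A₀ x → FinOverR P F → 0 < e →
    IsPrimitiveRoot ζ e →
    ∃ (P' F' : Type) (_ : CommRing P') (_ : Algebra A₀ P') (_ : Field F') (_ : CharZero F')
      (_ : Algebra P' F') (_ : FaithfulSMul P' F') (_ : Algebra P P') (_ : IsScalarTower A₀ P P')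
      (_ : Algebra F F') (_ : Algebra B F') (_ : IsScalarTower B F F')
      (_ : Algebra B (integralClosure P' F')) (_ : IsScalarTower B (integralClosure P' F') F')
      (_ : IsIntegralClosure (integralClosure P' F') B F')
      (_ : Algebra P (integralClosure P' F')) (_ : IsScalarTower P B (integralClosure P' F'))
      (_ : IsScalarTower P P' (integralClosure P' F'))
      (_ : IsGalois F F') (_ : FiniteDimensional F F') (s : P'),
      IsKummerCover A₀ P F P' F' x c e s

end Fermat.Agent.KL
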