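/-
KL CUSP-3a: height one primes of `B'` through `s = 0` are unramified over `P'` (Abhyankar).
-/
import Fermat.Agent.KL.CuspInterface

set_option autoImplicit false

namespace Fermat.Agent.KL

open Polynomial IsLocalRing

theorem stmt_cusp3a (hG : Stmt_cuspGalois) (hAb : Stmt_abhyankar) (hU : Stmt_unramOfLocGen)
    (hD : Stmt_dvrAtHtOne) (hN : Stmt_notMemMinimalPrimes) (hPR : Stmt_polyRing)
    (hPM : Stmt_polyMaximal) (hCB : Stmt_chartBasic) : Stmt_cusp3a := by
  intro A₀ P F B P' F' _ _ _ _ _ _ _ _ _ _ _ _ _ _ _ _ _ _ _ _ _ _ _ _ _ _ _ _ _ _ _ _ _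
  intro ϖ x c e s hϖ hK htame 𝔓' _ hht hs
  -- basic properties of the two charts
  obtain ⟨_, hBnoeth, hBdom, hBic, hBfrac, _, _⟩ := hCB A₀ P F B x hK.polyVar hK.finOver
  obtain ⟨hB'fin, _, hB'dom, _, _, hB'faith, _⟩ :=
    hCB A₀ P' F' (integralClosure P' F') s hK.polyVar' hK.finOver'
  obtain ⟨hP'dom, _, _, hP'ic, hP'inj, hP'prime⟩ := hPR A₀ P' s hK.polyVar'
  obtain ⟨_, _, _, _, hdown⟩ := hG A₀ P F B P' F' x c e s hK
  -- compatibility of the towers
  have htower : ∀ y : P, algebraMap B (integralClosure P' F') (algebraMap P B y) =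
      algebraMap P' (integralClosure P' F') (algebraMap P P' y) := by
    intro y
    rw [← IsScalarTower.algebraMap_apply P B (integralClosure P' F'),
      ← IsScalarTower.algebraMap_apply P P' (integralClosure P' F')]
  have hϖtower : algebraMap B (integralClosure P' F') (algebraMap P B (algebraMap A₀ P ϖ)) =
      algebraMap P' (integralClosure P' F') (algebraMap A₀ P' ϖ) := by
    rw [htower, ← IsScalarTower.algebraMap_apply A₀ P P']
  have hτtower : algebraMap B (integralClosure P' F')
      (algebraMap P B (x - algebraMap A₀ P c)) =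
      (algebraMap P' (integralClosure P' F') s) ^ e := by
    rw [htower, hK.pow_eq, map_pow]
  have hinj' : Function.Injective (algebraMap P' (integralClosure P' F')) :=
    FaithfulSMul.algebraMap_injective P' (integralClosure P' F')
  -- (i) `ϖ' ∉ 𝔓'`
  have hϖ' : algebraMap P' (integralClosure P' F') (algebraMap A₀ P' ϖ) ∉ 𝔓' := by
    intro hmem
    have hle : Ideal.span {algebraMap P' (integralClosure P' F') (algebraMap A₀ P' ϖ)} ≤ 𝔓' := by
      rw [Ideal.span_singleton_le_iff_mem]; exact hmem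
    obtain ⟨𝔮, h𝔮, h𝔮le⟩ := Ideal.exists_minimalPrimes_le hle
    have hnd : ¬ algebraMap A₀ P' ϖ ∣ s := by
      have := ((hPM A₀ P' s hK.polyVar' ϖ hϖ).2.1 0).2
      simpa using this
    have hs𝔮 := hN P' F' (algebraMap A₀ P' ϖ) s (hP'prime ϖ hϖ) hnd 𝔮 h𝔮
    rcases hht.2.2 𝔮 h𝔮.1.1 h𝔮le with h0 | h1
    · have hmem0 : algebraMap P' (integralClosure P' F') (algebraMap A₀ P' ϖ) ∈ 𝔮 :=
        h𝔮.1.2 (Ideal.mem_span_singleton_self _)
      rw [h0, Ideal.mem_bot] at hmem0
      have h2 : algebraMap A₀ P' ϖ = 0 := hinj' (by rw [hmem0, map_zero])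
      have h3 : ϖ = 0 := hP'inj (by rw [h2, map_zero])
      exact hϖ.ne_zero h3
    · exact hs𝔮 (h1 ▸ hs)
  -- (iii) residue characteristic zero
  have hchar' : ∀ n : ℕ, n ≠ 0 → (n : integralClosure P' F') ∉ 𝔓' := by
    intro n hn hmem
    have hnA : (n : A₀) ≠ 0 := by
      intro h0
      have h1 : (n : F) = 0 := by
        have : algebraMap P F (algebraMap A₀ P (n : A₀)) = 0 := by rw [h0, map_zero, map_zero]
        simpa using this
      exact hn (by exact_mod_cast h1)
    obtain ⟨k, u, hu⟩ := IsDiscreteValuationRing.eq_unit_mul_pow_irreducible hnA hϖ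
    have h2 : (n : integralClosure P' F') =
        algebraMap P' (integralClosure P' F') (algebraMap A₀ P' (u : A₀)) *
          (algebraMap P' (integralClosure P' F') (algebraMap A₀ P' ϖ)) ^ k := by
      have : algebraMap P' (integralClosure P' F') (algebraMap A₀ P' (n : A₀)) =
          algebraMap P' (integralClosure P' F') (algebraMap A₀ P' ((u : A₀) * ϖ ^ k)) := by
        rw [hu]
      simpa using this
    rw [h2] at hmem
    rcases Ideal.IsPrime.mem_or_mem inferInstance hmem with h | h
    · have hunit : IsUnit (algebraMap P' (integralClosure P' F') (algebraMap A₀ P' (u : A₀))) :=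
        (u.isUnit.map (algebraMap A₀ P')).map (algebraMap P' (integralClosure P' F'))
      exact (Ideal.IsPrime.ne_top inferInstance) (Ideal.eq_top_of_isUnit_mem 𝔓' h hunit)
    · exact hϖ' (Ideal.IsPrime.mem_of_pow_mem inferInstance k h)
  -- the prime below
  have hht𝔓 : IsHtOne (𝔓'.under B) := hdown 𝔓' hht
  have : (𝔓'.under B).IsPrime := hht𝔓.1
  have hϖB : algebraMap P B (algebraMap A₀ P ϖ) ∉ 𝔓'.under B := by
    rw [Ideal.under_def, Ideal.mem_comap, hϖtower]; exact hϖ'
  have hτB : algebraMap P B (x - algebraMap A₀ P c) ∈ 𝔓'.under B := by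
    rw [Ideal.under_def, Ideal.mem_comap, hτtower]
    exact Ideal.pow_mem_of_mem _ hs e hK.e_pos
  have hchar : ∀ n : ℕ, n ≠ 0 → (n : B) ∉ 𝔓'.under B := by
    intro n hn
    rw [Ideal.under_def, Ideal.mem_comap, map_natCast]
    exact hchar' n hn
  have hdvr : IsDiscreteValuationRing (Localization.AtPrime (𝔓'.under B)) :=
    hD B (𝔓'.under B) hht𝔓
  have hgen : IntermediateField.adjoin F
      {algebraMap (integralClosure P' F') F' (algebraMap P' (integralClosure P' F') s)} = ⊤ := by
    rw [← IsScalarTower.algebraMap_apply P' (integralClosure P' F') F']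
    exact hK.gen
  have hloc : LocGen (algebraMap P' (integralClosure P' F') s) 𝔓' :=
    hAb B F (integralClosure P' F') F' e (algebraMap P B (x - algebraMap A₀ P c))
      (algebraMap P' (integralClosure P' F') s) hK.e_pos hτtower.symm hgen 𝔓' (𝔓'.under B) rfl
      hdvr hchar hτB (htame _ hht𝔓 hτB hϖB)
  exact hU P' (integralClosure P' F') 𝔓' s hloc hchar'

end Fermat.Agent.KL
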