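/-
KL / CUSP-3b : height one primes of `B'` through the closed point `(ϖ, s)` not containing `s` are
unramified over `P'` (adjoining a root of a local unit).
-/
import Fermat.Agent.KL.CuspInterface

set_option autoImplicit false

namespace Fermat.Agent.KL

open Polynomial IsLocalRing

namespace C3b

section

variable {A₀ P P' : Type} [CommRing A₀] [IsDomain A₀] [IsDiscreteValuationRing A₀]
  [CommRing P] [Algebra A₀ P] [CommRing P'] [Algebra A₀ P'] [Algebra P P'] [IsScalarTower A₀ P P']

/-- the closed point `(ϖ, s)` of `P'` lies over the closed point `(ϖ, x - c)` of `P`. -/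
theorem comap_closedPoint (hPM : Stmt_polyMaximal) (ϖ : A₀) (hϖ : Irreducible ϖ) (x : P) (c : A₀)
    (e : ℕ) (s : P') (hx : IsPolyVar A₀ x) (hs : IsPolyVar A₀ s) (he : 0 < e)
    (hpow : algebraMap P P' (x - algebraMap A₀ P c) = s ^ e) :
    (Ideal.span {algebraMap A₀ P' ϖ, s}).comap (algebraMap P P')
      = Ideal.span {algebraMap A₀ P ϖ, x - algebraMap A₀ P c} := by
  have hmax : (Ideal.span {algebraMap A₀ P ϖ, x - algebraMap A₀ P c}).IsMaximal :=
    ((hPM A₀ P x hx ϖ hϖ).2.1 c).1
  have hmax' : (Ideal.span {algebraMap A₀ P' ϖ, s}).IsMaximal := by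
    have := ((hPM A₀ P' s hs ϖ hϖ).2.1 0).1
    rwa [map_zero, sub_zero] at this
  symm
  refine hmax.eq_of_le ?_ ?_
  · exact (Ideal.comap_ne_top _ hmax'.ne_top)
  · rw [Ideal.span_le]
    rintro y (rfl | hy)
    · rw [SetLike.mem_coe, Ideal.mem_comap, ← IsScalarTower.algebraMap_apply]
      exact Ideal.subset_span (by simp)
    · rw [Set.mem_singleton_iff] at hy
      subst hy
      rw [SetLike.mem_coe, Ideal.mem_comap, hpow]
      exact Ideal.pow_mem_of_mem _ (Ideal.subset_span (by simp)) e he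

end

end C3b

theorem stmt_cusp3b (hG : Stmt_cuspGalois) (hR : Stmt_rootUnit) (hD : Stmt_dvrAtHtOne)
    (hPM : Stmt_polyMaximal) (hCB : Stmt_chartBasic) : Stmt_cusp3b := by
  intro A₀ P F B P' F' _ _ _ _ _ _ _ _ _ _ _ _ _ _ _ _ _ _ _ _ _ _ _ _ _ _ _ _ _ _ _ _ _ ϖ x c e s
    hϖ he hK hunr 𝔓' _ hht hle hs
  obtain ⟨-, -, -, -, hdown⟩ := hG A₀ P F B P' F' x c e s hK
  obtain ⟨-, hNoeth, hDom, hIC, hFrac, -, -⟩ := hCB A₀ P F B x hK.polyVar hK.finOver
  have hht𝔓 : IsHtOne (𝔓'.under B) := hdown 𝔓' hht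
  have hprime : (𝔓'.under B).IsPrime := hht𝔓.1
  -- compatibility of the algebra maps
  have hmap : ∀ p : P, algebraMap B (integralClosure P' F') (algebraMap P B p)
      = algebraMap P' (integralClosure P' F') (algebraMap P P' p) := by
    intro p
    rw [← IsScalarTower.algebraMap_apply P B (integralClosure P' F'),
      ← IsScalarTower.algebraMap_apply P P' (integralClosure P' F')]
  have hτ : algebraMap B (integralClosure P' F') (algebraMap P B (x - algebraMap A₀ P c))
      = (algebraMap P' (integralClosure P' F') s) ^ e := by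
    rw [hmap, hK.pow_eq, map_pow]
  have hτnot : algebraMap P B (x - algebraMap A₀ P c) ∉ 𝔓'.under B := by
    intro h
    have h1 : algebraMap B (integralClosure P' F') (algebraMap P B (x - algebraMap A₀ P c)) ∈ 𝔓' := h
    rw [hτ] at h1
    exact hs (Ideal.IsPrime.mem_of_pow_mem inferInstance e h1)
  have hunder : (𝔓'.under B).under P ≤ Ideal.span {algebraMap A₀ P ϖ, x - algebraMap A₀ P c} := by
    rw [← C3b.comap_closedPoint hPM ϖ hϖ x c e s hK.polyVar hK.polyVar' hK.e_pos hK.pow_eq]
    intro p hp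
    have h1 : algebraMap B (integralClosure P' F') (algebraMap P B p) ∈ 𝔓' := hp
    rw [hmap] at h1
    exact hle h1
  have hU1 : Algebra.IsUnramifiedAt P (𝔓'.under B) := hunr (𝔓'.under B) hht𝔓 hunder hτnot
  have hDVR : IsDiscreteValuationRing (Localization.AtPrime (𝔓'.under B)) :=
    hD B (𝔓'.under B) hht𝔓
  have heB : (e : B) ∉ 𝔓'.under B := by
    intro h
    have hu : IsUnit (e : B) := by
      have h1 : (e : B) = algebraMap P B (algebraMap A₀ P (e : A₀)) := by
        rw [map_natCast, map_natCast]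
      rw [h1]
      exact (he.map (algebraMap A₀ P)).map (algebraMap P B)
    exact hprime.ne_top ((Ideal.eq_top_of_isUnit_mem _ h hu))
  have hθ : (algebraMap P' F' s) ^ e = algebraMap B F' (algebraMap P B (x - algebraMap A₀ P c)) := by
    rw [IsScalarTower.algebraMap_apply B (integralClosure P' F') F', hτ, map_pow,
      ← IsScalarTower.algebraMap_apply P' (integralClosure P' F') F']
  have hU2 : Algebra.IsUnramifiedAt B 𝔓' :=
    hR B F (integralClosure P' F') F' e (algebraMap P B (x - algebraMap A₀ P c))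
      (algebraMap P' F' s) hθ hK.gen 𝔓' (𝔓'.under B) rfl hDVR hτnot heB
  have hLO : 𝔓'.LiesOver (𝔓'.under B) := ⟨rfl⟩
  have hU3 : Algebra.IsUnramifiedAt P 𝔓' := Algebra.IsUnramifiedAt.comp (R := P) (𝔓'.under B) 𝔓'
  exact Algebra.IsUnramifiedAt.of_restrictScalars P (A := P') 𝔓'

end Fermat.Agent.KL
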