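/-
KL CUSP-4: core assembly of the cusp point theorem: `chartPoint` upstairs + Galois descent of
`LocIrred`.
-/
import Fermat.Agent.KL.CuspInterface

set_option autoImplicit false

namespace Fermat.Agent.KL

open Polynomial IsLocalRing

theorem stmt_cusp4 (hG : Stmt_cuspGalois) (h3a : Stmt_cusp3a) (h3b : Stmt_cusp3b)
    (hCP : Stmt_chartPoint) (hLI : Stmt_locIrredOfLocPrime) (hDe : Stmt_locIrredDescent)
    (hPM : Stmt_polyMaximal) (hCB : Stmt_chartBasic) : Stmt_cusp4 := by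
  intro A₀ P F B P' F' _ _ _ _ _ _ _ _ _ _ _ _ _ _ _ _ _ _ _ _ _ _ _ _ _ _ _ _ _ _ _ _ _
  intro ϖ x c e s hϖ he hK hunr htame 𝔫 h𝔫 h𝔫P
  obtain ⟨hfaith, hint, hfin, hinv, hgd⟩ := hG A₀ P F B P' F' x c e s hK
  obtain ⟨-, -, hdomB, -, -, -, -⟩ := hCB A₀ P F B x hK.polyVar hK.finOver
  obtain ⟨-, -, hdomB', -, -, -, hintP'⟩ :=
    hCB A₀ P' F' (integralClosure P' F') s hK.polyVar' hK.finOver'
  -- compatibility of the maps
  have hPB' : ∀ p : P, algebraMap B (integralClosure P' F') (algebraMap P B p) =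
      algebraMap P' (integralClosure P' F') (algebraMap P P' p) := by
    intro p
    rw [← IsScalarTower.algebraMap_apply P B (integralClosure P' F'),
      ← IsScalarTower.algebraMap_apply P P' (integralClosure P' F')]
  have hϖ' : algebraMap B (integralClosure P' F') (algebraMap P B (algebraMap A₀ P ϖ)) =
      algebraMap P' (integralClosure P' F') (algebraMap A₀ P' ϖ) := by
    rw [hPB', ← IsScalarTower.algebraMap_apply A₀ P P']
  have hτ' : algebraMap B (integralClosure P' F') (algebraMap P B (x - algebraMap A₀ P c)) =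
      (algebraMap P' (integralClosure P' F') s) ^ e := by
    rw [hPB', hK.pow_eq, map_pow]
  have hmax' : (Ideal.span {algebraMap A₀ P' ϖ, s}).IsMaximal := by
    have := ((hPM A₀ P' s hK.polyVar' ϖ hϖ).2.1 0).1
    simpa using this
  refine hDe B (integralClosure P' F') ((integralClosure P' F') ≃ₐ[B] (integralClosure P' F'))
    (algebraMap P B (algebraMap A₀ P ϖ)) 𝔫 h𝔫 ?_
  intro 𝔫' h𝔫' h𝔫'B
  have hϖ𝔫 : algebraMap P B (algebraMap A₀ P ϖ) ∈ 𝔫 := by
    have : algebraMap A₀ P ϖ ∈ 𝔫.under P := by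
      rw [h𝔫P]; exact Ideal.subset_span (by simp)
    exact this
  have hτ𝔫 : algebraMap P B (x - algebraMap A₀ P c) ∈ 𝔫 := by
    have : x - algebraMap A₀ P c ∈ 𝔫.under P := by
      rw [h𝔫P]; exact Ideal.subset_span (by simp)
    exact this
  have hϖ𝔫' : algebraMap P' (integralClosure P' F') (algebraMap A₀ P' ϖ) ∈ 𝔫' := by
    rw [← hϖ']
    have : algebraMap P B (algebraMap A₀ P ϖ) ∈ 𝔫'.under B := by rw [h𝔫'B]; exact hϖ𝔫
    exact this
  have hs𝔫' : algebraMap P' (integralClosure P' F') s ∈ 𝔫' := by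
    have h1 : (algebraMap P' (integralClosure P' F') s) ^ e ∈ 𝔫' := by
      rw [← hτ']
      have : algebraMap P B (x - algebraMap A₀ P c) ∈ 𝔫'.under B := by rw [h𝔫'B]; exact hτ𝔫
      exact this
    exact h𝔫'.mem_of_pow_mem e h1
  have hle : Ideal.span {algebraMap A₀ P' ϖ, s} ≤ 𝔫'.under P' := by
    rw [Ideal.span_le]
    intro y hy
    rcases hy with rfl | hy
    · exact hϖ𝔫'
    · rw [Set.mem_singleton_iff] at hy
      subst hy
      exact hs𝔫'
  have hunder : 𝔫'.under P' = Ideal.span {algebraMap A₀ P' ϖ, s} := by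
    have hne : 𝔫'.under P' ≠ ⊤ := (Ideal.IsPrime.under P' 𝔫').ne_top
    exact (hmax'.eq_of_le hne hle).symm
  have h𝔫'max : 𝔫'.IsMaximal := by
    have : (𝔫'.comap (algebraMap P' (integralClosure P' F'))).IsMaximal := by
      have h := hunder
      rw [Ideal.under_def] at h
      rw [h]; exact hmax'
    exact Ideal.isMaximal_of_isIntegral_of_isMaximal_comap 𝔫' this
  rw [hϖ']
  refine hLI _ _ _ h𝔫' ?_
  refine hCP A₀ P' F' (integralClosure P' F') ϖ s hϖ hK.polyVar' hK.finOver'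
    (Ideal.span {algebraMap A₀ P' ϖ, s}) hmax' (Ideal.subset_span (by simp)) ?_ 𝔫' h𝔫'max hunder
  intro 𝔓' _ h𝔓' h𝔓'le
  by_cases hs : algebraMap P' (integralClosure P' F') s ∈ 𝔓'
  · exact h3a A₀ P F B P' F' ϖ x c e s hϖ hK htame 𝔓' h𝔓' hs
  · exact h3b A₀ P F B P' F' ϖ x c e s hϖ he hK hunr 𝔓' h𝔓' h𝔓'le hs

end Fermat.Agent.KL
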