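import Fermat.Agent.KL.CuspInterface

/-!
# CUSP-G: the Galois package for `B'/B`
-/

set_option autoImplicit false

namespace Fermat.Agent.KL

theorem stmt_cuspGalois (h1 : Stmt_chartBasic) (h2 : Stmt_galoisGoingDown) : Stmt_cuspGalois := by
  intro A₀ P F B P' F' _ _ _ _ _ _ _ _ _ _ _ _ _ _ _ _ _ _ _ _ _ _ _ _ _ _ _ _ _ _ _ _ _
  intro x c e s hK
  obtain ⟨-, -, hdomB, hicB, hfrB, -, -⟩ := h1 A₀ P F B x hK.polyVar hK.finOver
  obtain ⟨-, -, hdomB', hicB', hfrB', -, -⟩ :=
    h1 A₀ P' F' (integralClosure P' F') s hK.polyVar' hK.finOver'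
  have hinj : Function.Injective (algebraMap B (integralClosure P' F')) := by
    have h3 : Function.Injective (algebraMap B F') := by
      rw [IsScalarTower.algebraMap_eq B F F']
      exact (algebraMap F F').injective.comp (IsFractionRing.injective B F)
    rw [IsScalarTower.algebraMap_eq B (integralClosure P' F') F', RingHom.coe_comp] at h3
    exact Function.Injective.of_comp h3
  have hfaith : FaithfulSMul B (integralClosure P' F') :=
    (faithfulSMul_iff_algebraMap_injective B (integralClosure P' F')).mpr hinj
  have hint : Algebra.IsIntegral B (integralClosure P' F') :=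
    IsIntegralClosure.isIntegral_algebra B F'
  have hfinG : Finite ((integralClosure P' F') ≃ₐ[B] (integralClosure P' F')) :=
    Finite.of_equiv _ (galRestrict B F F' (integralClosure P' F')).toEquiv
  have hinv : Algebra.IsInvariant B (integralClosure P' F')
      ((integralClosure P' F') ≃ₐ[B] (integralClosure P' F')) :=
    Algebra.isInvariant_of_isGalois' B F F' (integralClosure P' F')
  exact ⟨hfaith, hint, hfinG, hinv, fun 𝔓' h𝔓' =>
    h2 B (integralClosure P' F') ((integralClosure P' F') ≃ₐ[B] (integralClosure P' F')) 𝔓' h𝔓'⟩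

end Fermat.Agent.KL
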