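/-
KL-CUSP: the cusp point theorem from the Kummer cover (CUSP-2) and the core (CUSP-4).
-/
import Fermat.Agent.KL.CuspInterface

set_option autoImplicit false

namespace Fermat.Agent.KL

/-- The cusp point theorem, from the existence of Kummer covers and the core statement. -/
theorem stmt_cuspPoint_of (h2 : Stmt_cuspSetup) (h4 : Stmt_cusp4) : Stmt_cuspPoint := by
  intro A₀ P F B _ _ _ _ _ _ _ _ _ _ _ _ _ _ ϖ x c e ζ hϖ hx hfin he hζ H1 H2 𝔫 h𝔫 hund
  have he0 : 0 < e := by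
    rcases Nat.eq_zero_or_pos e with rfl | h
    · simp at he
    · exact h
  obtain ⟨P', F', _, _, _, _, _, _, _, _, _, _, _, _, _, _, _, _, _, _, _, s, hK⟩ :=
    h2 A₀ P F B x c e ζ hx hfin he0 hζ
  exact h4 A₀ P F B P' F' ϖ x c e s hϖ he hK H1 H2 𝔫 h𝔫 hund

end Fermat.Agent.KL
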