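/-
KL-CUSP-2: existence of the Kummer cover of a chart.
-/
import Fermat.Agent.KL.CuspInterface

set_option autoImplicit false

namespace Fermat.Agent.KL

open Polynomial

namespace CS

/-- transitivity of `FinOverR` along a finite field extension -/
theorem finOver_trans {P P' F F' : Type} [CommRing P] [IsDomain P] [CommRing P'] [Field F]
    [Field F'] [Algebra P F] [Algebra P' F'] [Algebra F F'] [FiniteDimensional F F']
    (j : P →+* P') (hj : Function.Injective j)
    (hcomp : ∀ p, algebraMap P' F' (j p) = algebraMap F F' (algebraMap P F p))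
    (h : FinOverR P F) : FinOverR P' F' := by
  classical
  obtain ⟨S, hS⟩ := h
  let b := Module.finBasis F F'
  refine ⟨(S ×ˢ Finset.univ).image (fun fi => algebraMap F F' fi.1 * b fi.2), fun y => ?_⟩
  choose d hd0 hd using hS
  let D : P := ∏ i, d (b.repr y i)
  have hD0 : D ≠ 0 := Finset.prod_ne_zero_iff.mpr fun i _ => hd0 _
  refine ⟨j D, fun h0 => hD0 (hj (by rw [h0, map_zero])), ?_⟩
  -- key: for `f` in the `P`-span of `S`, `f * b i` is in the `P'`-span
  have key : ∀ (i : Fin _) (f : F), f ∈ Submodule.span P (S : Set F) →
      algebraMap F F' f * b i ∈ Submodule.span P'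
        (((S ×ˢ Finset.univ).image (fun fi => algebraMap F F' fi.1 * b fi.2) : Finset F') :
          Set F') := by
    intro i f hf
    induction hf using Submodule.span_induction with
    | mem f hf =>
      apply Submodule.subset_span
      simp only [Finset.coe_image, Set.mem_image, Finset.mem_coe, Finset.mem_product,
        Finset.mem_univ, and_true]
      exact ⟨(f, i), hf, rfl⟩
    | zero => simp
    | add f g _ _ hf hg =>
      rw [map_add, add_mul]
      exact add_mem hf hg
    | smul p f _ hf =>
      have : algebraMap F F' (p • f) * b i = j p • (algebraMap F F' f * b i) := by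
        rw [Algebra.smul_def, Algebra.smul_def, map_mul, hcomp, mul_assoc]
      rw [this]
      exact Submodule.smul_mem _ _ hf
  have hy : y = ∑ i, algebraMap F F' (b.repr y i) * b i := by
    conv_lhs => rw [← b.sum_repr y]
    simp only [Algebra.smul_def]
  have hDy : j D • y = ∑ i, algebraMap F F' (D • b.repr y i) * b i := by
    conv_lhs => rw [hy]
    rw [Finset.smul_sum]
    refine Finset.sum_congr rfl fun i _ => ?_
    rw [Algebra.smul_def, Algebra.smul_def, map_mul, hcomp, mul_assoc]
  rw [hDy]
  refine sum_mem fun i _ => key i _ ?_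
  have : D = (∏ k ∈ Finset.univ.erase i, d (b.repr y k)) * d (b.repr y i) :=
    (Finset.prod_erase_mul _ _ (Finset.mem_univ i)).symm
  rw [this, mul_smul]
  exact Submodule.smul_mem _ _ (hd _)

/-- if `s ^ e + c` is transcendental then so is `s` (in `eval₂` form) -/
theorem eval₂_injective {A₀ F' : Type} [CommRing A₀] [IsDomain A₀] [Field F'] (ψ : A₀ →+* F')
    (s : F') (e : ℕ) (c : A₀)
    (h : Function.Injective (eval₂RingHom ψ (s ^ e + ψ c))) :
    Function.Injective (eval₂RingHom ψ s) := by
  let _ : Algebra A₀ F' := ψ.toAlgebra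
  have h1 : Transcendental A₀ (s ^ e + algebraMap A₀ F' c) := by
    rw [transcendental_iff_injective]
    exact h
  have h2 : Transcendental A₀ s := by
    intro hs
    exact h1 ((hs.pow e).add (isAlgebraic_algebraMap c))
  rw [transcendental_iff_injective] at h2
  exact h2

end CS

open CS in
theorem stmt_cuspSetup (hK : Stmt_kummerExt) : Stmt_cuspSetup := by
  intro A₀ P F B _ _ _ _ _ _ _ _ _ _ _ _ _ _ x c e ζ hx hfin he hζ
  -- the equivalence `A₀[X] ≃ P`
  let E : A₀[X] ≃ₐ[A₀] P := AlgEquiv.ofBijective (aeval x) hx
  have hE : ∀ q : A₀[X], E q = aeval x q := fun q => rfl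
  have : IsDomain P := E.symm.toMulEquiv.isDomain A₀[X]
  have hPF : Function.Injective (algebraMap P F) := FaithfulSMul.algebraMap_injective P F
  have hA₀P : Function.Injective (algebraMap A₀ P) := by
    intro a b hab
    have : E (C a) = E (C b) := by rw [hE, hE, aeval_C, aeval_C, hab]
    exact C_injective (E.injective this)
  let φ₀ : A₀ →+* F := (algebraMap P F).comp (algebraMap A₀ P)
  have hφ₀ : Function.Injective φ₀ := hPF.comp hA₀P
  have hτP : x - algebraMap A₀ P c ≠ 0 := by
    intro h0
    have : E (X - C c) = E 0 := by rw [hE, map_sub, aeval_X, aeval_C, h0, map_zero]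
    exact X_sub_C_ne_zero c (E.injective this)
  have hτ : algebraMap P F (x - algebraMap A₀ P c) ≠ 0 := by
    intro h0
    exact hτP (hPF (by rw [h0, map_zero]))
  obtain ⟨F', _, _, s, hs, hgen, hgal, hfd⟩ :=
    hK F (algebraMap P F (x - algebraMap A₀ P c)) (φ₀ ζ) e hτ he (hζ.map_of_injective hφ₀)
  have : CharZero F' := charZero_of_injective_algebraMap (algebraMap F F').injective
  let ψ₀ : A₀ →+* F' := (algebraMap F F').comp φ₀
  have hxs : algebraMap F F' (algebraMap P F x) = s ^ e + ψ₀ c := by
    rw [hs, map_sub, map_sub]
    simp [ψ₀, φ₀]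
  -- `P → F'` in terms of `E`
  have hEF' : ∀ q : A₀[X], algebraMap F F' (algebraMap P F (E q)) = eval₂ ψ₀ (s ^ e + ψ₀ c) q := by
    intro q
    rw [hE, aeval_def, hom_eval₂, hom_eval₂, hxs]
  -- `P' = A₀[X] → F'`
  let _ : Algebra A₀[X] F' := (eval₂RingHom ψ₀ s).toAlgebra
  have hP'F' : ∀ q : A₀[X], algebraMap A₀[X] F' q = eval₂ ψ₀ s q := fun q => rfl
  have hinj : Function.Injective (algebraMap A₀[X] F') := by
    apply eval₂_injective ψ₀ s e c
    intro q q' hqq
    simp only [coe_eval₂RingHom] at hqq
    rw [← hEF', ← hEF'] at hqq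
    exact E.injective (hPF ((algebraMap F F').injective hqq))
  have : FaithfulSMul A₀[X] F' := (faithfulSMul_iff_algebraMap_injective _ _).mpr hinj
  -- `P → P'`
  let jP : P →ₐ[A₀] A₀[X] := (aeval (X ^ e + C c : A₀[X])).comp E.symm.toAlgHom
  have hjP : ∀ q : A₀[X], jP (E q) = aeval (X ^ e + C c : A₀[X]) q := by
    intro q
    simp [jP]
  let _ : Algebra P A₀[X] := jP.toRingHom.toAlgebra
  have hPP' : ∀ p : P, algebraMap P A₀[X] p = jP p := fun p => rfl
  have : IsScalarTower A₀ P A₀[X] := IsScalarTower.of_algebraMap_eq fun a => by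
    rw [hPP', AlgHom.commutes]
  -- compatibility
  have star : ∀ p : P, algebraMap A₀[X] F' (algebraMap P A₀[X] p)
      = algebraMap F F' (algebraMap P F p) := by
    intro p
    obtain ⟨q, rfl⟩ := E.surjective p
    rw [hPP', hjP, hEF', hP'F', aeval_def, ← coe_eval₂RingHom ψ₀ s, hom_eval₂]
    congr 1
    · ext a
      simp
    · simp
  have hpow : algebraMap P A₀[X] (x - algebraMap A₀ P c) = X ^ e := by
    have h1 : x - algebraMap A₀ P c = E (X - C c) := by
      rw [hE, map_sub, aeval_X, aeval_C]
    rw [h1, hPP', hjP, map_sub, aeval_X, aeval_C]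
    simp
  -- auxiliary algebra structures on `F'`
  let _ : Algebra P F' := ((algebraMap F F').comp (algebraMap P F)).toAlgebra
  have : IsScalarTower P F F' := IsScalarTower.of_algebraMap_eq fun _ => rfl
  have : IsScalarTower P A₀[X] F' := IsScalarTower.of_algebraMap_eq fun p => (star p).symm
  let _ : Algebra B F' := ((algebraMap F F').comp (algebraMap B F)).toAlgebra
  have : IsScalarTower B F F' := IsScalarTower.of_algebraMap_eq fun _ => rfl
  have : IsScalarTower P B F' := IsScalarTower.of_algebraMap_eq fun p => by
    show algebraMap F F' (algebraMap P F p) = algebraMap F F' (algebraMap B F (algebraMap P B p))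
    rw [← IsScalarTower.algebraMap_apply P B F]
  have hBint : Algebra.IsIntegral P B := IsIntegralClosure.isIntegral_algebra P F
  have hXint : IsIntegral P (X : A₀[X]) :=
    IsIntegral.of_pow he (by rw [← hpow]; exact isIntegral_algebraMap)
  have hCint : ∀ a : A₀, IsIntegral P (C a : A₀[X]) := by
    intro a
    have : (C a : A₀[X]) = algebraMap P A₀[X] (algebraMap A₀ P a) := by
      rw [← IsScalarTower.algebraMap_apply A₀ P A₀[X]]
      rfl
    rw [this]
    exact isIntegral_algebraMap
  have hP'int : Algebra.IsIntegral P A₀[X] := by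
    constructor
    intro q
    induction q using Polynomial.induction_on with
    | C a => exact hCint a
    | add p q hp hq => exact hp.add hq
    | monomial n a _ => exact (hCint a).mul (hXint.pow _)
  -- `B → B'`
  have hBmem : ∀ b : B, algebraMap B F' b ∈ integralClosure A₀[X] F' := fun b =>
    ((hBint.isIntegral b).map (IsScalarTower.toAlgHom P B F')).tower_top
  let jB : B →+* integralClosure A₀[X] F' :=
    { toFun := fun b => ⟨algebraMap B F' b, hBmem b⟩
      map_one' := Subtype.ext (map_one _)
      map_mul' := fun a b => Subtype.ext (map_mul _ a b)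
      map_zero' := Subtype.ext (map_zero _)
      map_add' := fun a b => Subtype.ext (map_add _ a b) }
  let _ : Algebra B (integralClosure A₀[X] F') := jB.toAlgebra
  have : IsScalarTower B (integralClosure A₀[X] F') F' :=
    IsScalarTower.of_algebraMap_eq fun _ => rfl
  have : IsIntegralClosure (integralClosure A₀[X] F') B F' :=
    { algebraMap_injective := Subtype.val_injective
      isIntegral_iff := by
        intro y
        constructor
        · intro hy
          have h1 : IsIntegral P y := isIntegral_trans y hy
          exact ⟨⟨y, h1.tower_top⟩, rfl⟩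
        · rintro ⟨⟨y, hy⟩, rfl⟩
          have h1 : IsIntegral P y := isIntegral_trans y hy
          exact h1.tower_top }
  let _ : Algebra P (integralClosure A₀[X] F') :=
    ((algebraMap A₀[X] (integralClosure A₀[X] F')).comp (algebraMap P A₀[X])).toAlgebra
  have : IsScalarTower P A₀[X] (integralClosure A₀[X] F') :=
    IsScalarTower.of_algebraMap_eq fun _ => rfl
  have : IsScalarTower P B (integralClosure A₀[X] F') :=
    IsScalarTower.of_algebraMap_eq fun p => by
      apply Subtype.ext
      show algebraMap A₀[X] F' (algebraMap P A₀[X] p)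
        = algebraMap F F' (algebraMap B F (algebraMap P B p))
      rw [star, ← IsScalarTower.algebraMap_apply P B F]
  have hjPinj : Function.Injective (algebraMap P A₀[X]) := by
    intro p p' hpp
    have := congrArg (algebraMap A₀[X] F') hpp
    rw [star, star] at this
    exact hPF ((algebraMap F F').injective this)
  refine ⟨A₀[X], F', inferInstance, inferInstance, inferInstance, inferInstance, inferInstance,
    inferInstance, inferInstance, inferInstance, inferInstance, inferInstance, inferInstance,
    inferInstance, inferInstance, inferInstance, inferInstance, inferInstance, inferInstance,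
    inferInstance, inferInstance, X, ?_⟩
  refine ⟨hx, hfin, ?_, finOver_trans (algebraMap P A₀[X]) hjPinj star hfin, he, hpow, ?_⟩
  · unfold IsPolyVar
    rw [aeval_X_left]
    exact Function.bijective_id
  · have : algebraMap A₀[X] F' X = s := by
      rw [hP'F', eval₂_X]
    rw [this]
    exact hgen

end Fermat.Agent.KL
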