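/-
TEAM KL, task CUSP-C1 (helper96): the Kummer extension `F(s)`, `s ^ e = τ`, is Galois.
-/
import Fermat.Agent.KL.CuspInterface

set_option autoImplicit false

namespace Fermat.Agent.KL

open Polynomial

theorem stmt_kummerExt : Stmt_kummerExt := by
  intro F _ _ τ ζ e hτ he hζ
  have : NeZero e := ⟨he.ne'⟩
  set f : F[X] := X ^ e - C τ with hf
  have hdeg : f.degree = e := degree_X_pow_sub_C he τ
  have hsep : f.Separable := separable_X_pow_sub_C τ (Nat.cast_ne_zero.mpr he.ne') hτ
  have key : ∀ (E : Type) [Field E] [Algebra F E] (y : E),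
      aeval y f = y ^ e - algebraMap F E τ := by
    intro E _ _ y
    simp [hf]
  have hsplit := SplittingField.splits f
  have hdeg' : (f.map (algebraMap F f.SplittingField)).degree ≠ 0 := by
    rw [degree_map, hdeg]
    exact_mod_cast he.ne'
  obtain ⟨s, hs⟩ := hsplit.exists_eval_eq_zero hdeg'
  have hse : s ^ e = algebraMap F f.SplittingField τ := by
    rw [eval_map_algebraMap, key] at hs
    exact sub_eq_zero.mp hs
  have hs0 : s ≠ 0 := by
    intro h0
    rw [h0, zero_pow he.ne'] at hse
    exact hτ ((map_eq_zero _).mp hse.symm)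
  have hζ' : IsPrimitiveRoot (algebraMap F f.SplittingField ζ) e :=
    hζ.map_of_injective (algebraMap F f.SplittingField).injective
  refine ⟨f.SplittingField, inferInstance, inferInstance, s, hse, ?_,
    IsGalois.of_separable_splitting_field (p := f) hsep,
    IsSplittingField.finiteDimensional f.SplittingField f⟩
  rw [eq_top_iff]
  intro x _
  have hx : x ∈ Algebra.adjoin F (f.rootSet f.SplittingField) := by
    rw [IsSplittingField.adjoin_rootSet f.SplittingField f]
    trivial
  have hle : Algebra.adjoin F (f.rootSet f.SplittingField) ≤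
      (IntermediateField.adjoin F {s}).toSubalgebra := by
    refine Algebra.adjoin_le ?_
    intro y hy
    have hy' : y ^ e = algebraMap F f.SplittingField τ := by
      have := (mem_rootSet.mp hy).2
      rw [key] at this
      exact sub_eq_zero.mp this
    have h1 : (y / s) ^ e = 1 := by rw [div_pow, hy', hse, div_self]; rw [← hse]; exact pow_ne_zero _ hs0
    obtain ⟨i, -, hi⟩ := hζ'.eq_pow_of_pow_eq_one h1
    have h2 : y = (algebraMap F f.SplittingField ζ) ^ i * s := by
      rw [hi]; field_simp
    rw [h2]
    exact mul_mem (pow_mem (IntermediateField.algebraMap_mem _ ζ) i)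
      (IntermediateField.mem_adjoin_simple_self F s)
  exact hle hx

end Fermat.Agent.KL
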