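/-
KL-CUSP: the cusp point theorem (final assembly of the CUSP packages).
-/
import Fermat.Agent.KL.CuspPoint
import Fermat.Agent.KL.CuspSetup
import Fermat.Agent.KL.KummerExt
import Fermat.Agent.KL.CuspGalois
import Fermat.Agent.KL.Cusp3a
import Fermat.Agent.KL.Cusp3b
import Fermat.Agent.KL.Cusp4

set_option autoImplicit false

namespace Fermat.Agent.KL

/-- **CUSP**: the cusp point theorem, from the abstract packages. -/
theorem stmt_cuspPoint (hCP : Stmt_chartPoint) (hLI : Stmt_locIrredOfLocPrime)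
    (hR : Stmt_rootUnit) (hAb : Stmt_abhyankar) (hU : Stmt_unramOfLocGen) (hD : Stmt_dvrAtHtOne)
    (hGD : Stmt_galoisGoingDown) (hDe : Stmt_locIrredDescent) (hN : Stmt_notMemMinimalPrimes)
    (hPR : Stmt_polyRing) (hPM : Stmt_polyMaximal) (hCB : Stmt_chartBasic) : Stmt_cuspPoint :=
  have hG : Stmt_cuspGalois := stmt_cuspGalois hCB hGD
  stmt_cuspPoint_of (stmt_cuspSetup stmt_kummerExt)
    (stmt_cusp4 hG (stmt_cusp3a hG hAb hU hD hN hPR hPM hCB) (stmt_cusp3b hG hR hD hPM hCB)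
      hCP hLI hDe hPM hCB)

end Fermat.Agent.KL
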