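/-
KL-A1 (helper65): a finite (formally) unramified algebra over a field has nonzero discriminant.
-/
import Fermat.Agent.KL.Interface2

set_option autoImplicit false

namespace Fermat.Agent.KL

namespace A1

open Module

/-- the trace of a finite product of finite free algebras is the sum of the traces -/
theorem trace_pi {k : Type*} [CommRing k] {I : Type*} [Fintype I] [DecidableEq I]
    (A : I → Type*) [∀ i, CommRing (A i)] [∀ i, Algebra k (A i)] [∀ i, Module.Free k (A i)]
    [∀ i, Module.Finite k (A i)] (x : Π i, A i) :
    Algebra.trace k (Π i, A i) x = ∑ i, Algebra.trace k (A i) (x i) := by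
  classical
  rcases subsingleton_or_nontrivial k with hk | hk
  · exact Subsingleton.elim _ _
  let b : ∀ i, Basis (Free.ChooseBasisIndex k (A i)) k (A i) := fun i => Free.chooseBasis k (A i)
  rw [Algebra.trace_eq_matrix_trace (Pi.basis b), Matrix.trace, Fintype.sum_sigma]
  refine Finset.sum_congr rfl fun i _ => ?_
  rw [Algebra.trace_eq_matrix_trace (b i), Matrix.trace]
  refine Finset.sum_congr rfl fun j _ => ?_
  rw [Matrix.diag_apply, Matrix.diag_apply, Algebra.leftMulMatrix_eq_repr_mul,
    Algebra.leftMulMatrix_eq_repr_mul, Pi.basis_repr, Pi.basis_apply]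
  simp

/-- the trace form of a finite product of finite separable field extensions is left separating -/
theorem separatingLeft_pi {k : Type*} [Field k] {I : Type*} [Finite I]
    (A : I → Type*) [∀ i, Field (A i)] [∀ i, Algebra k (A i)] [∀ i, Module.Finite k (A i)]
    [∀ i, Algebra.IsSeparable k (A i)] (x : Π i, A i)
    (hx : ∀ y, Algebra.trace k (Π i, A i) (x * y) = 0) : x = 0 := by
  classical
  have := Fintype.ofFinite I
  funext i
  refine (traceForm_nondegenerate k (A i)).1 (x i) fun z => ?_
  have h := hx (Pi.single i z)
  rw [trace_pi, Finset.sum_eq_single i] at h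
  · simpa [Algebra.traceForm_apply] using h
  · intro j _ hj
    simp [Pi.single_eq_of_ne hj]
  · intro h'
    exact absurd (Finset.mem_univ i) h'

/-- the trace form of a finite unramified algebra over a field is left separating -/
theorem separatingLeft (k C : Type) [Field k] [CommRing C] [Algebra k C] [Module.Finite k C]
    [Algebra.FormallyUnramified k C] (x : C) (hx : ∀ y, Algebra.trace k C (x * y) = 0) : x = 0 := by
  have hE : Algebra.Etale k C :=
    { formallyEtale := Algebra.FormallyEtale.of_formallyUnramified_of_field k C
      finitePresentation := Algebra.FinitePresentation.of_finiteType.mp inferInstance }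
  obtain ⟨I, _, Ai, _, _, e, H⟩ := (Algebra.Etale.iff_exists_algEquiv_prod k C).mp hE
  have h1 : ∀ i, Module.Finite k (Ai i) := fun i => (H i).1
  have h2 : ∀ i, Algebra.IsSeparable k (Ai i) := fun i => (H i).2
  have h3 : e x = 0 := by
    refine separatingLeft_pi (k := k) Ai (e x) fun y => ?_
    have := hx (e.symm y)
    rw [← Algebra.trace_eq_of_algEquiv e, map_mul, AlgEquiv.apply_symm_apply] at this
    exact this
  exact (map_eq_zero_iff e e.injective).mp h3

end A1

theorem stmt_discrNeZero : Stmt_discrNeZero := by
  intro k C _ _ _ _ _ ι _ _ b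
  rw [Algebra.discr_def, Algebra.traceMatrix_of_basis,
    ← LinearMap.BilinForm.nondegenerate_iff_det_ne_zero]
  refine ⟨fun x hx => A1.separatingLeft k C x fun y => ?_,
    fun x hx => A1.separatingLeft k C x fun y => ?_⟩
  · simpa [Algebra.traceForm_apply] using hx y
  · have := hx y
    rw [Algebra.traceForm_apply, mul_comm] at this
    exact this

end Fermat.Agent.KL
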