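/-
KL-D3: the integral closure of a 2-dimensional regular local ring in a finite extension of its
fraction field (characteristic 0) is finite free.
-/
import Fermat.Agent.KL.Interface2
import Fermat.Agent.S28.QEPAlg

set_option autoImplicit false

namespace Fermat.Agent.KL

open Polynomial IsLocalRing

theorem stmt_freeIntegralClosure (h : Stmt_freeOfRegular) : Stmt_freeIntegralClosure := by
  intro R K L B _ _ _ _ _ _ _ _ _ _ _ _ _ _ _ _ _ _ _ ϖ τ hϖ hτ hmax
  have hsep : Algebra.IsSeparable K L := inferInstance
  have hfin : Module.Finite R B := IsIntegralClosure.finite R K L B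
  refine ⟨hfin, ?_⟩
  have hinjB : Function.Injective (algebraMap B L) := IsIntegralClosure.algebraMap_injective B R L
  have hinjR : Function.Injective (algebraMap R L) := by
    rw [IsScalarTower.algebraMap_eq R K L]
    exact (algebraMap K L).injective.comp (IsFractionRing.injective R K)
  have hfaith : FaithfulSMul R L := (faithfulSMul_iff_algebraMap_injective R L).2 hinjR
  have hϖL : algebraMap R L ϖ ≠ 0 := fun h0 => hϖ.ne_zero (hinjR (by rw [h0, map_zero]))
  have hsmul : ∀ (a : R) (x : B), algebraMap B L (a • x) = algebraMap R L a * algebraMap B L x := by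
    intro a x
    rw [Algebra.smul_def, map_mul, ← IsScalarTower.algebraMap_apply]
  apply h R B ϖ τ hmax
  · intro x hx
    apply hinjB
    have h1 := congrArg (algebraMap B L) hx
    rw [hsmul, map_zero] at h1
    rw [map_zero]
    exact (mul_eq_zero.1 h1).resolve_left hϖL
  · intro x y hxy
    have h1 := congrArg (algebraMap B L) hxy
    rw [hsmul, hsmul] at h1
    set z : L := algebraMap B L x / algebraMap R L ϖ with hz
    have hz1 : ϖ • z = algebraMap B L x := by
      rw [Algebra.smul_def, hz]
      field_simp
    have hz2 : τ • z = algebraMap B L y := by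
      rw [Algebra.smul_def, hz, mul_div_assoc', h1]
      field_simp
    have hint : IsIntegral R z := by
      apply Fermat.Agent.S28.QEP.isIntegral_of_smul_of_smul hϖ hτ
      · rw [hz1]; exact (IsIntegralClosure.isIntegral R L x).algebraMap
      · rw [hz2]; exact (IsIntegralClosure.isIntegral R L y).algebraMap
    refine ⟨IsIntegralClosure.mk' B z hint, ?_⟩
    apply hinjB
    rw [hsmul, IsIntegralClosure.algebraMap_mk', ← Algebra.smul_def, hz1]

end Fermat.Agent.KL
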