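import Fermat.Agent.KL.Interface2

/-!
# KL-D2 : a finite module over a noetherian local ring with `𝔪 = (ϖ, τ)` on which `ϖ, τ` is a
regular sequence is free.
-/

set_option autoImplicit false

namespace Fermat.Agent.KL

open IsLocalRing

namespace D2

variable {R M : Type} [CommRing R] [AddCommGroup M] [Module R M]

/-- a generating finset of minimal cardinality -/
theorem exists_min_gen [Module.Finite R M] :
    ∃ s : Finset M, Submodule.span R (s : Set M) = ⊤ ∧
      ∀ s' : Finset M, Submodule.span R (s' : Set M) = ⊤ → s.card ≤ s'.card := by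
  classical
  have hex : ∃ n : ℕ, ∃ s : Finset M, s.card = n ∧ Submodule.span R (s : Set M) = ⊤ := by
    obtain ⟨s, hs⟩ := (Module.Finite.fg_top : (⊤ : Submodule R M).FG)
    exact ⟨s.card, s, rfl, hs⟩
  obtain ⟨s, hs1, hs2⟩ := Nat.find_spec hex
  refine ⟨s, hs2, fun s' hs' => ?_⟩
  rw [hs1]
  exact Nat.find_min' hex ⟨s', rfl, hs'⟩

variable [IsLocalRing R]

/-- relations between minimal generators have coefficients in the maximal ideal -/
theorem coeff_mem (s : Finset M) (hs : Submodule.span R (s : Set M) = ⊤)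
    (hmin : ∀ s' : Finset M, Submodule.span R (s' : Set M) = ⊤ → s.card ≤ s'.card)
    (r : s → R) (hr : ∑ i, r i • (i : M) = 0) (i₀ : s) : r i₀ ∈ maximalIdeal R := by
  classical
  by_contra hu
  rw [IsLocalRing.notMem_maximalIdeal] at hu
  obtain ⟨u, hu⟩ := hu
  have hmem : (i₀ : M) ∈ Submodule.span R ((s.erase (i₀ : M) : Finset M) : Set M) := by
    have h1 : r i₀ • (i₀ : M) = - ∑ i ∈ Finset.univ.erase i₀, r i • (i : M) := by
      rw [← Finset.add_sum_erase _ _ (Finset.mem_univ i₀)] at hr
      exact eq_neg_of_add_eq_zero_left hr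
    have h2 : (i₀ : M) = (↑u⁻¹ : R) • (r i₀ • (i₀ : M)) := by
      rw [smul_smul, ← hu, Units.inv_mul, one_smul]
    have h3 : (↑u⁻¹ : R) • (- ∑ i ∈ Finset.univ.erase i₀, r i • (i : M))
        ∈ Submodule.span R ((s.erase (i₀ : M) : Finset M) : Set M) := ?_
    · rw [← h1, ← h2] at h3; exact h3
    refine Submodule.smul_mem _ _ (Submodule.neg_mem _ (Submodule.sum_mem _ fun i hi => ?_))
    refine Submodule.smul_mem _ _ (Submodule.subset_span ?_)
    rw [Finset.mem_coe, Finset.mem_erase]
    exact ⟨fun h => (Finset.mem_erase.1 hi).1 (Subtype.ext h), i.2⟩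
  have htop : Submodule.span R ((s.erase (i₀ : M) : Finset M) : Set M) = ⊤ := by
    rw [eq_top_iff, ← hs, Submodule.span_le]
    intro x hx
    by_cases hx0 : x = i₀
    · rw [hx0]; exact hmem
    · exact Submodule.subset_span (Finset.mem_coe.2 (Finset.mem_erase.2 ⟨hx0, hx⟩))
  have := hmin _ htop
  rw [Finset.card_erase_of_mem i₀.2] at this
  have hpos : 0 < s.card := Finset.card_pos.2 ⟨i₀, i₀.2⟩
  omega

/-- the core: the module of relations is zero -/
theorem ker_eq_bot [IsNoetherianRing R] {ι : Type} [Finite ι] (L : (ι → R) →ₗ[R] M)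
    (hL : Function.Surjective L) (hmin : ∀ r ∈ LinearMap.ker L, ∀ i, r i ∈ maximalIdeal R)
    (ϖ τ : R) (hm : maximalIdeal R = Ideal.span {ϖ, τ})
    (h1 : ∀ x : M, ϖ • x = 0 → x = 0) (h2 : ∀ x y : M, τ • x = ϖ • y → ∃ z : M, x = ϖ • z) :
    LinearMap.ker L = ⊥ := by
  apply Submodule.eq_bot_of_le_smul_of_le_jacobson_bot (maximalIdeal R) _
    (IsNoetherian.noetherian _) _ (IsLocalRing.maximalIdeal_le_jacobson _)
  intro r hr
  have hr' := hmin r hr
  simp only [hm, Ideal.mem_span_pair] at hr'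
  choose u w huw using hr'
  have hr0 : L r = 0 := hr
  have hdec : r = ϖ • u + τ • w := by
    funext i
    simp only [Pi.add_apply, Pi.smul_apply, smul_eq_mul]
    rw [← huw i]; ring
  have e1 : τ • L w = ϖ • (- L u) := by
    rw [hdec, map_add, map_smul, map_smul] at hr0
    rw [smul_neg]
    exact eq_neg_of_add_eq_zero_right hr0
  obtain ⟨z, hz⟩ := h2 _ _ e1
  obtain ⟨v, rfl⟩ := hL z
  have hw : w - ϖ • v ∈ LinearMap.ker L := by
    rw [LinearMap.mem_ker, map_sub, map_smul, hz, sub_self]
  have hu : u + τ • v ∈ LinearMap.ker L := by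
    rw [LinearMap.mem_ker]
    apply h1
    rw [map_add, map_smul, smul_add, smul_comm, ← hz, e1, smul_neg, add_neg_cancel]
  have hϖ : ϖ ∈ maximalIdeal R := by rw [hm]; exact Ideal.subset_span (by simp)
  have hτ : τ ∈ maximalIdeal R := by rw [hm]; exact Ideal.subset_span (by simp)
  have : r = ϖ • (u + τ • v) + τ • (w - ϖ • v) := by
    rw [hdec, smul_add, smul_sub, smul_comm τ ϖ v]; abel
  rw [this]
  exact Submodule.add_mem _ (Submodule.smul_mem_smul hϖ hu) (Submodule.smul_mem_smul hτ hw)

end D2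

theorem stmt_freeOfRegular : Stmt_freeOfRegular := by
  intro R M _ _ _ _ _ _ ϖ τ hm h1 h2
  obtain ⟨s, hs, hmin⟩ := D2.exists_min_gen (R := R) (M := M)
  let L : (s → R) →ₗ[R] M := Fintype.linearCombination R (fun i : s => (i : M))
  have hLs : Function.Surjective L := by
    rw [← LinearMap.range_eq_top, Fintype.range_linearCombination, Subtype.range_coe_subtype]
    exact hs
  have hker : LinearMap.ker L = ⊥ := by
    refine D2.ker_eq_bot L hLs (fun r hr i => ?_) ϖ τ hm h1 h2
    refine D2.coeff_mem s hs hmin r ?_ i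
    have : L r = 0 := hr
    rwa [Fintype.linearCombination_apply] at this
  exact Module.Free.of_equiv (LinearEquiv.ofBijective L ⟨LinearMap.ker_eq_bot.1 hker, hLs⟩)

end Fermat.Agent.KL
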