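import Fermat.Agent.KL.Interface2

/-!
KL-GD: going down for height one primes in a Galois situation, and descent of `LocIrred`.
-/

set_option autoImplicit false
set_option linter.unusedSectionVars false

namespace Fermat.Agent.KL

open Pointwise

namespace GD

section

variable {B B' G : Type} [CommRing B] [IsDomain B] [CommRing B'] [IsDomain B'] [Algebra B B']
  [FaithfulSMul B B'] [Algebra.IsIntegral B B'] [Group G] [Finite G] [MulSemiringAction G B']
  [SMulCommClass G B B'] [Algebra.IsInvariant B B' G]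

theorem mem_minimalPrimes_iff {R : Type} [CommRing R] {I p : Ideal R} :
    p ∈ I.minimalPrimes ↔ (p.IsPrime ∧ I ≤ p) ∧ ∀ r : Ideal R, r.IsPrime → I ≤ r → r ≤ p → p ≤ r := by
  constructor
  · intro h
    exact ⟨h.1, fun r hr hI hrp => h.2 ⟨hr, hI⟩ hrp⟩
  · intro h
    exact ⟨h.1, fun r hr hrp => h.2 r hr.1 hr.2 hrp⟩

/-- the Galois group permutes the minimal primes over an element of the base ring -/
theorem smul_mem_minimalPrimes (ϖ : B) (g : G) {p : Ideal B'}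
    (hp : p ∈ (Ideal.span {algebraMap B B' ϖ}).minimalPrimes) :
    g • p ∈ (Ideal.span {algebraMap B B' ϖ}).minimalPrimes := by
  rw [mem_minimalPrimes_iff] at hp ⊢
  obtain ⟨⟨hp1, hp2⟩, hp3⟩ := hp
  rw [Ideal.span_singleton_le_iff_mem] at hp2
  refine ⟨⟨Ideal.IsPrime.smul g, ?_⟩, ?_⟩
  · rw [Ideal.span_singleton_le_iff_mem, Ideal.mem_pointwise_smul_iff_inv_smul_mem,
      smul_algebraMap]
    exact hp2
  · intro r hr hI hrp
    rw [Ideal.span_singleton_le_iff_mem] at hI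
    have h1 : p ≤ g⁻¹ • r := by
      refine hp3 (g⁻¹ • r) (Ideal.IsPrime.smul g⁻¹) ?_ ?_
      · rw [Ideal.span_singleton_le_iff_mem, Ideal.mem_pointwise_smul_iff_inv_smul_mem,
          smul_algebraMap]
        exact hI
      · rw [← Ideal.pointwise_smul_le_pointwise_smul_iff (a := g), smul_inv_smul]
        exact hrp
    rw [← Ideal.pointwise_smul_le_pointwise_smul_iff (a := g), smul_inv_smul] at h1
    exact h1

/-- a minimal prime over `ϖ` in `B` is the contraction of a minimal prime over `ϖ` in `B'` -/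
theorem exists_minimalPrimes_over (ϖ : B) {P : Ideal B}
    (hP : P ∈ (Ideal.span {ϖ}).minimalPrimes) :
    ∃ P' ∈ (Ideal.span {algebraMap B B' ϖ}).minimalPrimes, P'.under B = P := by
  rw [mem_minimalPrimes_iff] at hP
  obtain ⟨⟨hP1, hP2⟩, hP3⟩ := hP
  rw [Ideal.span_singleton_le_iff_mem] at hP2
  obtain ⟨P₁, -, hP₁, hP₁P⟩ := Ideal.exists_ideal_over_prime_of_isIntegral P (⊥ : Ideal B') (by
    rw [Ideal.comap_bot_of_injective _ (FaithfulSMul.algebraMap_injective B B')]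
    exact bot_le)
  have hmem : algebraMap B B' ϖ ∈ P₁ := by
    rw [← Ideal.mem_comap, hP₁P]
    exact hP2
  obtain ⟨P', hP', hP'le⟩ := Ideal.exists_minimalPrimes_le (I := Ideal.span {algebraMap B B' ϖ})
    (J := P₁) ((Ideal.span_singleton_le_iff_mem _).2 hmem)
  refine ⟨P', hP', ?_⟩
  have hP'1 := hP'.1
  have hprime : P'.IsPrime := hP'1.1
  have hle : P'.under B ≤ P := by
    rw [← hP₁P]
    exact Ideal.comap_mono hP'le
  refine le_antisymm hle (hP3 _ (Ideal.IsPrime.under B P') ?_ hle)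
  rw [Ideal.span_singleton_le_iff_mem, Ideal.under_def, Ideal.mem_comap]
  exact (Ideal.span_singleton_le_iff_mem _).1 hP'1.2

end

end GD

theorem stmt_galoisGoingDown : Stmt_galoisGoingDown := by
  intro B B' G _ _ _ _ _ _ _ _ _ _ _ _ 𝔓' h𝔓'
  obtain ⟨hprime, hne, hmin⟩ := h𝔓'
  refine ⟨Ideal.IsPrime.under B 𝔓', ?_, ?_⟩
  · intro h
    exact hne (Ideal.eq_bot_of_comap_eq_bot h)
  · intro 𝔮 h𝔮 hle
    by_cases h0 : 𝔮 = ⊥
    · exact Or.inl h0
    right
    obtain ⟨𝔮', -, h𝔮', h𝔮'𝔮⟩ := Ideal.exists_ideal_over_prime_of_isIntegral 𝔮 (⊥ : Ideal B') (by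
      rw [Ideal.comap_bot_of_injective _ (FaithfulSMul.algebraMap_injective B B')]
      exact bot_le)
    have : (𝔓'.under B).IsPrime := Ideal.IsPrime.under B 𝔓'
    obtain ⟨P'', hP''ge, hP'', hP''P⟩ := Ideal.exists_ideal_over_prime_of_isIntegral_of_isPrime
      (𝔓'.under B) 𝔮' (by rw [h𝔮'𝔮]; exact hle)
    obtain ⟨g, hg⟩ := Algebra.IsInvariant.exists_smul_of_under_eq B B' G P'' 𝔓' hP''P
    have h1 : g • 𝔮' ≤ 𝔓' := by
      rw [hg, Ideal.pointwise_smul_le_pointwise_smul_iff]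
      exact hP''ge
    have h2 : (g • 𝔮').under B = 𝔮 := by
      rw [Ideal.under_smul]
      exact h𝔮'𝔮
    rcases hmin (g • 𝔮') (Ideal.IsPrime.smul g) h1 with h | h
    · exfalso
      apply h0
      rw [← h2, h, Ideal.under_def,
        Ideal.comap_bot_of_injective _ (FaithfulSMul.algebraMap_injective B B')]
    · rw [← h2, h]

theorem stmt_locIrredDescent : Stmt_locIrredDescent := by
  intro B B' G _ _ _ _ _ _ _ _ _ _ _ _ ϖ 𝔫 h𝔫 hloc P Q hP hQ hP𝔫 hQ𝔫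
  obtain ⟨P', hP', hP'P⟩ := GD.exists_minimalPrimes_over (B' := B') ϖ hP
  obtain ⟨Q', hQ', hQ'Q⟩ := GD.exists_minimalPrimes_over (B' := B') ϖ hQ
  have hP'prime : P'.IsPrime := hP'.1.1
  have hQ'prime : Q'.IsPrime := hQ'.1.1
  obtain ⟨𝔫', h𝔫'ge, h𝔫', h𝔫'𝔫⟩ := Ideal.exists_ideal_over_prime_of_isIntegral_of_isPrime
    𝔫 P' (by rw [← Ideal.under_def, hP'P]; exact hP𝔫)
  obtain ⟨𝔫'', h𝔫''ge, h𝔫'', h𝔫''𝔫⟩ := Ideal.exists_ideal_over_prime_of_isIntegral_of_isPrime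
    𝔫 Q' (by rw [← Ideal.under_def, hQ'Q]; exact hQ𝔫)
  obtain ⟨g, hg⟩ := Algebra.IsInvariant.exists_smul_of_under_eq B B' G 𝔫'' 𝔫'
    (h𝔫''𝔫.trans h𝔫'𝔫.symm)
  have h1 : g • Q' ≤ 𝔫' := by
    rw [hg, Ideal.pointwise_smul_le_pointwise_smul_iff]
    exact h𝔫''ge
  have h2 := hloc 𝔫' h𝔫' h𝔫'𝔫 P' (g • Q') hP' (GD.smul_mem_minimalPrimes ϖ g hQ') h𝔫'ge h1
  rw [← hP'P, h2, Ideal.under_smul, hQ'Q]

end Fermat.Agent.KL

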