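/-
KL ("Claim K"): G1b (gluing the idempotents on two charts) and G7 (transfer of `LocIrred`).
-/
import Fermat.Agent.KL.Interface2

set_option autoImplicit false

namespace Fermat.Agent.KL

namespace G1b

/-! ### minimal primes and localisation away from an element -/

section Loc

variable {B BB : Type} [CommRing B] [CommRing BB] [Algebra B BB] (t : B)
  [IsLocalization.Away t BB]

include t in
/-- contraction of a minimal prime over `I BB` is a minimal prime over `I`. -/
theorem under_mem_minimalPrimes (I : Ideal B) {PP : Ideal BB}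
    (h : PP ∈ (I.map (algebraMap B BB)).minimalPrimes) : PP.under B ∈ I.minimalPrimes := by
  rw [IsLocalization.minimalPrimes_map (Submonoid.powers t) BB I] at h
  exact h

theorem under_map_of_notMem {P : Ideal B} (hP : P.IsPrime) (ht : t ∉ P) :
    (P.map (algebraMap B BB)).under B = P :=
  IsLocalization.under_map_of_isPrime_disjoint (Submonoid.powers t) BB hP
    ((Ideal.disjoint_powers_iff_notMem_of_isPrime t).mpr ht)

theorem isPrime_map_of_notMem {P : Ideal B} (hP : P.IsPrime) (ht : t ∉ P) :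
    (P.map (algebraMap B BB)).IsPrime :=
  IsLocalization.isPrime_of_isPrime_disjoint (Submonoid.powers t) BB P hP
    ((Ideal.disjoint_powers_iff_notMem_of_isPrime t).mpr ht)

/-- extension of a minimal prime over `I` not containing `t` is a minimal prime over `I BB`. -/
theorem map_mem_minimalPrimes (I : Ideal B) {P : Ideal B} (h : P ∈ I.minimalPrimes)
    (ht : t ∉ P) : P.map (algebraMap B BB) ∈ (I.map (algebraMap B BB)).minimalPrimes := by
  rw [IsLocalization.minimalPrimes_map (Submonoid.powers t) BB I]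
  show (P.map (algebraMap B BB)).under B ∈ I.minimalPrimes
  rw [under_map_of_notMem t h.1.1 ht]
  exact h

include t in
/-- ideals of the localisation are determined by their contractions. -/
theorem eq_of_under_eq {PP QQ : Ideal BB} (h : PP.under B = QQ.under B) : PP = QQ := by
  rw [← IsLocalization.map_under (Submonoid.powers t) BB PP,
    ← IsLocalization.map_under (Submonoid.powers t) BB QQ, h]

end Loc

/-! ### idempotents with nilpotent difference -/

theorem eq_zero_of_cube_eq {R : Type*} [CommRing R] (x : R) (h : x ^ 3 = x) (N : ℕ)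
    (hN : x ^ N = 0) : x = 0 := by
  have key : ∀ k : ℕ, x ^ (1 + 2 * k) = x := by
    intro k
    induction k with
    | zero => simp
    | succ k ih =>
      calc x ^ (1 + 2 * (k + 1)) = x ^ (1 + 2 * k) * x ^ 2 := by ring
        _ = x * x ^ 2 := by rw [ih]
        _ = x ^ 3 := by ring
        _ = x := h
  rw [← key N]
  calc x ^ (1 + 2 * N) = x ^ N * x ^ (1 + N) := by ring
    _ = 0 := by rw [hN, zero_mul]

/-- two elements which are idempotent modulo `J` and whose difference is nilpotent modulo `J` are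
congruent modulo `J`. -/
theorem sub_mem_of_idempotent {R : Type*} [CommRing R] (J : Ideal R) (α β : R)
    (hα : α * α - α ∈ J) (hβ : β * β - β ∈ J) (N : ℕ) (hN : (α - β) ^ N ∈ J) : α - β ∈ J := by
  rw [← Ideal.Quotient.eq_zero_iff_mem] at hN ⊢
  rw [map_pow] at hN
  refine eq_zero_of_cube_eq _ ?_ N hN
  rw [← map_pow, ← sub_eq_zero, ← map_sub, Ideal.Quotient.eq_zero_iff_mem]
  have : (α - β) ^ 3 - (α - β)
      = (α * α - α) * (1 + α - 3 * β) + (β * β - β) * (3 * α - 1 - β) := by ring
  rw [this]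
  exact J.add_mem (J.mul_mem_right _ hα) (J.mul_mem_right _ hβ)

end G1b

open G1b in
/-- G1b. -/
theorem stmt_glue (h : Stmt_idempotentLift) : Stmt_glue := by
  intro B₁ B₂ BB _ _ _ _ _ _ _ t s _ _ ϖ₁ ϖ₂ hϖ h₁ h₂ ht _hs P hP Q hQ hPQ n
  obtain ⟨a, ha, haP, haP'⟩ := h B₁ ϖ₁ h₁ P hP n
  set π : BB := algebraMap B₁ BB ϖ₁ with hπ
  have hmap₁ : (Ideal.span {ϖ₁}).map (algebraMap B₁ BB) = Ideal.span {π} := by
    rw [Ideal.map_span, Set.image_singleton]
  have hmap₂ : (Ideal.span {ϖ₂}).map (algebraMap B₂ BB) = Ideal.span {π} := by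
    rw [Ideal.map_span, Set.image_singleton, ← hϖ]
  set PP : Ideal BB := P.map (algebraMap B₁ BB) with hPP
  have hPPmin : PP ∈ (Ideal.span {π}).minimalPrimes := by
    rw [← hmap₁]
    exact map_mem_minimalPrimes t _ hP (ht P hP)
  have hPPunder : PP.under B₁ = P := under_map_of_notMem t hP.1.1 (ht P hP)
  have hP₂ : PP.under B₂ ∈ (Ideal.span {ϖ₂}).minimalPrimes :=
    under_mem_minimalPrimes s _ (by rw [hmap₂]; exact hPPmin)
  obtain ⟨b, hb, hbP, hbP'⟩ := h B₂ ϖ₂ h₂ (PP.under B₂) hP₂ n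
  refine ⟨a, b, haP, haP' Q hQ (Ne.symm hPQ), ?_⟩
  set α : BB := algebraMap B₁ BB a with hα
  set β : BB := algebraMap B₂ BB b with hβ
  -- the difference lies in all minimal primes
  have hrad : α - β ∈ (Ideal.span {π}).radical := by
    rw [← Ideal.sInf_minimalPrimes, Ideal.mem_sInf]
    intro PP' hPP'
    by_cases hcase : PP' = PP
    · rw [hcase]
      exact PP.sub_mem (Ideal.mem_map_of_mem _ haP) hbP
    · have h1 : a - 1 ∈ PP'.under B₁ := by
        refine haP' _ (under_mem_minimalPrimes t _ (by rw [hmap₁]; exact hPP')) fun heq => ?_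
        exact hcase (eq_of_under_eq t (heq.trans hPPunder.symm))
      have h2 : b - 1 ∈ PP'.under B₂ := by
        refine hbP' _ (under_mem_minimalPrimes s _ (by rw [hmap₂]; exact hPP')) fun heq => ?_
        exact hcase (eq_of_under_eq s heq)
      have h1' : α - 1 ∈ PP' := by
        have : algebraMap B₁ BB (a - 1) ∈ PP' := h1
        rwa [map_sub, map_one] at this
      have h2' : β - 1 ∈ PP' := by
        have : algebraMap B₂ BB (b - 1) ∈ PP' := h2
        rwa [map_sub, map_one] at this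
      have := PP'.sub_mem h1' h2'
      rwa [sub_sub_sub_cancel_right] at this
  obtain ⟨m, hm⟩ := hrad
  rw [← Ideal.mem_span_singleton]
  refine sub_mem_of_idempotent _ α β ?_ ?_ (m * n) ?_
  · rw [Ideal.mem_span_singleton]
    have := map_dvd (algebraMap B₁ BB) ha
    rwa [map_pow, map_sub, map_mul] at this
  · rw [Ideal.mem_span_singleton]
    have := map_dvd (algebraMap B₂ BB) hb
    rwa [map_pow, map_sub, map_mul, ← hϖ] at this
  · rw [Ideal.mem_span_singleton] at hm ⊢
    rw [pow_mul]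
    exact pow_dvd_pow_of_dvd hm n

open G1b in
/-- G7. -/
theorem stmt_locIrredTransfer : Stmt_locIrredTransfer := by
  intro B₁ B₂ BB _ _ _ _ _ t s _ _ ϖ₁ ϖ₂ hϖ h₁ 𝔫 h𝔫 hs P' Q' hP' hQ' hP'𝔫 hQ'𝔫
  set π : BB := algebraMap B₁ BB ϖ₁ with hπ
  have hmap₁ : (Ideal.span {ϖ₁}).map (algebraMap B₁ BB) = Ideal.span {π} := by
    rw [Ideal.map_span, Set.image_singleton]
  have hmap₂ : (Ideal.span {ϖ₂}).map (algebraMap B₂ BB) = Ideal.span {π} := by
    rw [Ideal.map_span, Set.image_singleton, ← hϖ]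
  have hsP' : s ∉ P' := fun h => hs (hP'𝔫 h)
  have hsQ' : s ∉ Q' := fun h => hs (hQ'𝔫 h)
  have hNN : (𝔫.map (algebraMap B₂ BB)).IsPrime := isPrime_map_of_notMem s h𝔫 hs
  have hN₁ : ((𝔫.map (algebraMap B₂ BB)).under B₁).IsPrime := Ideal.IsPrime.under B₁ _
  obtain ⟨𝔪, h𝔪, hle⟩ := Ideal.exists_le_maximal _ hN₁.ne_top
  have hPmin : (P'.map (algebraMap B₂ BB)).under B₁ ∈ (Ideal.span {ϖ₁}).minimalPrimes :=
    under_mem_minimalPrimes t _ (by
      rw [hmap₁, ← hmap₂]; exact map_mem_minimalPrimes s _ hP' hsP')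
  have hQmin : (Q'.map (algebraMap B₂ BB)).under B₁ ∈ (Ideal.span {ϖ₁}).minimalPrimes :=
    under_mem_minimalPrimes t _ (by
      rw [hmap₁, ← hmap₂]; exact map_mem_minimalPrimes s _ hQ' hsQ')
  have heq := h₁ 𝔪 h𝔪 _ _ hPmin hQmin
    ((Ideal.comap_mono (Ideal.map_mono hP'𝔫)).trans hle)
    ((Ideal.comap_mono (Ideal.map_mono hQ'𝔫)).trans hle)
  have heq' : P'.map (algebraMap B₂ BB) = Q'.map (algebraMap B₂ BB) := eq_of_under_eq t heq
  rw [← under_map_of_notMem (BB := BB) s hP'.1.1 hsP', heq',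
    under_map_of_notMem (BB := BB) s hQ'.1.1 hsQ']

end Fermat.Agent.KL
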