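import Fermat.Agent.KL.HauptTrunc

/-!
# KL / Hauptmodul package, part 4: the four identities between `E₄(q)`, `E₄(q^M)`, `Δ(q)`, `Δ(q^M)`
(`M = 2, 3`) as identities of formal power series over `ℤ`.
-/

set_option autoImplicit false

open PowerSeries ModularCurve UpperHalfPlane ModularForm Matrix.SpecialLinearGroup
open scoped MatrixGroups ModularForm

namespace Fermat.Agent.KL.Haupt

noncomputable section

/-- `Δ` as a level one modular form. -/
def DeltaMF : ModularForm 𝒮ℒ 12 := (S20.isCF_discriminant.isMF).toLevelOne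

theorem qExpansion_DeltaMF : qExpansion 1 DeltaMF = toC Ds := Common.qExpansion_discriminant

theorem hasQ_Delta (N : ℕ) : HasQ N 12 DeltaMF Ds := hasQ_of_levelOne DeltaMF qExpansion_DeltaMF

theorem hasQ_Delta_low (N : ℕ) [NeZero N] :
    HasQ N 12 (lowFun 12 N DeltaMF) (expand N (NeZero.ne N) Ds) :=
  hasQ_lowFun DeltaMF qExpansion_DeltaMF

theorem dedekindPsi_two : dedekindPsi 2 = 3 := by
  have h : Nat.divisors 2 = {1, 2} := by decide
  rw [dedekindPsi, h, Finset.sum_filter, Finset.sum_pair (by norm_num)]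
  simp [Nat.squarefree_two]

theorem dedekindPsi_three : dedekindPsi 3 = 4 := by
  have h : Nat.divisors 3 = {1, 3} := by decide
  rw [dedekindPsi, h, Finset.sum_filter, Finset.sum_pair (by norm_num)]
  simp [Nat.prime_three.squarefree]

/-- `E₄(q^2)` -/
abbrev E42 : PowerSeries ℤ := expand 2 two_ne_zero eisenstein4
/-- `E₄(q^3)` -/
abbrev E43 : PowerSeries ℤ := expand 3 three_ne_zero eisenstein4
/-- `Δ(q^2)` -/
abbrev Ds2 : PowerSeries ℤ := expand 2 two_ne_zero Ds
/-- `Δ(q^3)` -/
abbrev Ds3 : PowerSeries ℤ := expand 3 three_ne_zero Ds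

theorem id2a : 54000 * Ds = (eisenstein4 - E42) * (16 * E42 - eisenstein4) ^ 2 := by
  have hA : HasQ 2 4 _ (eisenstein4 - E42) := (hasQ_E4 (N := 2)).sub hasQ_E4_low
  have hB : HasQ 2 4 _ (((16 : ℤ) : PowerSeries ℤ) * E42 - eisenstein4) :=
    (hasQ_E4_low.intSmul 16).sub (hasQ_E4 (N := 2))
  have hG := ((hasQ_Delta 2).intSmul 54000).sub
    (hA.mul (hB.mul hB (k := 8) (by norm_num)) (k := 12) (by norm_num))
  have h0 := hG.eq_zero (by
    intro n hn
    rw [dedekindPsi_two] at hn
    have hn' : n < 6 := lt_of_le_of_lt hn (by decide)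
    have := (mk6_eq_zero_iff _).1 mk6_id2a n hn'
    rw [← this]
    congr 1
    push_cast
    ring)
  push_cast at h0
  linear_combination h0

theorem id2b : 864000 * Ds2 = (eisenstein4 - E42) ^ 2 * (16 * E42 - eisenstein4) := by
  have hA : HasQ 2 4 _ (eisenstein4 - E42) := (hasQ_E4 (N := 2)).sub hasQ_E4_low
  have hB : HasQ 2 4 _ (((16 : ℤ) : PowerSeries ℤ) * E42 - eisenstein4) :=
    (hasQ_E4_low.intSmul 16).sub (hasQ_E4 (N := 2))
  have hG := ((hasQ_Delta_low 2).intSmul 864000).sub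
    (hA.mul (hA.mul hB (k := 8) (by norm_num)) (k := 12) (by norm_num))
  have h0 := hG.eq_zero (by
    intro n hn
    rw [dedekindPsi_two] at hn
    have hn' : n < 6 := lt_of_le_of_lt hn (by decide)
    have := (mk6_eq_zero_iff _).1 mk6_id2b n hn'
    rw [← this]
    congr 1
    push_cast
    ring)
  push_cast at h0
  linear_combination h0

theorem id3a : 12288000 * ((eisenstein4 + 9 * E43) * Ds)
    = (eisenstein4 - E43) * (81 * E43 - eisenstein4) ^ 3 := by
  have hA : HasQ 3 4 _ (eisenstein4 - E43) := (hasQ_E4 (N := 3)).sub hasQ_E4_low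
  have hB : HasQ 3 4 _ (((81 : ℤ) : PowerSeries ℤ) * E43 - eisenstein4) :=
    (hasQ_E4_low.intSmul 81).sub (hasQ_E4 (N := 3))
  have hC : HasQ 3 4 _ (eisenstein4 + ((9 : ℤ) : PowerSeries ℤ) * E43) :=
    (hasQ_E4 (N := 3)).add (hasQ_E4_low.intSmul 9)
  have hG := ((hC.mul (hasQ_Delta 3) (k := 16) (by norm_num)).intSmul 12288000).sub
    (hA.mul (hB.mul (hB.mul hB (k := 8) (by norm_num)) (k := 12) (by norm_num))
      (k := 16) (by norm_num))
  have h0 := hG.eq_zero (by
    intro n hn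
    rw [dedekindPsi_three] at hn
    have hn' : n < 6 := lt_of_le_of_lt hn (by decide)
    have := (mk6_eq_zero_iff _).1 mk6_id3a n hn'
    rw [← this]
    congr 1
    push_cast
    ring)
  push_cast at h0
  linear_combination h0

theorem id3b : 110592000 * ((eisenstein4 + 9 * E43) * Ds3)
    = (eisenstein4 - E43) ^ 3 * (81 * E43 - eisenstein4) := by
  have hA : HasQ 3 4 _ (eisenstein4 - E43) := (hasQ_E4 (N := 3)).sub hasQ_E4_low
  have hB : HasQ 3 4 _ (((81 : ℤ) : PowerSeries ℤ) * E43 - eisenstein4) :=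
    (hasQ_E4_low.intSmul 81).sub (hasQ_E4 (N := 3))
  have hC : HasQ 3 4 _ (eisenstein4 + ((9 : ℤ) : PowerSeries ℤ) * E43) :=
    (hasQ_E4 (N := 3)).add (hasQ_E4_low.intSmul 9)
  have hG := ((hC.mul (hasQ_Delta_low 3) (k := 16) (by norm_num)).intSmul 110592000).sub
    (hA.mul (hA.mul (hA.mul hB (k := 8) (by norm_num)) (k := 12) (by norm_num))
      (k := 16) (by norm_num))
  have h0 := hG.eq_zero (by
    intro n hn
    rw [dedekindPsi_three] at hn
    have hn' : n < 6 := lt_of_le_of_lt hn (by decide)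
    have := (mk6_eq_zero_iff _).1 mk6_id3b n hn'
    rw [← this]
    congr 1
    push_cast
    ring)
  push_cast at h0
  linear_combination h0

end

end Fermat.Agent.KL.Haupt
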