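import Fermat.Agent.S20.Basic
import Fermat.Agent.QInt.Theta

/-!
# KL / Hauptmodul package, part 1: level raising `F(z) ↦ N^(k-1) F(N z)` of level one forms
-/

set_option autoImplicit false

open UpperHalfPlane ModularForm CongruenceSubgroup Matrix.SpecialLinearGroup
open scoped MatrixGroups ModularForm Manifold

namespace Fermat.Agent.KL.Haupt

noncomputable section

open Fermat.Agent.QInt.Theta

/-- The function `N^(k-1) F(N z)`. -/
def raiseFun (k : ℤ) (N : ℕ) (F : ℍ → ℂ) : ℍ → ℂ := F ∣[k] heckeDiagMatrix N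

lemma raiseFun_slash_of_mem_Gamma0 {k : ℤ} (F : ModularForm 𝒮ℒ k) {N : ℕ} (hN : N ≠ 0)
    (γ : SL(2,ℤ)) (hγ : γ ∈ Gamma0 N) :
    raiseFun k N F ∣[k] (mapGL ℝ γ) = raiseFun k N F := by
  obtain ⟨γ', h⟩ := exists_conj_of_mem_Gamma0 hN γ hγ
  have h1 : ⇑F ∣[k] (mapGL ℝ γ') = ⇑F := SlashInvariantFormClass.slash_action_eq F _ ⟨γ', rfl⟩
  rw [raiseFun, ← SlashAction.slash_mul, h, SlashAction.slash_mul, h1]

/-- `N^(k-1) F(N z)` as a modular form of weight `k` on `Γ₀(N)`. -/
def raise (N : ℕ) [NeZero N] {k : ℤ} (F : ModularForm 𝒮ℒ k) :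
    ModularForm ((Gamma0 N).map (mapGL ℝ)) k where
  toFun := raiseFun k N F
  slash_action_eq' := by
    rintro _ ⟨γ, hγ, rfl⟩
    exact raiseFun_slash_of_mem_Gamma0 F (NeZero.ne N) γ hγ
  holo' := (ModularFormClass.holo F).slash k _
  bdd_at_cusps' {c} hc := by
    rw [Subgroup.IsArithmetic.isCusp_iff_isCusp_SL2Z] at hc
    obtain ⟨g, hg⟩ :=
      P2MW.S_ModularFormClass_isBoundedAt_heckeT.ModularForm.S06W2.exists_heckeDiagMatrix_eq_map N
    show c.IsBoundedAt (⇑F ∣[k] heckeDiagMatrix N) k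
    rw [hg]
    exact P2MW.S_ModularFormClass_isBoundedAt_heckeT.ModularForm.S06W2.isBoundedAt_slash_ratCast
      F g hc

@[simp] lemma coe_raise (N : ℕ) [NeZero N] {k : ℤ} (F : ModularForm 𝒮ℒ k) :
    ⇑(raise N F) = raiseFun k N F := rfl

lemma raise_coeff (N : ℕ) [NeZero N] {k : ℤ} (F : ModularForm 𝒮ℒ k) (n : ℕ) :
    (qExpansion 1 (raiseFun k N F)).coeff n =
      if N ∣ n then (N : ℂ) ^ (k - 1) * (qExpansion 1 F).coeff (n / N) else 0 := by
  have hN : N ≠ 0 := NeZero.ne N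
  have hT := ModularFormClass.qCoeff_heckeT F one_mem_strictPeriods_SL hN n
  have hU := ModularFormClass.qCoeff_heckeU F one_mem_strictPeriods_SL hN n
  have hper : Function.Periodic (⇑F ∘ UpperHalfPlane.ofComplex) 1 :=
    SlashInvariantFormClass.periodic_comp_ofComplex F one_mem_strictPeriods_SL
  have hUan : AnalyticAt ℂ (cuspFunction 1 (heckeU k N ⇑F)) 0 :=
    analyticAt_cuspFunction_zero one_pos (periodic_heckeU_comp_ofComplex hper k N)
      (mdifferentiable_heckeU (ModularFormClass.holo F) k N)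
      (isBoundedAtImInfty_heckeU (ModularFormClass.bdd_at_infty F) k N)
  have hθan : AnalyticAt ℂ (cuspFunction 1 (raiseFun k N F)) 0 :=
    ModularFormClass.analyticAt_cuspFunction_zero (raise N F) one_pos
      (one_mem_strictPeriods_Gamma0 N)
  have hadd : qExpansion 1 (heckeT k N ⇑F) =
      qExpansion 1 (heckeU k N ⇑F) + qExpansion 1 (raiseFun k N F) := by
    rw [heckeT_eq_heckeU_add]
    exact qExpansion_add hUan hθan
  have := congrArg (fun p => PowerSeries.coeff n p) hadd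
  simp only [map_add] at this
  simp only [ModularFormClass.qCoeff] at hT hU
  rw [hT, hU, coeffHeckeT_eq_coeffHeckeU_add] at this
  have h2 := add_left_cancel this
  rw [← h2]
  simp [ModularFormClass.qCoeff]

theorem isMF_raise (N : ℕ) [NeZero N] {k : ℤ} (F : ModularForm 𝒮ℒ k) :
    S20.IsMF (Gamma0 N) k (raiseFun k N F) :=
  S20.isMF_coe (raise N F)

/-- analyticity of the cusp function of a form on `Γ₀(N)`. -/
theorem analyticAt_of_isMF {N : ℕ} [NeZero N] {k : ℤ} {f : ℍ → ℂ} (hf : S20.IsMF (Gamma0 N) k f) :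
    AnalyticAt ℂ (cuspFunction 1 f) 0 :=
  ModularFormClass.analyticAt_cuspFunction_zero hf.toModularForm one_pos
    (one_mem_strictPeriods_Gamma0 N)

end

end Fermat.Agent.KL.Haupt
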