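import Fermat.Agent.KL.HauptId
import Fermat.Prelude.Def_ModularCurve_X0ModL

/-!
# KL / Hauptmodul package, part 5: the Hauptmoduln `x₂`, `x₃` of `X₀(2)`, `X₀(3)` as formal
Laurent series with integral coefficients, and the formulas for `j(q)`, `j(q^M)`.

* `xq2 R = 1/q + ⋯` : `j (x - 64)^2 = (x + 192)^3`, `j(q^2) (x - 64) = (x - 48)^3`
* `xq3 R = 1/q + ⋯` : `j (x - 27)^3 = x (x + 216)^3`, `j(q^3) (x - 27) = x (x - 24)^3`
-/

set_option autoImplicit false

open PowerSeries ModularCurve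

namespace Fermat.Agent.KL.Haupt

noncomputable section

/-- `∑ σ₃(n+1) q^n`. -/
def S3u : PowerSeries ℤ := mk fun n => ∑ d ∈ (n + 1).divisors, (d : ℤ) ^ 3

/-- `∑ σ₃(n) q^n`. -/
def S3 : PowerSeries ℤ := X * S3u

theorem constantCoeff_S3u : constantCoeff S3u = 1 := by
  rw [← coeff_zero_eq_constantCoeff_apply, S3u, coeff_mk]
  decide

theorem eisenstein4_eq : eisenstein4 = 1 + 240 * S3 := by
  have h240 : (240 : PowerSeries ℤ) = C 240 := by simp
  ext n
  rw [coeff_eisenstein4, map_add, h240, coeff_C_mul, S3]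
  rcases n with _ | n
  · simp
  · rw [coeff_succ_X_mul, S3u, coeff_mk, coeff_one]
    simp

/-- `b_M = ∑ (σ₃(n) - σ₃(n/M)) q^n = (E₄(q) - E₄(q^M)) / 240`. -/
def bS (M : ℕ) [NeZero M] : PowerSeries ℤ := S3 - expand M (NeZero.ne M) S3

/-- `b_M / q`. -/
def bU (M : ℕ) [NeZero M] : PowerSeries ℤ := S3u - X ^ (M - 1) * expand M (NeZero.ne M) S3u

theorem bS_eq (M : ℕ) [NeZero M] : bS M = X * bU M := by
  have hM : M = (M - 1) + 1 := (Nat.succ_pred_eq_of_pos (Nat.pos_of_ne_zero (NeZero.ne M))).symm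
  rw [bS, bU, S3, map_mul, expand_X, mul_sub, ← mul_assoc, ← pow_succ', ← hM]

theorem constantCoeff_bU (M : ℕ) [NeZero M] (hM : 2 ≤ M) : constantCoeff (bU M) = 1 := by
  rw [bU, map_sub, map_mul, map_pow, constantCoeff_X, zero_pow (by omega), zero_mul, sub_zero,
    constantCoeff_S3u]

/-- `q / b_M`. -/
def bUinv (M : ℕ) [NeZero M] : PowerSeries ℤ := (bU M).invOfUnit 1

theorem bU_mul_inv (M : ℕ) [NeZero M] (hM : 2 ≤ M) : bU M * bUinv M = 1 :=
  mul_invOfUnit _ _ (by rw [constantCoeff_bU M hM]; rfl)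

/-- `a₂ = (E₄(q) + 4 E₄(q^2)) / 5`. -/
def a2 : PowerSeries ℤ := 1 + 48 * (S3 + 4 * expand 2 two_ne_zero S3)

/-- `a₃ = (E₄(q) + 9 E₄(q^3)) / 10`. -/
def a3 : PowerSeries ℤ := 1 + 24 * (S3 + 9 * expand 3 three_ne_zero S3)

theorem E42_eq : E42 = 1 + 240 * expand 2 two_ne_zero S3 := by
  rw [E42, eisenstein4_eq, map_add, map_mul, map_one, map_ofNat]

theorem E43_eq : E43 = 1 + 240 * expand 3 three_ne_zero S3 := by
  rw [E43, eisenstein4_eq, map_add, map_mul, map_one, map_ofNat]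

theorem E4_eq_two : eisenstein4 = a2 + 192 * bS 2 := by
  rw [eisenstein4_eq, a2, bS]; ring

theorem E42_eq_two : E42 = a2 - 48 * bS 2 := by
  rw [E42_eq, a2, bS]; ring

theorem E4_eq_three : eisenstein4 = a3 + 216 * bS 3 := by
  rw [eisenstein4_eq, a3, bS]; ring

theorem E43_eq_three : E43 = a3 - 24 * bS 3 := by
  rw [E43_eq, a3, bS]; ring

theorem intCast_ne_zero' (c : ℤ) (hc : c ≠ 0) : (c : PowerSeries ℤ) ≠ 0 := by
  intro h
  apply hc
  have := congrArg (constantCoeff (R := ℤ)) h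
  simpa using this

/-- `Δ(q) = b (a - 64 b)^2` (level 2). -/
theorem Ds_eq_two : Ds = bS 2 * (a2 - 64 * bS 2) ^ 2 := by
  have h := id2a
  rw [E42_eq, eisenstein4_eq] at h
  have h2 : (54000 : PowerSeries ℤ) * Ds = 54000 * (bS 2 * (a2 - 64 * bS 2) ^ 2) := by
    rw [h, a2, bS]; ring
  exact mul_left_cancel₀ (by have := intCast_ne_zero' 54000 (by norm_num); push_cast at this; exact this) h2

/-- `Δ(q^2) = b^2 (a - 64 b)` (level 2). -/
theorem Ds2_eq_two : Ds2 = bS 2 ^ 2 * (a2 - 64 * bS 2) := by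
  have h := id2b
  rw [E42_eq, eisenstein4_eq] at h
  have h2 : (864000 : PowerSeries ℤ) * Ds2 = 864000 * (bS 2 ^ 2 * (a2 - 64 * bS 2)) := by
    rw [h, a2, bS]; ring
  exact mul_left_cancel₀ (by have := intCast_ne_zero' 864000 (by norm_num); push_cast at this; exact this) h2

/-- `a Δ(q) = b (a - 27 b)^3` (level 3). -/
theorem Ds_eq_three : a3 * Ds = bS 3 * (a3 - 27 * bS 3) ^ 3 := by
  have h := id3a
  rw [E43_eq, eisenstein4_eq] at h
  have h2 : (122880000 : PowerSeries ℤ) * (a3 * Ds)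
      = 122880000 * (bS 3 * (a3 - 27 * bS 3) ^ 3) := by
    have h3 : (122880000 : PowerSeries ℤ) * (a3 * Ds) = 12288000 *
        ((1 + 240 * S3 + 9 * (1 + 240 * expand 3 three_ne_zero S3)) * Ds) := by
      rw [a3]; ring
    rw [h3, h, a3, bS]; ring
  exact mul_left_cancel₀ (by have := intCast_ne_zero' 122880000 (by norm_num); push_cast at this; exact this) h2

/-- `a Δ(q^3) = b^3 (a - 27 b)` (level 3). -/
theorem Ds3_eq_three : a3 * Ds3 = bS 3 ^ 3 * (a3 - 27 * bS 3) := by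
  have h := id3b
  rw [E43_eq, eisenstein4_eq] at h
  have h2 : (1105920000 : PowerSeries ℤ) * (a3 * Ds3)
      = 1105920000 * (bS 3 ^ 3 * (a3 - 27 * bS 3)) := by
    have h3 : (1105920000 : PowerSeries ℤ) * (a3 * Ds3) = 110592000 *
        ((1 + 240 * S3 + 9 * (1 + 240 * expand 3 three_ne_zero S3)) * Ds3) := by
      rw [a3]; ring
    rw [h3, h, a3, bS]; ring
  exact mul_left_cancel₀ (by have := intCast_ne_zero' 1105920000 (by norm_num); push_cast at this; exact this) h2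

end

end Fermat.Agent.KL.Haupt
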