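import Fermat.Agent.KL.Interface2

/-!
# KL-G1a : idempotents modulo `ϖ ^ n` from local irreducibility
-/

set_option autoImplicit false

namespace Fermat.Agent.KL

namespace G1a

variable {B : Type} [CommRing B]

/-- two distinct minimal primes over `ϖ` are comaximal. -/
theorem sup_eq_top {ϖ : B} (h : ∀ 𝔫 : Ideal B, 𝔫.IsMaximal → LocIrred ϖ 𝔫) {P Q : Ideal B}
    (hP : P ∈ (Ideal.span {ϖ}).minimalPrimes) (hQ : Q ∈ (Ideal.span {ϖ}).minimalPrimes)
    (hne : Q ≠ P) : P ⊔ Q = ⊤ := by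
  by_contra hcon
  obtain ⟨𝔫, h𝔫, hle⟩ := Ideal.exists_le_maximal _ hcon
  exact hne (h 𝔫 h𝔫 Q P hQ hP (le_sup_right.trans hle) (le_sup_left.trans hle))

/-- the first approximation. -/
theorem exists_a0 [IsNoetherianRing B] {ϖ : B}
    (h : ∀ 𝔫 : Ideal B, 𝔫.IsMaximal → LocIrred ϖ 𝔫) {P : Ideal B}
    (hP : P ∈ (Ideal.span {ϖ}).minimalPrimes) :
    ∃ a : B, a ∈ P ∧ ∀ P' ∈ (Ideal.span {ϖ}).minimalPrimes, P' ≠ P → a - 1 ∈ P' := by
  classical
  have hfin : ((Ideal.span {ϖ}).minimalPrimes).Finite :=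
    Ideal.finite_minimalPrimes_of_isNoetherianRing B _
  set T : Finset (Ideal B) := hfin.toFinset.erase P with hT
  have hcop : P ⊔ ⨅ Q ∈ T, (Q : Ideal B) = ⊤ := by
    refine Ideal.sup_iInf_eq_top fun Q hQ => ?_
    rw [hT, Finset.mem_erase, Set.Finite.mem_toFinset] at hQ
    exact sup_eq_top h hP hQ.2 hQ.1
  obtain ⟨a, ha, b, hb, hab⟩ := Submodule.mem_sup.1 ((Ideal.eq_top_iff_one _).1 hcop)
  refine ⟨a, ha, fun P' hP' hne => ?_⟩
  have hb' : b ∈ P' := by
    rw [Submodule.mem_iInf] at hb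
    have := hb P'
    rw [Submodule.mem_iInf] at this
    exact this (by rw [hT, Finset.mem_erase, Set.Finite.mem_toFinset]; exact ⟨hne, hP'⟩)
  have : a - 1 = -b := by rw [← hab]; ring
  rw [this]
  exact P'.neg_mem hb'

end G1a

theorem stmt_idempotentLift : Stmt_idempotentLift := by
  intro B _ _ ϖ h P hP n
  obtain ⟨a0, ha0, ha0'⟩ := G1a.exists_a0 h hP
  rcases Nat.eq_zero_or_pos n with rfl | hn
  · exact ⟨a0, by simp, ha0, ha0'⟩
  set I : Ideal B := Ideal.span {ϖ} with hI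
  set J : Ideal B := Ideal.span {ϖ ^ n} with hJ
  have hJI : J = I ^ n := by rw [hI, hJ, Ideal.span_singleton_pow]
  have hle : J ≤ I.radical := by
    rw [hJI]
    exact (Ideal.pow_le_self hn.ne').trans Ideal.le_radical
  have hrad_le : ∀ Q ∈ I.minimalPrimes, I.radical ≤ Q := by
    intro Q hQ
    rw [← Ideal.sInf_minimalPrimes]
    exact sInf_le hQ
  -- `a0 ^ 2 - a0` lies in the radical
  have hrad : a0 * a0 - a0 ∈ I.radical := by
    rw [← Ideal.sInf_minimalPrimes, Submodule.mem_sInf]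
    intro Q hQ
    have e : a0 * a0 - a0 = a0 * (a0 - 1) := by ring
    rw [e]
    by_cases hQP : Q = P
    · rw [hQP]; exact P.mul_mem_right _ ha0
    · exact Ideal.mul_mem_left Q _ (ha0' Q hQ hQP)
  let f : B ⧸ J →+* B ⧸ I.radical := Ideal.Quotient.factor hle
  have hker : ∀ x ∈ RingHom.ker f, IsNilpotent x := by
    intro x hx
    obtain ⟨y, rfl⟩ := Ideal.Quotient.mk_surjective x
    rw [RingHom.mem_ker, Ideal.Quotient.factor_mk, Ideal.Quotient.eq_zero_iff_mem] at hx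
    obtain ⟨k, hk⟩ := hx
    refine ⟨k * n, ?_⟩
    rw [← map_pow, Ideal.Quotient.eq_zero_iff_mem, hJI, pow_mul]
    exact Ideal.pow_mem_pow hk n
  have hidem : IsIdempotentElem (Ideal.Quotient.mk I.radical a0) := by
    unfold IsIdempotentElem
    rw [← map_mul, Ideal.Quotient.eq]
    exact hrad
  obtain ⟨e', he', hfe'⟩ := exists_isIdempotentElem_eq_of_ker_isNilpotent f hker
    (Ideal.Quotient.mk I.radical a0) ⟨Ideal.Quotient.mk J a0, Ideal.Quotient.factor_mk _ _⟩ hidem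
  obtain ⟨a, rfl⟩ := Ideal.Quotient.mk_surjective e'
  have h1 : a * a - a ∈ J := by
    unfold IsIdempotentElem at he'
    rw [← map_mul, Ideal.Quotient.eq] at he'
    exact he'
  have h2 : a - a0 ∈ I.radical := by
    rw [Ideal.Quotient.factor_mk, Ideal.Quotient.eq] at hfe'
    exact hfe'
  refine ⟨a, Ideal.mem_span_singleton.1 h1, ?_, ?_⟩
  · have : a = (a - a0) + a0 := by ring
    rw [this]
    exact P.add_mem (hrad_le P hP h2) ha0
  · intro P' hP' hne
    have : a - 1 = (a - a0) + (a0 - 1) := by ring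
    rw [this]
    exact P'.add_mem (hrad_le P' hP' h2) (ha0' P' hP' hne)

end Fermat.Agent.KL
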