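import Fermat.Agent.KL.Interface2

/-!
# KL-A4: unit discriminant over a 2-dimensional regular local ring: `ϖ` stays locally prime
-/

set_option autoImplicit false

namespace Fermat.Agent.KL

open IsLocalRing

namespace A4

attribute [local instance] Ideal.Quotient.field

/-- In a reduced artinian ring a maximal ideal is killed by an element outside of it. -/
theorem exists_annihilator {C : Type} [CommRing C] [IsArtinianRing C] [IsReduced C]
    (𝔑 : Ideal C) [h𝔑 : 𝔑.IsMaximal] : ∃ s : C, s ∉ 𝔑 ∧ ∀ y ∈ 𝔑, s * y = 0 := by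
  classical
  let m₀ : MaximalSpectrum C := ⟨𝔑, h𝔑⟩
  let e := IsArtinianRing.equivPi C
  refine ⟨e.symm (Pi.single m₀ 1), ?_, ?_⟩
  · intro hs
    have h1 : e (e.symm (Pi.single m₀ 1)) m₀ = 0 := by
      rw [IsArtinianRing.equivPi_apply]
      exact Ideal.Quotient.eq_zero_iff_mem.mpr hs
    rw [AlgEquiv.apply_symm_apply, Pi.single_eq_same] at h1
    have : Nontrivial (C ⧸ m₀.asIdeal) := Ideal.Quotient.nontrivial_iff.mpr h𝔑.ne_top
    exact one_ne_zero h1
  · intro y hy
    apply e.injective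
    rw [map_mul, AlgEquiv.apply_symm_apply, map_zero]
    funext m
    by_cases hm : m = m₀
    · subst hm
      rw [Pi.mul_apply, IsArtinianRing.equivPi_apply]
      have : (Ideal.Quotient.mk m₀.asIdeal y) = 0 := Ideal.Quotient.eq_zero_iff_mem.mpr hy
      simp [this]
    · rw [Pi.mul_apply, Pi.single_eq_of_ne hm, zero_mul]
      rfl

section

variable {R B : Type} [CommRing R] [IsLocalRing R]
    [CommRing B] [Algebra R B] {ι : Type} [Fintype ι] [DecidableEq ι]

theorem discr_basisQuotient [Module.Finite R B] [Module.Free R B] (b : Module.Basis ι R B) :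
    Algebra.discr (R ⧸ maximalIdeal R) (basisQuotient b) =
      Ideal.Quotient.mk (maximalIdeal R) (Algebra.discr R b) := by
  rw [Algebra.discr_def, Algebra.discr_def, RingHom.map_det]
  congr 1
  ext i j
  simp only [Algebra.traceMatrix_apply, Algebra.traceForm_apply, basisQuotient_apply, ← map_mul,
    Algebra.trace_quotient_mk, RingHom.mapMatrix_apply, Matrix.map_apply]

theorem isReduced_quotient (h2 : Stmt_reducedOfDiscr) [Module.Finite R B] [Module.Free R B]
    (b : Module.Basis ι R B) (hu : IsUnit (Algebra.discr R b)) :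
    IsReduced (B ⧸ Ideal.map (algebraMap R B) (maximalIdeal R)) := by
  refine h2 (R ⧸ maximalIdeal R) _ ι (basisQuotient b) ?_
  rw [discr_basisQuotient b]
  intro h0
  rw [Ideal.Quotient.eq_zero_iff_mem] at h0
  exact (IsLocalRing.mem_maximalIdeal _).mp h0 hu

theorem exists_mul_mem (h2 : Stmt_reducedOfDiscr) [Module.Finite R B] [Module.Free R B]
    (b : Module.Basis ι R B) (hu : IsUnit (Algebra.discr R b)) (𝔫 : Ideal B) (h𝔫 : 𝔫.IsMaximal)
    (hle : Ideal.map (algebraMap R B) (maximalIdeal R) ≤ 𝔫) :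
    ∃ s : B, s ∉ 𝔫 ∧ ∀ y ∈ 𝔫, s * y ∈ Ideal.map (algebraMap R B) (maximalIdeal R) := by
  set pS := Ideal.map (algebraMap R B) (maximalIdeal R) with hpS
  have hred : IsReduced (B ⧸ pS) := isReduced_quotient h2 b hu
  have hfin : Module.Finite (R ⧸ maximalIdeal R) (B ⧸ pS) := Module.Finite.of_basis (basisQuotient b)
  have hart : IsArtinianRing (B ⧸ pS) := IsArtinianRing.of_finite (R ⧸ maximalIdeal R) (B ⧸ pS)
  have hmax : (𝔫.map (Ideal.Quotient.mk pS)).IsMaximal := by
    rcases Ideal.map_eq_top_or_isMaximal_of_surjective (Ideal.Quotient.mk pS)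
      Ideal.Quotient.mk_surjective h𝔫 with h | h
    · exfalso
      have h1 : (1 : B ⧸ pS) ∈ 𝔫.map (Ideal.Quotient.mk pS) := by rw [h]; trivial
      rw [← map_one (Ideal.Quotient.mk pS), Ideal.mem_quotient_iff_mem hle] at h1
      exact h𝔫.ne_top ((Ideal.eq_top_iff_one _).mpr h1)
    · exact h
  obtain ⟨s', hs', hann⟩ := exists_annihilator (𝔫.map (Ideal.Quotient.mk pS))
  obtain ⟨s, rfl⟩ := Ideal.Quotient.mk_surjective s'
  refine ⟨s, fun hs => hs' ((Ideal.mem_quotient_iff_mem hle).mpr hs), fun y hy => ?_⟩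
  have := hann (Ideal.Quotient.mk pS y) ((Ideal.mem_quotient_iff_mem hle).mpr hy)
  rw [← map_mul, Ideal.Quotient.eq_zero_iff_mem] at this
  exact this

theorem dvd_iff_repr (b : Module.Basis ι R B) (ϖ : R) (w : B) :
    algebraMap R B ϖ ∣ w ↔ ∀ i, ϖ ∣ b.repr w i := by
  constructor
  · rintro ⟨v, rfl⟩ i
    rw [← Algebra.smul_def, map_smul, Finsupp.smul_apply, smul_eq_mul]
    exact dvd_mul_right _ _
  · intro h
    choose c hc using h
    refine ⟨∑ i, c i • b i, ?_⟩
    rw [← Algebra.smul_def, Finset.smul_sum]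
    conv_lhs => rw [← b.sum_repr w]
    refine Finset.sum_congr rfl fun i _ => ?_
    rw [hc i, mul_smul]

end

end A4

theorem stmt_locPrimeOfDiscrUnit (h2 : Stmt_reducedOfDiscr) (h3 : Stmt_domainOfPrincipal) :
    Stmt_locPrimeOfDiscrUnit := by
  intro R B _ _ _ _ _ _ ι _ _ b hu ϖ τ hϖ hτ hm 𝔫 h𝔫
  have hfin : Module.Finite R B := Module.Finite.of_basis b
  have hfree : Module.Free R B := Module.Free.of_basis b
  have hint : Algebra.IsIntegral R B := inferInstance
  -- `𝔫` lies over the maximal ideal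
  have hcomap : 𝔫.comap (algebraMap R B) = maximalIdeal R := by
    have : (𝔫.comap (algebraMap R B)).IsMaximal :=
      Ideal.isMaximal_comap_of_isIntegral_of_isMaximal 𝔫
    exact IsLocalRing.eq_maximalIdeal this
  have hle : Ideal.map (algebraMap R B) (maximalIdeal R) ≤ 𝔫 := by
    rw [Ideal.map_le_iff_le_comap, hcomap]
  obtain ⟨s₀, hs₀, hs₀y⟩ := A4.exists_mul_mem h2 b hu 𝔫 h𝔫 hle
  set ϖB := algebraMap R B ϖ with hϖB
  set τB := algebraMap R B τ with hτB
  have hmapm : Ideal.map (algebraMap R B) (maximalIdeal R) = Ideal.span {ϖB, τB} := by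
    rw [hm, Ideal.map_span, Set.image_pair]
  have hϖ𝔫 : ϖB ∈ 𝔫 := hle (by rw [hmapm]; exact Ideal.subset_span (by simp))
  have hτ𝔫 : τB ∈ 𝔫 := hle (by rw [hmapm]; exact Ideal.subset_span (by simp))
  have hIle : Ideal.span {ϖB} ≤ 𝔫 := (Ideal.span_singleton_le_iff_mem _).mpr hϖ𝔫
  -- the quotient by `ϖ`
  let D := B ⧸ Ideal.span {ϖB}
  let mkD : B →+* D := Ideal.Quotient.mk (Ideal.span {ϖB})
  have hmk0 : ∀ w : B, mkD w = 0 ↔ ϖB ∣ w := fun w => by
    rw [Ideal.Quotient.eq_zero_iff_mem, Ideal.mem_span_singleton]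
  have hmaxD : (𝔫.map mkD).IsMaximal := by
    rcases Ideal.map_eq_top_or_isMaximal_of_surjective mkD
      Ideal.Quotient.mk_surjective h𝔫 with h | h
    · exfalso
      have h1 : (1 : D) ∈ 𝔫.map mkD := by rw [h]; trivial
      rw [← map_one mkD, Ideal.mem_quotient_iff_mem hIle] at h1
      exact h𝔫.ne_top ((Ideal.eq_top_iff_one _).mpr h1)
    · exact h
  have hprimeD : (𝔫.map mkD).IsPrime := hmaxD.isPrime
  have hmemD : ∀ w : B, mkD w ∈ 𝔫.map mkD ↔ w ∈ 𝔫 := fun w => Ideal.mem_quotient_iff_mem hIle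
  have hnoethB : IsNoetherianRing B := IsNoetherianRing.of_finite R B
  let C := Localization.AtPrime (𝔫.map mkD)
  have hnoethC : IsNoetherianRing C :=
    IsLocalization.isNoetherianRing (𝔫.map mkD).primeCompl C inferInstance
  -- `τ` is a non zero divisor on `D`
  have hnzdD : mkD τB ∈ nonZeroDivisors D := by
    rw [mem_nonZeroDivisors_iff_right]
    intro z hz
    obtain ⟨x, rfl⟩ := Ideal.Quotient.mk_surjective z
    change mkD x * mkD τB = 0 at hz
    change mkD x = 0
    rw [← map_mul, hmk0, A4.dvd_iff_repr b] at hz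
    rw [hmk0, A4.dvd_iff_repr b]
    intro i
    have := hz i
    rw [mul_comm, hτB, ← Algebra.smul_def, map_smul, Finsupp.smul_apply, smul_eq_mul] at this
    exact (hϖ.dvd_or_dvd this).resolve_left hτ
  have hnzdC : algebraMap D C (mkD τB) ∈ nonZeroDivisors C :=
    IsLocalization.map_nonZeroDivisors_le (𝔫.map mkD).primeCompl C
      (Submonoid.mem_map_of_mem _ hnzdD)
  have hmaxC : maximalIdeal C = Ideal.span {algebraMap D C (mkD τB)} := by
    apply le_antisymm
    · intro x hx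
      obtain ⟨d, t, rfl⟩ := IsLocalization.exists_mk'_eq (𝔫.map mkD).primeCompl x
      rw [IsLocalization.AtPrime.mk'_mem_maximal_iff C (𝔫.map mkD)] at hx
      obtain ⟨y, rfl⟩ := Ideal.Quotient.mk_surjective d
      change mkD y ∈ _ at hx
      rw [hmemD] at hx
      have h1 := hs₀y y hx
      rw [hmapm, Ideal.mem_span_pair] at h1
      obtain ⟨a, c, hac⟩ := h1
      have h2' : mkD s₀ * mkD y = mkD c * mkD τB := by
        rw [← map_mul, ← hac, map_add, map_mul, map_mul, (hmk0 ϖB).mpr dvd_rfl, mul_zero, zero_add]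
      have hunit : IsUnit (algebraMap D C (mkD s₀)) :=
        IsLocalization.map_units C (⟨mkD s₀, fun h => hs₀ ((hmemD s₀).mp h)⟩ :
          (𝔫.map mkD).primeCompl)
      rw [Ideal.mem_span_singleton, IsLocalization.mk'_eq_mul_mk'_one]
      apply Dvd.dvd.mul_right
      rw [← hunit.dvd_mul_left, ← map_mul]
      change _ ∣ algebraMap D C (mkD s₀ * mkD y)
      rw [h2', map_mul]
      exact dvd_mul_left _ _
    · rw [Ideal.span_singleton_le_iff_mem,
        IsLocalization.AtPrime.to_map_mem_maximal_iff C (𝔫.map mkD), hmemD]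
      exact hτ𝔫
  have hdom : IsDomain C := h3 C _ hnzdC hmaxC
  -- conclusion
  intro x y hxy
  have h0 : algebraMap D C (mkD x) * algebraMap D C (mkD y) = 0 := by
    rw [← map_mul, ← map_mul, (hmk0 _).mpr hxy, map_zero]
  have key : ∀ w : B, algebraMap D C (mkD w) = 0 → ∃ s : B, s ∉ 𝔫 ∧ ϖB ∣ s * w := by
    intro w hw
    rw [IsLocalization.map_eq_zero_iff (𝔫.map mkD).primeCompl C] at hw
    obtain ⟨⟨m, hm'⟩, hmw⟩ := hw
    obtain ⟨s, rfl⟩ := Ideal.Quotient.mk_surjective m
    refine ⟨s, fun hs => hm' ((hmemD s).mpr hs), ?_⟩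
    rw [← hmk0, map_mul]
    exact hmw
  rcases mul_eq_zero.mp h0 with h | h
  · obtain ⟨s, hs, hd⟩ := key x h
    exact ⟨s, hs, Or.inl hd⟩
  · obtain ⟨s, hs, hd⟩ := key y h
    exact ⟨s, hs, Or.inr hd⟩

end Fermat.Agent.KL
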