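/-
KL ("Claim K"), package KL-PUR: Zariski-Nagata purity in dimension 2 (assembly).
-/
import Fermat.Agent.KL.Interface2

set_option autoImplicit false

namespace Fermat.Agent.KL

open Polynomial IsLocalRing

theorem stmt_purity (h1 : Stmt_freeIntegralClosure) (h2 : Stmt_htOneOfLiesOver)
    (h3 : Stmt_discrUnit) (h4 : Stmt_locPrimeOfDiscrUnit) : Stmt_purity := by
  intro R K L B _ _ _ _ _ _ _ _ _ _ _ _ _ _ _ _ _ _ _ ϖ τ hϖ hτ hm hunr 𝔫 h𝔫
  classical
  obtain ⟨hfin, hfree⟩ := h1 R K L B ϖ τ hϖ hτ hm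
  have hinjBL : Function.Injective (algebraMap B L) := IsIntegralClosure.algebraMap_injective B R L
  have hdom : IsDomain B := hinjBL.isDomain (algebraMap B L)
  have hint : Algebra.IsIntegral R B := IsIntegralClosure.isIntegral_algebra R L
  have hinjRL : Function.Injective (algebraMap R L) := by
    rw [IsScalarTower.algebraMap_eq R K L]
    exact (algebraMap K L).injective.comp (IsFractionRing.injective R K)
  have hfaith : FaithfulSMul R B := by
    rw [faithfulSMul_iff_algebraMap_injective]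
    intro x y hxy
    apply hinjRL
    rw [IsScalarTower.algebraMap_apply R B L, IsScalarTower.algebraMap_apply R B L, hxy]
  have hunit : IsUnit (Algebra.discr R (Module.Free.chooseBasis R B)) :=
    h3 R K L B _ (Module.Free.chooseBasis R B) fun f hf 𝔓 h𝔓 hunder =>
      hunr 𝔓 (h2 R B f hf 𝔓 h𝔓 hunder)
  exact h4 R B _ (Module.Free.chooseBasis R B) hunit ϖ τ hϖ hτ hm 𝔫 h𝔫

end Fermat.Agent.KL
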