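import Fermat.Agent.KL.Interface2

/-!
# KL-K5 : adjoining an `n`-th root of a local unit (`n` invertible) is unramified
-/

set_option autoImplicit false

namespace Fermat.Agent.KL

open Polynomial

namespace K5

/-- an algebra whose universal derivation vanishes is formally unramified -/
theorem unram_of_D {R S : Type} [CommRing R] [CommRing S] [Algebra R S]
    (h : ∀ s : S, KaehlerDifferential.D R S s = 0) : Algebra.FormallyUnramified R S := by
  constructor
  have h1 := KaehlerDifferential.span_range_derivation R S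
  have h3 : (⊥ : Submodule S Ω[S⁄R]) = ⊤ := by
    rw [← h1, eq_comm, eq_bot_iff, Submodule.span_le]
    rintro _ ⟨s, rfl⟩
    exact h s
  exact Submodule.subsingleton_iff S |>.1 (subsingleton_iff_bot_eq_top.1 h3)

/-- a derivation kills an `n`-th root of a constant, when `n` and the root are units -/
theorem D_root {R S M : Type} [CommRing R] [CommRing S] [Algebra R S] [AddCommGroup M]
    [Module S M] [Module R M] [IsScalarTower R S M] (D : Derivation R S M) (θ : S) (n : ℕ) (u : R)
    (hθ : θ ^ n = algebraMap R S u) (hn : IsUnit (n : S)) (hu : IsUnit θ) : D θ = 0 := by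
  have h1 : D (θ ^ n) = 0 := by rw [hθ, Derivation.map_algebraMap]
  rw [Derivation.leibniz_pow, ← Nat.cast_smul_eq_nsmul S, hn.smul_eq_zero,
    (hu.pow (n - 1)).smul_eq_zero] at h1
  exact h1

section adjoin

variable {A L' : Type} [CommRing A] [Field L'] [Algebra A L'] (θ : L') (n : ℕ) (u : A)

include n u in
theorem isIntegral_root (hθ : θ ^ n = algebraMap A L' u) (hn0 : n ≠ 0) : IsIntegral A θ :=
  ⟨X ^ n - C u, monic_X_pow_sub_C u hn0, by simp [hθ]⟩

omit [Field L'] [Algebra A L'] in
theorem ne_zero_of_isUnit [Nontrivial A] (hn : IsUnit (n : A)) : n ≠ 0 := by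
  rintro rfl
  rw [Nat.cast_zero] at hn
  exact not_isUnit_zero hn

theorem unram_adjoin (hθ : θ ^ n = algebraMap A L' u) (hu : IsUnit u) (hn : IsUnit (n : A)) :
    Algebra.FormallyUnramified A (Algebra.adjoin A {θ}) := by
  have : Nontrivial A := (algebraMap A L').domain_nontrivial
  have hn0 : n ≠ 0 := ne_zero_of_isUnit n hn
  let θ' : Algebra.adjoin A {θ} := ⟨θ, Algebra.self_mem_adjoin_singleton A θ⟩
  have hθ' : θ' ^ n = algebraMap A (Algebra.adjoin A {θ}) u := Subtype.ext hθ
  have hn' : IsUnit (n : Algebra.adjoin A {θ}) := by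
    have := hn.map (algebraMap A (Algebra.adjoin A {θ}))
    rwa [map_natCast] at this
  have hu' : IsUnit θ' := by
    have h1 : IsUnit (θ' ^ n) := by rw [hθ']; exact hu.map _
    exact (isUnit_pow_iff hn0).1 h1
  have htop : Algebra.adjoin A ({θ'} : Set (Algebra.adjoin A {θ})) = ⊤ := by
    have := Algebra.adjoin_adjoin_coe_preimage (R := A) (s := ({θ} : Set L'))
    convert this using 2
    ext x
    simp [θ', Subtype.ext_iff]
  apply unram_of_D
  have hD : KaehlerDifferential.D A (Algebra.adjoin A {θ}) = 0 := by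
    apply Derivation.ext_of_adjoin_eq_top _ htop
    intro x hx
    rw [Set.mem_singleton_iff] at hx
    rw [hx]
    exact D_root _ θ' n u hθ' hn' hu'
  intro s
  rw [hD]; rfl

/-- `A[θ]` is integrally closed in `L'`. -/
theorem mem_adjoin_of_isIntegral [IsDedekindDomain A]
    (hθ : θ ^ n = algebraMap A L' u) (hu : IsUnit u) (hn : IsUnit (n : A))
    (hfrac : ∀ z : L', ∃ x y : Algebra.adjoin A {θ},
      z = algebraMap (Algebra.adjoin A {θ}) L' x / algebraMap (Algebra.adjoin A {θ}) L' y)
    (x : L') (hx : IsIntegral A x) : x ∈ Algebra.adjoin A {θ} := by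
  have : Nontrivial A := (algebraMap A L').domain_nontrivial
  have hn0 : n ≠ 0 := ne_zero_of_isUnit n hn
  have : Module.Finite A (Algebra.adjoin A {θ}) :=
    Algebra.finite_adjoin_simple_of_isIntegral (isIntegral_root θ n u hθ hn0)
  have : Algebra.FormallyUnramified A (Algebra.adjoin A {θ}) := unram_adjoin θ n u hθ hu hn
  have : IsDedekindDomain (Algebra.adjoin A {θ}) :=
    isDedekindDomain.of_formallyUnramified A (Algebra.adjoin A {θ})
  have : IsFractionRing (Algebra.adjoin A {θ}) L' := IsFractionRing.of_field _ _ hfrac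
  have h1 : IsIntegral (Algebra.adjoin A {θ}) x := hx.tower_top
  obtain ⟨y, hy⟩ := IsIntegrallyClosed.isIntegral_iff.1 h1
  rw [← hy]
  exact y.2

end adjoin

/-- clearing denominators in `L(θ)` -/
theorem exists_denominator {B L L' : Type} [CommRing B] [IsDomain B] [Field L] [Algebra B L]
    [IsFractionRing B L] [Field L'] [Algebra L L'] [Algebra B L'] [IsScalarTower B L L'] (θ : L')
    (halg : IsAlgebraic L θ) (htop : IntermediateField.adjoin L {θ} = ⊤) (z : L') :
    ∃ d : B, d ≠ 0 ∧ algebraMap B L' d * z ∈ Algebra.adjoin B {θ} := by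
  have hz : z ∈ Algebra.adjoin L {θ} := by
    rw [← IntermediateField.adjoin_simple_toSubalgebra_of_isAlgebraic halg, htop]
    trivial
  induction hz using Algebra.adjoin_induction with
  | mem x hx =>
    refine ⟨1, one_ne_zero, ?_⟩
    rw [map_one, one_mul]
    exact Algebra.subset_adjoin hx
  | algebraMap r =>
    obtain ⟨a, b, hb, rfl⟩ := IsFractionRing.div_surjective (A := B) r
    have hb0 : b ≠ 0 := nonZeroDivisors.ne_zero hb
    refine ⟨b, hb0, ?_⟩
    have hb1 : algebraMap B L b ≠ 0 :=
      (map_ne_zero_iff _ (IsFractionRing.injective B L)).2 hb0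
    have : algebraMap B L' b * algebraMap L L' (algebraMap B L a / algebraMap B L b)
        = algebraMap B L' a := by
      rw [IsScalarTower.algebraMap_apply B L L', IsScalarTower.algebraMap_apply B L L', ← map_mul,
        mul_div_cancel₀ _ hb1]
    rw [this]
    exact Subalgebra.algebraMap_mem _ _
  | add x y _ _ hx hy =>
    obtain ⟨d₁, h₁, m₁⟩ := hx
    obtain ⟨d₂, h₂, m₂⟩ := hy
    refine ⟨d₁ * d₂, mul_ne_zero h₁ h₂, ?_⟩
    have : algebraMap B L' (d₁ * d₂) * (x + y)
        = algebraMap B L' d₂ * (algebraMap B L' d₁ * x)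
          + algebraMap B L' d₁ * (algebraMap B L' d₂ * y) := by
      rw [map_mul]; ring
    rw [this]
    exact add_mem (mul_mem (Subalgebra.algebraMap_mem _ _) m₁)
      (mul_mem (Subalgebra.algebraMap_mem _ _) m₂)
  | mul x y _ _ hx hy =>
    obtain ⟨d₁, h₁, m₁⟩ := hx
    obtain ⟨d₂, h₂, m₂⟩ := hy
    refine ⟨d₁ * d₂, mul_ne_zero h₁ h₂, ?_⟩
    have : algebraMap B L' (d₁ * d₂) * (x * y)
        = (algebraMap B L' d₁ * x) * (algebraMap B L' d₂ * y) := by
      rw [map_mul]; ring
    rw [this]
    exact mul_mem m₁ m₂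

/-- the integral closure is, locally at `𝔓`, generated by `θ` (abstract localisation `A`) -/
theorem star_aux {B A L B' L' : Type} [CommRing B] [IsDomain B] [Field L] [Algebra B L]
    [IsFractionRing B L] [Field L'] [Algebra L L'] [Algebra B L'] [IsScalarTower B L L']
    [CommRing B'] [Algebra B B'] [Algebra B' L'] [IsScalarTower B B' L'] [IsIntegralClosure B' B L']
    (n : ℕ) (u : B) (θ : L') (hθ : θ ^ n = algebraMap B L' u)
    (htop : IntermediateField.adjoin L {θ} = ⊤) (𝔓 : Ideal B) [𝔓.IsPrime]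
    [CommRing A] [Algebra B A] [IsLocalization.AtPrime A 𝔓] [IsDedekindDomain A]
    [Algebra A L'] [IsScalarTower B A L'] (hu : u ∉ 𝔓) (hn : (n : B) ∉ 𝔓)
    (θ₀ : B') (hθ₀ : algebraMap B' L' θ₀ = θ) (b' : B') :
    ∃ d : B, d ∉ 𝔓 ∧ ∃ p : B[X], d • b' = aeval θ₀ p := by
  have hn0 : n ≠ 0 := by
    rintro rfl
    exact hn (by simp)
  have hinj : Function.Injective (algebraMap B L') := by
    rw [IsScalarTower.algebraMap_eq B L L']
    exact (algebraMap L L').injective.comp (IsFractionRing.injective B L)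
  have hθA : θ ^ n = algebraMap A L' (algebraMap B A u) := by
    rw [hθ, IsScalarTower.algebraMap_apply B A L']
  have huA : IsUnit (algebraMap B A u) :=
    IsLocalization.map_units A (⟨u, hu⟩ : 𝔓.primeCompl)
  have hnA : IsUnit (n : A) := by
    have := IsLocalization.map_units A (⟨(n : B), hn⟩ : 𝔓.primeCompl)
    simpa using this
  have hle : ∀ z ∈ Algebra.adjoin B {θ}, z ∈ Algebra.adjoin A {θ} := by
    intro z hz
    induction hz using Algebra.adjoin_induction with
    | mem x hx => exact Algebra.subset_adjoin hx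
    | algebraMap r =>
      rw [IsScalarTower.algebraMap_apply B A L']; exact Subalgebra.algebraMap_mem _ _
    | add x y _ _ hx hy => exact add_mem hx hy
    | mul x y _ _ hx hy => exact mul_mem hx hy
  have hintB : IsIntegral B θ := isIntegral_root θ n u hθ hn0
  have hintL : IsIntegral L θ := hintB.tower_top
  have halg : IsAlgebraic L θ := hintL.isAlgebraic
  have hfrac : ∀ z : L', ∃ x y : Algebra.adjoin A {θ},
      z = algebraMap (Algebra.adjoin A {θ}) L' x / algebraMap (Algebra.adjoin A {θ}) L' y := by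
    intro z
    obtain ⟨d, hd, hm⟩ := exists_denominator (B := B) θ halg htop z
    refine ⟨⟨_, hle _ hm⟩, ⟨algebraMap B L' d, hle _ (Subalgebra.algebraMap_mem _ d)⟩, ?_⟩
    have hd' : algebraMap B L' d ≠ 0 := (map_ne_zero_iff _ hinj).2 hd
    change z = (algebraMap B L' d * z) / algebraMap B L' d
    field_simp
  have hxint : IsIntegral A (algebraMap B' L' b') :=
    ((IsIntegralClosure.isIntegral_iff (A := B') (R := B)).2 ⟨b', rfl⟩).tower_top
  have hmem := mem_adjoin_of_isIntegral θ n _ hθA huA hnA hfrac _ hxint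
  rw [Algebra.adjoin_singleton_eq_range_aeval] at hmem
  obtain ⟨p, hp⟩ := hmem
  obtain ⟨d, hd, hdp⟩ := IsLocalization.integerNormalization_spec 𝔓.primeCompl p
  refine ⟨d, hd, IsLocalization.integerNormalization 𝔓.primeCompl p, ?_⟩
  apply IsIntegralClosure.algebraMap_injective B' B L'
  rw [← Polynomial.aeval_algebraMap_apply, hθ₀, ← Polynomial.aeval_map_algebraMap A, hdp]
  have hp' : aeval θ p = algebraMap B' L' b' := hp
  rw [← algebraMap_smul A d p, map_smul (aeval θ), hp', Algebra.smul_def, Algebra.smul_def,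
    map_mul, ← IsScalarTower.algebraMap_apply B B' L', ← IsScalarTower.algebraMap_apply B A L']

/-- the integral closure is, locally at `𝔓`, generated by `θ` -/
theorem star {B L B' L' : Type} [CommRing B] [IsDomain B] [Field L] [Algebra B L]
    [IsFractionRing B L] [Field L'] [Algebra L L'] [Algebra B L'] [IsScalarTower B L L']
    [CommRing B'] [Algebra B B'] [Algebra B' L'] [IsScalarTower B B' L'] [IsIntegralClosure B' B L']
    (n : ℕ) (u : B) (θ : L') (hθ : θ ^ n = algebraMap B L' u)
    (htop : IntermediateField.adjoin L {θ} = ⊤) (𝔓 : Ideal B) [𝔓.IsPrime]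
    (hDVR : IsDiscreteValuationRing (Localization.AtPrime 𝔓)) (hu : u ∉ 𝔓) (hn : (n : B) ∉ 𝔓)
    (θ₀ : B') (hθ₀ : algebraMap B' L' θ₀ = θ) (b' : B') :
    ∃ d : B, d ∉ 𝔓 ∧ ∃ p : B[X], d • b' = aeval θ₀ p := by
  have hinj : Function.Injective (algebraMap B L') := by
    rw [IsScalarTower.algebraMap_eq B L L']
    exact (algebraMap L L').injective.comp (IsFractionRing.injective B L)
  have hunits : ∀ y : 𝔓.primeCompl, IsUnit (algebraMap B L' y) := fun y => by
    apply IsUnit.mk0
    rw [Ne, map_eq_zero_iff _ hinj]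
    intro h
    exact y.2 (h ▸ 𝔓.zero_mem)
  let _ : Algebra (Localization.AtPrime 𝔓) L' :=
    (IsLocalization.lift (S := Localization.AtPrime 𝔓) hunits).toAlgebra
  have : IsScalarTower B (Localization.AtPrime 𝔓) L' :=
    IsScalarTower.of_algebraMap_eq fun x => (IsLocalization.lift_eq hunits x).symm
  exact star_aux (A := Localization.AtPrime 𝔓) (L := L) n u θ hθ htop 𝔓 hu hn θ₀ hθ₀ b'

end K5

theorem stmt_rootUnit : Stmt_rootUnit := by
  intro B L B' L' _ _ _ _ _ _ _ _ _ _ _ _ _ _ n u θ hθ htop 𝔓' _ 𝔓 _ h𝔓 hDVR hu hn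
  have hn0 : n ≠ 0 := by
    rintro rfl
    exact hn (by simp)
  have hθint : IsIntegral B θ := K5.isIntegral_root θ n u hθ hn0
  obtain ⟨θ₀, hθ₀⟩ := (IsIntegralClosure.isIntegral_iff (A := B')).1 hθint
  have hθ₀n : θ₀ ^ n = algebraMap B B' u := by
    apply IsIntegralClosure.algebraMap_injective B' B L'
    rw [map_pow, hθ₀, hθ, ← IsScalarTower.algebraMap_apply]
  change Algebra.FormallyUnramified B (Localization.AtPrime 𝔓')
  apply K5.unram_of_D
  have hunit : ∀ d : B, d ∉ 𝔓 → IsUnit (algebraMap B (Localization.AtPrime 𝔓') d) := by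
    intro d hd
    rw [IsScalarTower.algebraMap_apply B B' (Localization.AtPrime 𝔓')]
    exact IsLocalization.map_units (Localization.AtPrime 𝔓')
      (⟨algebraMap B B' d, fun h => hd (by rw [h𝔓]; exact Ideal.mem_comap.2 h)⟩ : 𝔓'.primeCompl)
  have hθS : algebraMap B' (Localization.AtPrime 𝔓') θ₀ ^ n
      = algebraMap B (Localization.AtPrime 𝔓') u := by
    rw [← map_pow, hθ₀n, ← IsScalarTower.algebraMap_apply]
  have hDθ : KaehlerDifferential.D B (Localization.AtPrime 𝔓')
      (algebraMap B' (Localization.AtPrime 𝔓') θ₀) = 0 := by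
    refine K5.D_root _ _ n u hθS ?_ ?_
    · have := hunit n hn
      simpa using this
    · refine (isUnit_pow_iff hn0).1 ?_
      rw [hθS]
      exact hunit u hu
  have hDB' : ∀ b' : B', KaehlerDifferential.D B (Localization.AtPrime 𝔓')
      (algebraMap B' (Localization.AtPrime 𝔓') b') = 0 := by
    intro b'
    obtain ⟨d, hd, p, hp⟩ := K5.star (L := L) n u θ hθ htop 𝔓 hDVR hu hn θ₀ hθ₀ b'
    have h1 := congrArg (fun z => KaehlerDifferential.D B (Localization.AtPrime 𝔓')
      (algebraMap B' (Localization.AtPrime 𝔓') z)) hp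
    beta_reduce at h1
    rw [← Polynomial.aeval_algebraMap_apply, Derivation.map_aeval, hDθ, smul_zero,
      Algebra.smul_def, map_mul, ← IsScalarTower.algebraMap_apply, Derivation.leibniz,
      Derivation.map_algebraMap, smul_zero, add_zero, (hunit d hd).smul_eq_zero] at h1
    exact h1
  intro s
  obtain ⟨b', t, rfl⟩ := IsLocalization.exists_mk'_eq 𝔓'.primeCompl s
  have h1 : IsLocalization.mk' (Localization.AtPrime 𝔓') b' t
      * algebraMap B' (Localization.AtPrime 𝔓') t = algebraMap B' (Localization.AtPrime 𝔓') b' :=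
    IsLocalization.mk'_spec ..
  have h2 := congrArg (KaehlerDifferential.D B (Localization.AtPrime 𝔓')) h1
  rw [Derivation.leibniz, hDB', hDB', smul_zero, zero_add] at h2
  exact ((IsLocalization.map_units (Localization.AtPrime 𝔓') t).smul_eq_zero).1 h2

end Fermat.Agent.KL
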