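/-
KL-TK (Theorem K assembly, sub-lead helper1): ABSTRACT sub-statements.

Everything here is about abstract rings (no subtypes of `F`): the concrete charts
`PolyR A₀ t`, `Chart A₀ t`, ... are only plugged in in `KL/TheoremK.lean`.
Reason: `rfl`/`simp` on the concrete subalgebras makes the kernel time out.
-/
import Fermat.Agent.KL.Interface2

set_option autoImplicit false

namespace Fermat.Agent.KL

open Polynomial IsLocalRing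

/-- TK-1 (STEP 1): local irreducibility of the special fibre at all closed points of ONE chart,
if the ramification is vertical-free, and horizontal ramification only occurs over `x ∈ C`
(distinct mod `ϖ`), tamely. -/
def Stmt_TK1 : Prop :=
  ∀ (A₀ P F B : Type) [CommRing A₀] [IsDomain A₀] [IsDiscreteValuationRing A₀]
    [CommRing P] [Algebra A₀ P] [Field F] [CharZero F] [Algebra P F] [FaithfulSMul P F]
    [CommRing B] [Algebra P B] [Algebra B F] [IsScalarTower P B F] [IsIntegralClosure B P F]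
    (ϖ : A₀) (x : P) (e : ℕ) (ζ : A₀) (C : Finset A₀),
    Irreducible ϖ → IsPolyVar A₀ x → FinOverR P F → IsUnit (e : A₀) → IsPrimitiveRoot ζ e →
    (∀ c ∈ C, ∀ c' ∈ C, c ≠ c' → IsUnit (c - c')) →
    (∀ (𝔓 : Ideal B) [𝔓.IsPrime], IsHtOne 𝔓 → algebraMap P B (algebraMap A₀ P ϖ) ∈ 𝔓 →
      Algebra.IsUnramifiedAt P 𝔓) →
    (∀ (𝔓 : Ideal B) [𝔓.IsPrime], IsHtOne 𝔓 → algebraMap P B (algebraMap A₀ P ϖ) ∉ 𝔓 →
      (∀ c ∈ C, algebraMap P B x - algebraMap P B (algebraMap A₀ P c) ∉ 𝔓) →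
      Algebra.IsUnramifiedAt P 𝔓) →
    (∀ c ∈ C, ∀ 𝔓 : Ideal B, IsHtOne 𝔓 → algebraMap P B (algebraMap A₀ P ϖ) ∉ 𝔓 →
      algebraMap P B x - algebraMap P B (algebraMap A₀ P c) ∈ 𝔓 →
      TameAt e (algebraMap P B x - algebraMap P B (algebraMap A₀ P c)) 𝔓) →
    ∀ 𝔫 : Ideal B, 𝔫.IsMaximal → LocIrred (algebraMap P B (algebraMap A₀ P ϖ)) 𝔫

/-- TK-2 (STEP 2, the points at infinity): two charts `(P₁, B₁, x₁)`, `(P₂, B₂, x₂)` with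
`x₁ x₂ = 1` on the overlap `(PP, BB)`.  Local irreducibility at the closed points of the second
chart lying on `x₂ = 0`. -/
def Stmt_TK2 : Prop :=
  ∀ (A₀ F P₁ B₁ P₂ B₂ PP BB : Type) [CommRing A₀] [IsDomain A₀] [IsDiscreteValuationRing A₀]
    [Field F] [CharZero F]
    [CommRing P₁] [Algebra A₀ P₁] [Algebra P₁ F] [FaithfulSMul P₁ F]
    [CommRing B₁] [Algebra P₁ B₁] [Algebra B₁ F] [IsScalarTower P₁ B₁ F] [IsIntegralClosure B₁ P₁ F]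
    [CommRing P₂] [Algebra A₀ P₂] [Algebra P₂ F] [FaithfulSMul P₂ F]
    [CommRing B₂] [Algebra P₂ B₂] [Algebra B₂ F] [IsScalarTower P₂ B₂ F] [IsIntegralClosure B₂ P₂ F]
    [CommRing PP] [CommRing BB] [Algebra PP BB]
    [Algebra P₁ PP] [Algebra B₁ BB] [Algebra P₁ BB] [IsScalarTower P₁ PP BB]
    [IsScalarTower P₁ B₁ BB]
    [Algebra P₂ PP] [Algebra B₂ BB] [Algebra P₂ BB] [IsScalarTower P₂ PP BB]
    [IsScalarTower P₂ B₂ BB]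
    (ϖ : A₀) (x₁ : P₁) (x₂ : P₂) (e : ℕ) (ζ : A₀) (C : Finset A₀)
    [IsLocalization.Away x₁ PP] [IsLocalization.Away x₂ PP]
    [IsLocalization.Away (algebraMap P₁ B₁ x₁) BB] [IsLocalization.Away (algebraMap P₂ B₂ x₂) BB],
    Irreducible ϖ → IsPolyVar A₀ x₁ → IsPolyVar A₀ x₂ → FinOverR P₁ F → FinOverR P₂ F →
    algebraMap P₁ PP x₁ * algebraMap P₂ PP x₂ = 1 →
    (∀ a : A₀, algebraMap P₁ PP (algebraMap A₀ P₁ a) = algebraMap P₂ PP (algebraMap A₀ P₂ a)) →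
    IsUnit (e : A₀) → IsPrimitiveRoot ζ e →
    (∀ (𝔓 : Ideal B₁) [𝔓.IsPrime], IsHtOne 𝔓 → algebraMap P₁ B₁ (algebraMap A₀ P₁ ϖ) ∈ 𝔓 →
      Algebra.IsUnramifiedAt P₁ 𝔓) →
    (∀ (𝔓 : Ideal B₁) [𝔓.IsPrime], IsHtOne 𝔓 → algebraMap P₁ B₁ (algebraMap A₀ P₁ ϖ) ∉ 𝔓 →
      (∀ c ∈ C, algebraMap P₁ B₁ x₁ - algebraMap P₁ B₁ (algebraMap A₀ P₁ c) ∉ 𝔓) →
      Algebra.IsUnramifiedAt P₁ 𝔓) →
    (∀ 𝔓 : Ideal B₂, IsHtOne 𝔓 → algebraMap P₂ B₂ (algebraMap A₀ P₂ ϖ) ∉ 𝔓 →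
      algebraMap P₂ B₂ x₂ ∈ 𝔓 → TameAt e (algebraMap P₂ B₂ x₂) 𝔓) →
    ∀ 𝔫 : Ideal B₂, 𝔫.IsMaximal → algebraMap P₂ B₂ x₂ ∈ 𝔫 →
      LocIrred (algebraMap P₂ B₂ (algebraMap A₀ P₂ ϖ)) 𝔫

/-- TK-4 (STEP 4): the `H¹`-argument.  If `BB / (B₁ + B₂)` is a finitely generated `A₀`-module and
`B₁ ∩ B₂ = A₀`, there are no "approximate idempotents to all orders" separating two primes
`P`, `Q ∋ ϖ` of `B₁`. -/
def Stmt_TK4 : Prop :=
  ∀ (A₀ B₁ B₂ BB : Type) [CommRing A₀] [IsDomain A₀] [IsDiscreteValuationRing A₀]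
    [CommRing B₁] [CommRing B₂] [CommRing BB] [Algebra A₀ B₁] [Algebra A₀ B₂] [Algebra A₀ BB]
    [Algebra B₁ BB] [Algebra B₂ BB] [IsScalarTower A₀ B₁ BB] [IsScalarTower A₀ B₂ BB] (ϖ : A₀),
    Irreducible ϖ →
    (∃ N : Submodule A₀ BB, N.FG ∧ ∀ y : BB, ∃ (a : B₁) (b : B₂), ∃ n ∈ N,
      y = algebraMap B₁ BB a + algebraMap B₂ BB b + n) →
    (∀ (a : B₁) (b : B₂), algebraMap B₁ BB a = algebraMap B₂ BB b →
      ∃ α : A₀, a = algebraMap A₀ B₁ α) →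
    ∀ P Q : Ideal B₁, P.IsPrime → Q.IsPrime → algebraMap A₀ B₁ ϖ ∈ P → algebraMap A₀ B₁ ϖ ∈ Q →
    (∀ n : ℕ, ∃ (a : B₁) (b : B₂), a ∈ P ∧ a - 1 ∈ Q ∧
      algebraMap A₀ BB ϖ ^ n ∣ algebraMap B₁ BB a - algebraMap B₂ BB b) → False

end Fermat.Agent.KL
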