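/-
KL-TK, TK-1 (STEP 1 of Theorem K): `LocIrred` at all closed points of one chart.
-/
import Fermat.Agent.KL.TKInterface

set_option autoImplicit false

namespace Fermat.Agent.KL

open Polynomial IsLocalRing

theorem stmt_TK1 (h0 : Stmt_locIrredOfLocPrime) (hM : Stmt_polyMaximal) (hB : Stmt_chartBasic)
    (hCP : Stmt_chartPoint) (hCU : Stmt_cuspPoint) : Stmt_TK1 := by
  intro A₀ P F B _ _ _ _ _ _ _ _ _ _ _ _ _ _ ϖ x e ζ C hϖ hx hfin he hζ hC hb hc hc' 𝔫 h𝔫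
  obtain ⟨hfinB, hnoeth, hdom, hic, hfrac, hfaith, hint⟩ := hB A₀ P F B x hx hfin
  obtain ⟨hM1, hM2, hM3, hM4⟩ := hM A₀ P x hx ϖ hϖ
  by_cases hwn : algebraMap P B (algebraMap A₀ P ϖ) ∈ 𝔫
  swap
  · intro P' Q' hP' _ hPn _
    exact absurd (hPn (hP'.1.2 (Ideal.subset_span rfl))) hwn
  have hm : (𝔫.under P).IsMaximal := Ideal.isMaximal_comap_of_isIntegral_of_isMaximal 𝔫
  have hϖm : algebraMap A₀ P ϖ ∈ 𝔫.under P := hwn
  by_cases hcase : ∃ c ∈ C, x - algebraMap A₀ P c ∈ 𝔫.under P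
  · obtain ⟨c, hcC, hcm⟩ := hcase
    have hle : Ideal.span {algebraMap A₀ P ϖ, x - algebraMap A₀ P c} ≤ 𝔫.under P := by
      rw [Ideal.span_le]
      rintro y (rfl | rfl)
      exacts [hϖm, hcm]
    have heq : Ideal.span {algebraMap A₀ P ϖ, x - algebraMap A₀ P c} = 𝔫.under P :=
      (hM2 c).1.eq_of_le hm.ne_top hle
    refine hCU A₀ P F B ϖ x c e ζ hϖ hx hfin he hζ ?_ ?_ 𝔫 h𝔫.isPrime heq.symm
    · intro 𝔓 _ hht hle' hnot
      by_cases hw𝔓 : algebraMap P B (algebraMap A₀ P ϖ) ∈ 𝔓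
      · exact hb 𝔓 hht hw𝔓
      · apply hc 𝔓 hht hw𝔓
        intro c' hc'C hmem
        by_cases hcc : c' = c
        · subst hcc
          apply hnot
          rw [map_sub]
          exact hmem
        · have h1 : x - algebraMap A₀ P c' ∈ 𝔓.under P := by
            show algebraMap P B (x - algebraMap A₀ P c') ∈ 𝔓
            rw [map_sub]
            exact hmem
          have h2 := hM3 c c' (hle' h1)
          have h3 : IsUnit (c - c') := hC c hcC c' hc'C (Ne.symm hcc)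
          exact hϖ.not_isUnit (isUnit_of_dvd_unit h2 h3)
    · intro 𝔓 hht hmem hnot
      rw [map_sub] at hmem ⊢
      exact hc' c hcC 𝔓 hht hnot hmem
  · push Not at hcase
    apply h0 B _ 𝔫 h𝔫.isPrime
    refine hCP A₀ P F B ϖ x hϖ hx hfin (𝔫.under P) hm hϖm ?_ 𝔫 h𝔫 rfl
    intro 𝔓 _ hht hle'
    by_cases hw𝔓 : algebraMap P B (algebraMap A₀ P ϖ) ∈ 𝔓
    · exact hb 𝔓 hht hw𝔓
    · apply hc 𝔓 hht hw𝔓
      intro c hcC hmem
      apply hcase c hcC
      apply hle'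
      show algebraMap P B (x - algebraMap A₀ P c) ∈ 𝔓
      rw [map_sub]
      exact hmem

end Fermat.Agent.KL

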