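/-
KL-TK, STEP 2 of Theorem K: `LocIrred` at the points at infinity (`Stmt_TK2`).
-/
import Fermat.Agent.KL.TKInterface

set_option autoImplicit false

namespace Fermat.Agent.KL

open Polynomial IsLocalRing

namespace TK2

/-- the variable of a polynomial ring is not zero -/
theorem polyVar_ne_zero {A₀ P : Type} [CommRing A₀] [Nontrivial A₀] [CommRing P] [Algebra A₀ P]
    {x : P} (h : IsPolyVar A₀ x) : x ≠ 0 := by
  intro h0
  have h1 : aeval x (X : A₀[X]) = aeval x (0 : A₀[X]) := by rw [aeval_X, map_zero, h0]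
  exact X_ne_zero (h.1 h1)

/-- `LocIrred` is vacuous if `ϖ ∉ 𝔫`. -/
theorem locIrred_of_notMem {B : Type} [CommRing B] {ϖ : B} {𝔫 : Ideal B} (h : ϖ ∉ 𝔫) :
    LocIrred ϖ 𝔫 := by
  intro P _ hP _ hP𝔫 _
  exact absurd (hP𝔫 (hP.1.2 (Ideal.mem_span_singleton_self ϖ))) h

theorem isLocalization_algebraMapSubmonoid {P B BB : Type} [CommRing P] [CommRing B] [CommRing BB]
    [Algebra P B] [Algebra B BB] (x : P) [h : IsLocalization.Away (algebraMap P B x) BB] :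
    IsLocalization (Algebra.algebraMapSubmonoid B (Submonoid.powers x)) BB := by
  unfold Algebra.algebraMapSubmonoid
  rw [Submonoid.map_powers]
  exact h

/-- transfer of a height one prime from the second chart to the first one, with the
ramification. -/
theorem transfer (hH : Stmt_htOneLocalization) (hU : Stmt_unramLocalization)
    {P₁ B₁ P₂ B₂ PP BB : Type}
    [CommRing P₁] [CommRing B₁] [IsDomain B₁] [Algebra P₁ B₁]
    [CommRing P₂] [CommRing B₂] [IsDomain B₂] [Algebra P₂ B₂]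
    [CommRing PP] [CommRing BB] [Algebra PP BB]
    [Algebra P₁ PP] [Algebra B₁ BB] [Algebra P₁ BB] [IsScalarTower P₁ PP BB]
    [IsScalarTower P₁ B₁ BB]
    [Algebra P₂ PP] [Algebra B₂ BB] [Algebra P₂ BB] [IsScalarTower P₂ PP BB]
    [IsScalarTower P₂ B₂ BB]
    (x₁ : P₁) (x₂ : P₂)
    [IsLocalization.Away x₁ PP] [IsLocalization.Away x₂ PP]
    [IsLocalization.Away (algebraMap P₁ B₁ x₁) BB] [IsLocalization.Away (algebraMap P₂ B₂ x₂) BB]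
    (hx₁ : algebraMap P₁ B₁ x₁ ≠ 0)
    (Q₂ : Ideal B₂) [Q₂.IsPrime] (hQ₂ : IsHtOne Q₂) (hs : algebraMap P₂ B₂ x₂ ∉ Q₂) :
    ∃ (QQ : Ideal BB) (_ : (QQ.under B₁).IsPrime), IsHtOne (QQ.under B₁) ∧ QQ.under B₂ = Q₂ ∧
      (Algebra.IsUnramifiedAt P₁ (QQ.under B₁) → Algebra.IsUnramifiedAt P₂ Q₂) := by
  have hs0 : algebraMap P₂ B₂ x₂ ≠ 0 := fun h => hs (h ▸ Q₂.zero_mem)
  obtain ⟨hQQ, hQQu⟩ := (hH B₂ BB (Submonoid.powers (algebraMap P₂ B₂ x₂))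
    (powers_le_nonZeroDivisors_of_noZeroDivisors hs0)).2 Q₂ hQ₂
    ((Ideal.disjoint_powers_iff_notMem_of_isPrime _).mpr hs)
  have hQ₁ := (hH B₁ BB (Submonoid.powers (algebraMap P₁ B₁ x₁))
    (powers_le_nonZeroDivisors_of_noZeroDivisors hx₁)).1 _ hQQ
  have hQQp : (Q₂.map (algebraMap B₂ BB)).IsPrime := hQQ.1
  have hQ₁p : ((Q₂.map (algebraMap B₂ BB)).under B₁).IsPrime := hQ₁.1
  refine ⟨Q₂.map (algebraMap B₂ BB), hQ₁p, hQ₁, hQQu, fun h => ?_⟩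
  have i₁ := isLocalization_algebraMapSubmonoid (B := B₁) (BB := BB) x₁
  have i₂ := isLocalization_algebraMapSubmonoid (B := B₂) (BB := BB) x₂
  have e₁ := hU P₁ B₁ PP BB (Submonoid.powers x₁) (Q₂.map (algebraMap B₂ BB))
    ((Q₂.map (algebraMap B₂ BB)).under B₁) rfl
  have e₂ := hU P₂ B₂ PP BB (Submonoid.powers x₂) (Q₂.map (algebraMap B₂ BB)) Q₂ hQQu.symm
  exact e₂.mpr (e₁.mp h)

/-- the computation on the overlap: `(x₁ - c) x₂ = 1 - c x₂`. -/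
theorem overlap_identity {A₀ P₁ B₁ P₂ B₂ PP BB : Type} [CommRing A₀]
    [CommRing P₁] [Algebra A₀ P₁] [CommRing B₁] [Algebra P₁ B₁]
    [CommRing P₂] [Algebra A₀ P₂] [CommRing B₂] [Algebra P₂ B₂]
    [CommRing PP] [CommRing BB] [Algebra PP BB]
    [Algebra P₁ PP] [Algebra B₁ BB] [Algebra P₁ BB] [IsScalarTower P₁ PP BB]
    [IsScalarTower P₁ B₁ BB]
    [Algebra P₂ PP] [Algebra B₂ BB] [Algebra P₂ BB] [IsScalarTower P₂ PP BB]
    [IsScalarTower P₂ B₂ BB]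
    (x₁ : P₁) (x₂ : P₂)
    (hxx : algebraMap P₁ PP x₁ * algebraMap P₂ PP x₂ = 1)
    (hcst : ∀ a : A₀, algebraMap P₁ PP (algebraMap A₀ P₁ a) = algebraMap P₂ PP (algebraMap A₀ P₂ a))
    (c : A₀) :
    algebraMap B₁ BB (algebraMap P₁ B₁ x₁ - algebraMap P₁ B₁ (algebraMap A₀ P₁ c))
        * algebraMap B₂ BB (algebraMap P₂ B₂ x₂)
      = algebraMap B₂ BB (algebraMap P₂ B₂ (1 - algebraMap A₀ P₂ c * x₂)) := by
  have e₁ : ∀ p : P₁, algebraMap B₁ BB (algebraMap P₁ B₁ p) = algebraMap PP BB (algebraMap P₁ PP p) :=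
    fun p => by
      rw [← IsScalarTower.algebraMap_apply P₁ B₁ BB, IsScalarTower.algebraMap_apply P₁ PP BB]
  have e₂ : ∀ p : P₂, algebraMap B₂ BB (algebraMap P₂ B₂ p) = algebraMap PP BB (algebraMap P₂ PP p) :=
    fun p => by
      rw [← IsScalarTower.algebraMap_apply P₂ B₂ BB, IsScalarTower.algebraMap_apply P₂ PP BB]
  rw [map_sub, e₁, e₁, e₂, e₂, hcst, ← map_sub, ← map_mul, sub_mul, hxx]
  simp only [map_sub, map_one, map_mul]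

end TK2

open TK2 in
/-- TK-2 (STEP 2). -/
theorem stmt_TK2 (hM : Stmt_polyMaximal) (hB : Stmt_chartBasic) (hCU : Stmt_cuspPoint)
    (hH : Stmt_htOneLocalization) (hU : Stmt_unramLocalization) : Stmt_TK2 := by
  intro A₀ F P₁ B₁ P₂ B₂ PP BB _ _ _ _ _ _ _ _ _ _ _ _ _ _ _ _ _ _ _ _ _ _ _ _ _ _ _ _ _ _ _
    _ _ _ _ _ ϖ x₁ x₂ e ζ C _ _ _ _ hϖ hx₁ hx₂ hfin₁ hfin₂ hxx hcst he hζ hb hc hc'' 𝔫 h𝔫 hs𝔫
  by_cases hw : algebraMap P₂ B₂ (algebraMap A₀ P₂ ϖ) ∈ 𝔫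
  swap
  · exact locIrred_of_notMem hw
  obtain ⟨-, -, hdom₁, -, -, hfaith₁, -⟩ := hB A₀ P₁ F B₁ x₁ hx₁ hfin₁
  obtain ⟨-, -, hdom₂, -, -, -, -⟩ := hB A₀ P₂ F B₂ x₂ hx₂ hfin₂
  have h0 : x₂ - algebraMap A₀ P₂ 0 = x₂ := by rw [map_zero, sub_zero]
  have hmax := ((hM A₀ P₂ x₂ hx₂ ϖ hϖ).2.1 0).1
  have hCU' := hCU A₀ P₂ F B₂ ϖ x₂ 0 e ζ hϖ hx₂ hfin₂ he hζ
  rw [h0] at hmax hCU'
  have hunder : 𝔫.under P₂ = Ideal.span {algebraMap A₀ P₂ ϖ, x₂} := by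
    have hp : (𝔫.under P₂).IsPrime := Ideal.IsPrime.under P₂ 𝔫
    refine (hmax.eq_of_le hp.ne_top ?_).symm
    rw [Ideal.span_le]
    rintro y (rfl | rfl)
    · exact hw
    · exact hs𝔫
  have hx₁0 : algebraMap P₁ B₁ x₁ ≠ 0 :=
    (map_ne_zero_iff _ (FaithfulSMul.algebraMap_injective P₁ B₁)).mpr (polyVar_ne_zero hx₁)
  refine hCU' ?_ (fun 𝔓 h1 h2 h3 => hc'' 𝔓 h1 h3 h2) 𝔫 h𝔫.isPrime hunder
  intro Q₂ _ hQ₂ hle hsQ₂
  obtain ⟨QQ, hQ₁p, hQ₁, hQQu, himp⟩ := transfer hH hU (PP := PP) (BB := BB) x₁ x₂ hx₁0 Q₂ hQ₂ hsQ₂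
  refine himp ?_
  by_cases hw₁ : algebraMap P₁ B₁ (algebraMap A₀ P₁ ϖ) ∈ QQ.under B₁
  · exact hb _ hQ₁ hw₁
  · refine hc _ hQ₁ hw₁ fun c _ hmem => ?_
    have h1 : algebraMap B₁ BB (algebraMap P₁ B₁ x₁ - algebraMap P₁ B₁ (algebraMap A₀ P₁ c))
        ∈ QQ := hmem
    have h2 := QQ.mul_mem_right (algebraMap B₂ BB (algebraMap P₂ B₂ x₂)) h1
    rw [overlap_identity x₁ x₂ hxx hcst c] at h2
    have h3 : algebraMap P₂ B₂ (1 - algebraMap A₀ P₂ c * x₂) ∈ QQ.under B₂ := h2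
    rw [hQQu] at h3
    have h4 : 1 - algebraMap A₀ P₂ c * x₂ ∈ Ideal.span {algebraMap A₀ P₂ ϖ, x₂} := hle h3
    have h5 : x₂ ∈ Ideal.span {algebraMap A₀ P₂ ϖ, x₂} := Ideal.subset_span (by simp)
    have h6 := Ideal.add_mem _ h4 (Ideal.mul_mem_left _ (algebraMap A₀ P₂ c) h5)
    rw [sub_add_cancel] at h6
    exact hmax.ne_top ((Ideal.eq_top_iff_one _).mpr h6)

end Fermat.Agent.KL
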