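/-
KL-TK, STEP 4 of Theorem K: the `H¹` argument (`Stmt_TK4`).
-/
import Fermat.Agent.KL.TKInterface

set_option autoImplicit false

namespace Fermat.Agent.KL

theorem stmt_TK4 (h : Stmt_H1bound) : Stmt_TK4 := by
  intro A₀ B₁ B₂ BB _ _ _ _ _ _ _ _ _ _ _ _ _ ϖ hϖ hN hint P Q hP hQ hϖP hϖQ happ
  obtain ⟨N, hNfg, hNsp⟩ := hN
  set M₁ : Submodule A₀ BB :=
    LinearMap.range (IsScalarTower.toAlgHom A₀ B₁ BB).toLinearMap with hM₁
  set M₂ : Submodule A₀ BB :=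
    LinearMap.range (IsScalarTower.toAlgHom A₀ B₂ BB).toLinearMap with hM₂
  have mem1 : ∀ a : B₁, algebraMap B₁ BB a ∈ M₁ := fun a => ⟨a, rfl⟩
  have mem2 : ∀ b : B₂, algebraMap B₂ BB b ∈ M₂ := fun b => ⟨b, rfl⟩
  have htop : M₁ ⊔ M₂ ⊔ N = ⊤ := by
    rw [eq_top_iff]
    intro y _
    obtain ⟨a, b, n, hn, rfl⟩ := hNsp y
    exact Submodule.add_mem_sup (Submodule.add_mem_sup (mem1 a) (mem2 b)) hn
  obtain ⟨c, hc⟩ := h A₀ BB ϖ M₁ M₂ N hNfg htop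
  obtain ⟨a, b, haP, haQ, w, hw⟩ := happ (c + 1)
  have h1 : ϖ ^ (c + 1) • w ∈ M₁ ⊔ M₂ := by
    rw [Algebra.smul_def, map_pow, ← hw, sub_eq_add_neg, ← map_neg]
    exact Submodule.add_mem_sup (mem1 a) (mem2 (-b))
  have h2 := hc w (c + 1) h1
  obtain ⟨u, ⟨a', ha'⟩, v, ⟨b', hb'⟩, hab⟩ := Submodule.mem_sup.1 h2
  have ha'' : algebraMap B₁ BB a' = u := ha'
  have hb'' : algebraMap B₂ BB b' = v := hb'
  have key : algebraMap B₁ BB (a - algebraMap A₀ B₁ ϖ * a')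
      = algebraMap B₂ BB (b + algebraMap A₀ B₂ ϖ * b') := by
    rw [map_sub, map_add, map_mul, map_mul, ← IsScalarTower.algebraMap_apply,
      ← IsScalarTower.algebraMap_apply, ha'', hb'']
    rw [Algebra.smul_def, map_pow] at hab
    linear_combination hw - algebraMap A₀ BB ϖ * hab
  obtain ⟨α, hα⟩ := hint _ _ key
  have hαP : algebraMap A₀ B₁ α ∈ P := by
    rw [← hα]
    exact P.sub_mem haP (P.mul_mem_right _ hϖP)
  have hαu : ¬ IsUnit α := by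
    intro hu
    exact hP.ne_top (P.eq_top_of_isUnit_mem hαP (hu.map _))
  have hdvd : ϖ ∣ α := by
    have : α ∈ IsLocalRing.maximalIdeal A₀ := (IsLocalRing.mem_maximalIdeal α).2 hαu
    rw [hϖ.maximalIdeal_eq] at this
    exact Ideal.mem_span_singleton.1 this
  have hαQ : algebraMap A₀ B₁ α ∈ Q := by
    obtain ⟨β, rfl⟩ := hdvd
    rw [map_mul]
    exact Q.mul_mem_right _ hϖQ
  apply hQ.ne_top
  rw [Ideal.eq_top_iff_one]
  have h3 : (a - 1) - algebraMap A₀ B₁ ϖ * a' ∈ Q := Q.sub_mem haQ (Q.mul_mem_right _ hϖQ)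
  have h4 := Q.sub_mem hαQ h3
  rw [← hα] at h4
  have : a - algebraMap A₀ B₁ ϖ * a' - (a - 1 - algebraMap A₀ B₁ ϖ * a') = 1 := by ring
  rwa [this] at h4

end Fermat.Agent.KL
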