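/-
KL-TK (Theorem K assembly): the ABSTRACT form of Theorem K (two abstract charts and their overlap).
-/
import Fermat.Agent.KL.TKInterface

set_option autoImplicit false
set_option linter.style.haveILetI false

namespace Fermat.Agent.KL

namespace TK

open Polynomial IsLocalRing

theorem abs (hTK1 : Stmt_TK1) (hTK2 : Stmt_TK2) (hTK4 : Stmt_TK4) (hglue : Stmt_glue)
    (htr : Stmt_locIrredTransfer) (hB : Stmt_chartBasic)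
    (A₀ F P₁ B₁ P₂ B₂ PP BB : Type) [CommRing A₀] [IsDomain A₀] [IsDiscreteValuationRing A₀]
    [Field F] [CharZero F]
    [CommRing P₁] [Algebra A₀ P₁] [Algebra P₁ F] [FaithfulSMul P₁ F]
    [CommRing B₁] [Algebra P₁ B₁] [Algebra B₁ F] [IsScalarTower P₁ B₁ F] [IsIntegralClosure B₁ P₁ F]
    [CommRing P₂] [Algebra A₀ P₂] [Algebra P₂ F] [FaithfulSMul P₂ F]
    [CommRing B₂] [Algebra P₂ B₂] [Algebra B₂ F] [IsScalarTower P₂ B₂ F] [IsIntegralClosure B₂ P₂ F]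
    [CommRing PP] [CommRing BB] [Algebra PP BB]
    [Algebra P₁ PP] [Algebra B₁ BB] [Algebra P₁ BB] [IsScalarTower P₁ PP BB]
    [IsScalarTower P₁ B₁ BB]
    [Algebra P₂ PP] [Algebra B₂ BB] [Algebra P₂ BB] [IsScalarTower P₂ PP BB]
    [IsScalarTower P₂ B₂ BB]
    [Algebra A₀ F] [IsScalarTower A₀ P₁ F] [Algebra BB F] [IsScalarTower B₁ BB F]
    [IsScalarTower B₂ BB F]
    (ϖ : A₀) (x₁ : P₁) (x₂ : P₂) (e : ℕ) (ζ : A₀) (C : Finset A₀)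
    [IsLocalization.Away x₁ PP] [IsLocalization.Away x₂ PP]
    [IsLocalization.Away (algebraMap P₁ B₁ x₁) BB] [IsLocalization.Away (algebraMap P₂ B₂ x₂) BB]
    (hϖ : Irreducible ϖ) (hx₁ : IsPolyVar A₀ x₁) (hx₂ : IsPolyVar A₀ x₂) (hF₁ : FinOverR P₁ F)
    (hF₂ : FinOverR P₂ F)
    (hc1 : algebraMap P₁ PP x₁ * algebraMap P₂ PP x₂ = 1)
    (hc2 : ∀ a : A₀, algebraMap P₁ PP (algebraMap A₀ P₁ a) = algebraMap P₂ PP (algebraMap A₀ P₂ a))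
    (he : IsUnit (e : A₀)) (hζ : IsPrimitiveRoot ζ e)
    (hC : ∀ c ∈ C, ∀ c' ∈ C, c ≠ c' → IsUnit (c - c'))
    (hb : ∀ (𝔓 : Ideal B₁) [𝔓.IsPrime], IsHtOne 𝔓 → algebraMap P₁ B₁ (algebraMap A₀ P₁ ϖ) ∈ 𝔓 →
      Algebra.IsUnramifiedAt P₁ 𝔓)
    (hc : ∀ (𝔓 : Ideal B₁) [𝔓.IsPrime], IsHtOne 𝔓 → algebraMap P₁ B₁ (algebraMap A₀ P₁ ϖ) ∉ 𝔓 →
      (∀ c ∈ C, algebraMap P₁ B₁ x₁ - algebraMap P₁ B₁ (algebraMap A₀ P₁ c) ∉ 𝔓) →
      Algebra.IsUnramifiedAt P₁ 𝔓)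
    (hc' : ∀ c ∈ C, ∀ 𝔓 : Ideal B₁, IsHtOne 𝔓 → algebraMap P₁ B₁ (algebraMap A₀ P₁ ϖ) ∉ 𝔓 →
      algebraMap P₁ B₁ x₁ - algebraMap P₁ B₁ (algebraMap A₀ P₁ c) ∈ 𝔓 →
      TameAt e (algebraMap P₁ B₁ x₁ - algebraMap P₁ B₁ (algebraMap A₀ P₁ c)) 𝔓)
    (hc'' : ∀ 𝔓 : Ideal B₂, IsHtOne 𝔓 → algebraMap P₂ B₂ (algebraMap A₀ P₂ ϖ) ∉ 𝔓 →
      algebraMap P₂ B₂ x₂ ∈ 𝔓 → TameAt e (algebraMap P₂ B₂ x₂) 𝔓)
    (h3₁ : ∀ P ∈ (Ideal.span {algebraMap P₁ B₁ (algebraMap A₀ P₁ ϖ)}).minimalPrimes,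
      algebraMap P₁ B₁ x₁ ∉ P)
    (h3₂ : ∀ P ∈ (Ideal.span {algebraMap P₂ B₂ (algebraMap A₀ P₂ ϖ)}).minimalPrimes,
      algebraMap P₂ B₂ x₂ ∉ P)
    (hinjBB : Function.Injective (algebraMap BB F))
    (hfg : ∃ S : Finset F, ∀ y : BB, ∃ (a : B₁) (b : B₂), ∃ n ∈ Submodule.span A₀ (S : Set F),
      algebraMap BB F y = algebraMap B₁ F a + algebraMap B₂ F b + n)
    (hinter : ∀ (a : B₁) (b : B₂), algebraMap B₁ F a = algebraMap B₂ F b →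
      ∃ α : A₀, algebraMap B₁ F a = algebraMap A₀ F α) :
    ∀ P ∈ (Ideal.span {algebraMap P₁ B₁ (algebraMap A₀ P₁ ϖ)}).minimalPrimes,
    ∀ Q ∈ (Ideal.span {algebraMap P₁ B₁ (algebraMap A₀ P₁ ϖ)}).minimalPrimes, P = Q := by
  intro P hP Q hQ
  by_contra hPQ
  obtain ⟨-, hN₁, -, -, -, -, -⟩ := hB A₀ P₁ F B₁ x₁ hx₁ hF₁
  obtain ⟨-, hN₂, -, -, -, -, -⟩ := hB A₀ P₂ F B₂ x₂ hx₂ hF₂
  -- constants agree in `BB`
  have hcst : ∀ a : A₀, algebraMap B₁ BB (algebraMap P₁ B₁ (algebraMap A₀ P₁ a)) =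
      algebraMap B₂ BB (algebraMap P₂ B₂ (algebraMap A₀ P₂ a)) := by
    intro a
    rw [← IsScalarTower.algebraMap_apply P₁ B₁ BB, ← IsScalarTower.algebraMap_apply P₂ B₂ BB,
      IsScalarTower.algebraMap_apply P₁ PP BB, IsScalarTower.algebraMap_apply P₂ PP BB, hc2]
  -- STEP 1
  have h1 : ∀ 𝔫 : Ideal B₁, 𝔫.IsMaximal → LocIrred (algebraMap P₁ B₁ (algebraMap A₀ P₁ ϖ)) 𝔫 :=
    hTK1 A₀ P₁ F B₁ ϖ x₁ e ζ C hϖ hx₁ hF₁ he hζ hC hb hc hc'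
  -- STEP 2
  have h2 : ∀ 𝔫 : Ideal B₂, 𝔫.IsMaximal → LocIrred (algebraMap P₂ B₂ (algebraMap A₀ P₂ ϖ)) 𝔫 := by
    intro 𝔫 h𝔫
    by_cases hs : algebraMap P₂ B₂ x₂ ∈ 𝔫
    · exact hTK2 A₀ F P₁ B₁ P₂ B₂ PP BB ϖ x₁ x₂ e ζ C hϖ hx₁ hx₂ hF₁ hF₂ hc1 hc2 he hζ hb hc hc''
        𝔫 h𝔫 hs
    · exact htr B₁ B₂ BB (algebraMap P₁ B₁ x₁) (algebraMap P₂ B₂ x₂) _ _ (hcst ϖ) h1 𝔫
        h𝔫.isPrime hs
  -- gluing
  have h4 := hglue B₁ B₂ BB (algebraMap P₁ B₁ x₁) (algebraMap P₂ B₂ x₂) _ _ (hcst ϖ) h1 h2 h3₁ h3₂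
    P hP Q hQ hPQ
  -- the `A₀`-structures
  letI : Algebra A₀ B₁ := ((algebraMap P₁ B₁).comp (algebraMap A₀ P₁)).toAlgebra
  letI : Algebra A₀ B₂ := ((algebraMap P₂ B₂).comp (algebraMap A₀ P₂)).toAlgebra
  letI : Algebra A₀ BB := ((algebraMap B₁ BB).comp (algebraMap A₀ B₁)).toAlgebra
  haveI : IsScalarTower A₀ B₁ BB := IsScalarTower.of_algebraMap_eq' rfl
  haveI : IsScalarTower A₀ B₂ BB := IsScalarTower.of_algebraMap_eq (fun a => hcst a)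
  have hA₁F : ∀ a : A₀, algebraMap B₁ F (algebraMap A₀ B₁ a) = algebraMap A₀ F a := by
    intro a
    show algebraMap B₁ F (algebraMap P₁ B₁ (algebraMap A₀ P₁ a)) = _
    rw [← IsScalarTower.algebraMap_apply P₁ B₁ F, ← IsScalarTower.algebraMap_apply A₀ P₁ F]
  haveI : IsScalarTower A₀ BB F := IsScalarTower.of_algebraMap_eq (fun a => by
    show _ = algebraMap BB F (algebraMap B₁ BB (algebraMap A₀ B₁ a))
    rw [← IsScalarTower.algebraMap_apply B₁ BB F, hA₁F])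
  have hinj₁ : Function.Injective (algebraMap B₁ F) :=
    IsIntegralClosure.algebraMap_injective B₁ P₁ F
  refine hTK4 A₀ B₁ B₂ BB ϖ hϖ ?_ ?_ P Q hP.1.1 hQ.1.1 (hP.1.2 (Ideal.subset_span rfl))
    (hQ.1.2 (Ideal.subset_span rfl)) ?_
  · obtain ⟨S, hS⟩ := hfg
    let φ : BB →ₗ[A₀] F := (IsScalarTower.toAlgHom A₀ BB F).toLinearMap
    have hφ : ∀ y, φ y = algebraMap BB F y := fun _ => rfl
    refine ⟨(Submodule.span A₀ (S : Set F)).comap φ, ?_, ?_⟩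
    · apply Submodule.fg_of_fg_map_injective φ hinjBB
      exact Submodule.FG.of_le (Submodule.fg_span S.finite_toSet) (Submodule.map_comap_le _ _)
    · intro y
      obtain ⟨a, b, n, hn, hy⟩ := hS y
      refine ⟨a, b, y - algebraMap B₁ BB a - algebraMap B₂ BB b, ?_, by ring⟩
      rw [Submodule.mem_comap, hφ, map_sub, map_sub, ← IsScalarTower.algebraMap_apply B₁ BB F,
        ← IsScalarTower.algebraMap_apply B₂ BB F, hy]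
      have : algebraMap B₁ F a + algebraMap B₂ F b + n - algebraMap B₁ F a - algebraMap B₂ F b = n := by
        ring
      rw [this]
      exact hn
  · intro a b hab
    have : algebraMap B₁ F a = algebraMap B₂ F b := by
      rw [IsScalarTower.algebraMap_apply B₁ BB F, IsScalarTower.algebraMap_apply B₂ BB F, hab]
    obtain ⟨α, hα⟩ := hinter a b this
    exact ⟨α, hinj₁ (by rw [hα, hA₁F])⟩
  · intro n
    obtain ⟨a, b, ha, ha', hd⟩ := h4 n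
    exact ⟨a, b, ha, ha', hd⟩

end TK

end Fermat.Agent.KL
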