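/-
KL-TK (Theorem K assembly): GENERIC constructions (abstract rings / abstract subalgebras; cheap for
the kernel).  The concrete charts are obtained by instantiation only.
-/
import Fermat.Agent.KL.TKInterface

set_option autoImplicit false

namespace Fermat.Agent.KL

namespace TK

theorem away_of_injective {B B' : Type*} [CommRing B] [CommRing B'] [Algebra B B']
    (hinj : Function.Injective (algebraMap B B')) (x : B) (hx : IsUnit (algebraMap B B' x))
    (hsurj : ∀ y : B', ∃ (k : ℕ) (b : B), y * algebraMap B B' (x ^ k) = algebraMap B B' b) :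
    IsLocalization.Away x B' where
  map_units := by
    rintro ⟨y, k, rfl⟩
    simpa using hx.pow k
  surj y := by
    obtain ⟨k, b, h⟩ := hsurj y
    exact ⟨⟨b, ⟨x ^ k, k, rfl⟩⟩, h⟩
  exists_of_eq {a b} h := ⟨1, by rw [hinj h]⟩

/-! ### inclusions of subalgebras -/

section Sub

variable {A₀ F : Type*} [CommRing A₀] [CommRing F] [Algebra A₀ F] {S S' : Subalgebra A₀ F}
  (h : S ≤ S')

/-- the algebra structure given by an inclusion of subalgebras -/
@[reducible] def algIncl : Algebra S S' := (Subalgebra.inclusion h).toRingHom.toAlgebra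

theorem coe_algIncl (y : S) : (((algIncl h).algebraMap y : S') : F) = (y : F) := rfl

theorem tower_algIncl : @IsScalarTower S S' F (algIncl h).toSMul _ _ :=
  letI := algIncl h
  IsScalarTower.of_algebraMap_eq' rfl

theorem tower_algIncl' : @IsScalarTower A₀ S S' _ (algIncl h).toSMul _ :=
  letI := algIncl h
  IsScalarTower.of_algebraMap_eq' rfl

theorem injective_algIncl : Function.Injective (@algebraMap S S' _ _ (algIncl h)) := by
  intro a b hab
  apply Subtype.ext
  have := congrArg (Subtype.val) hab
  exact this

theorem away_algIncl (x : S) (x' : S') ( hxx' : (x : F) * (x' : F) = 1)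
    (hs : ∀ y ∈ S', ∃ k : ℕ, y * (x : F) ^ k ∈ S) :
    @IsLocalization.Away S _ x S' _ (algIncl h) := by
  letI := algIncl h
  refine away_of_injective (injective_algIncl h) x ?_ ?_
  · refine IsUnit.of_mul_eq_one x' ?_
    apply Subtype.ext
    exact hxx'
  · intro y
    obtain ⟨k, hk⟩ := hs y.1 y.2
    refine ⟨k, ⟨_, hk⟩, ?_⟩
    apply Subtype.ext
    rfl

theorem faithful_sub (S : Subalgebra A₀ F) : FaithfulSMul S F :=
  (faithfulSMul_iff_algebraMap_injective _ _).2 Subtype.val_injective

theorem algebraMap_sub_apply (S : Subalgebra A₀ F) (y : S) : algebraMap S F y = (y : F) := rfl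

theorem mul_eq_one_incl {S₁ S₂ SS : Subalgebra A₀ F} (h₁ : S₁ ≤ SS) (h₂ : S₂ ≤ SS) (x : S₁)
    (y : S₂) (hxy : (x : F) * (y : F) = 1) :
    @algebraMap S₁ SS _ _ (algIncl h₁) x * @algebraMap S₂ SS _ _ (algIncl h₂) y = 1 :=
  Subtype.ext hxy

theorem cst_incl {S₁ S₂ SS : Subalgebra A₀ F} (h₁ : S₁ ≤ SS) (h₂ : S₂ ≤ SS) (a : A₀) :
    @algebraMap S₁ SS _ _ (algIncl h₁) (algebraMap A₀ S₁ a) =
      @algebraMap S₂ SS _ _ (algIncl h₂) (algebraMap A₀ S₂ a) := rfl

end Sub

theorem exists_pow_mul_mem_adjoin {A₀ F : Type*} [CommRing A₀] [CommRing F] [Algebra A₀ F]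
    (u v : F) (huv : u * v = 1) (y : F) (hy : y ∈ Algebra.adjoin A₀ {u, v}) :
    ∃ k : ℕ, y * u ^ k ∈ Algebra.adjoin A₀ {u} := by
  have hu : u ∈ Algebra.adjoin A₀ {u} := Algebra.self_mem_adjoin_singleton A₀ u
  induction hy using Algebra.adjoin_induction with
  | mem x hx =>
    rcases hx with rfl | hx
    · exact ⟨0, by simp [hu]⟩
    · rw [Set.mem_singleton_iff] at hx
      subst hx
      exact ⟨1, by rw [pow_one, mul_comm, huv]; exact one_mem _⟩
  | algebraMap r => exact ⟨0, by simp⟩
  | add x y _ _ hx hy =>
    obtain ⟨k, hk⟩ := hx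
    obtain ⟨l, hl⟩ := hy
    refine ⟨k + l, ?_⟩
    have : (x + y) * u ^ (k + l) = x * u ^ k * u ^ l + y * u ^ l * u ^ k := by ring
    rw [this]
    exact add_mem (mul_mem hk (pow_mem hu _)) (mul_mem hl (pow_mem hu _))
  | mul x y _ _ hx hy =>
    obtain ⟨k, hk⟩ := hx
    obtain ⟨l, hl⟩ := hy
    refine ⟨k + l, ?_⟩
    have : (x * y) * u ^ (k + l) = (x * u ^ k) * (y * u ^ l) := by ring
    rw [this]
    exact mul_mem hk hl

/-! ### inclusions of integral closures -/

section IC

variable {R R' F : Type*} [CommRing R] [CommRing R'] [CommRing F] [Algebra R F] [Algebra R' F]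
  [Algebra R R'] [IsScalarTower R R' F]

variable (R R' F) in
/-- the inclusion of integral closures -/
def incIC : integralClosure R F →+* integralClosure R' F :=
  (algebraMap (integralClosure R F) F).codRestrict (integralClosure R' F)
    (fun y => IsIntegral.tower_top y.2)

variable (R R' F) in
/-- the algebra structure given by the inclusion of integral closures -/
@[reducible] def algIC : Algebra (integralClosure R F) (integralClosure R' F) :=
  (incIC R R' F).toAlgebra

theorem coe_algIC (y : integralClosure R F) :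
    (((algIC R R' F).algebraMap y : integralClosure R' F) : F) = (y : F) := rfl

theorem tower_algIC_F :
    @IsScalarTower (integralClosure R F) (integralClosure R' F) F (algIC R R' F).toSMul _ _ :=
  letI := algIC R R' F
  IsScalarTower.of_algebraMap_eq' rfl

theorem tower_algIC :
    @IsScalarTower R (integralClosure R F) (integralClosure R' F) _ (algIC R R' F).toSMul _ :=
  letI := algIC R R' F
  IsScalarTower.of_algebraMap_eq' rfl

theorem injective_algIC : Function.Injective
    (@algebraMap (integralClosure R F) (integralClosure R' F) _ _ (algIC R R' F)) := by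
  intro a b hab
  apply Subtype.ext
  have := congrArg (Subtype.val) hab
  exact this

theorem away_algIC (x : R) (hx : IsUnit (algebraMap R R' x))
    (hs : ∀ y : F, IsIntegral R' y → ∃ k : ℕ, IsIntegral R (y * algebraMap R F x ^ k)) :
    @IsLocalization.Away (integralClosure R F) _ (algebraMap R (integralClosure R F) x)
      (integralClosure R' F) _ (algIC R R' F) := by
  letI := algIC R R' F
  refine away_of_injective (B := integralClosure R F) (B' := integralClosure R' F)
    injective_algIC (algebraMap R (integralClosure R F) x) ?_ ?_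
  · have h1 : algebraMap (integralClosure R F) (integralClosure R' F)
        (algebraMap R (integralClosure R F) x) =
        algebraMap R' (integralClosure R' F) (algebraMap R R' x) := by
      apply Subtype.ext
      exact IsScalarTower.algebraMap_apply R R' F x
    rw [h1]
    exact hx.map _
  · intro y
    obtain ⟨k, hk⟩ := hs y.1 y.2
    refine ⟨k, ⟨_, hk⟩, ?_⟩
    apply Subtype.ext
    rfl

end IC

end TK

end Fermat.Agent.KL
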