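/-
KL-TK (Theorem K assembly): the two concrete charts `t`, `t⁻¹` and their overlap as rings with
algebra structures, and the four localisation statements (instantiations of `TKGeneric`).
-/
import Fermat.Agent.KL.TKGeneric

set_option autoImplicit false
set_option linter.style.haveILetI false

namespace Fermat.Agent.KL

namespace TK

variable (A₀ : Type) {F : Type} [CommRing A₀] [Field F] [Algebra A₀ F] (t : F)

theorem polyR_le : PolyR A₀ t ≤ PolyR2 A₀ t :=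
  Algebra.adjoin_mono (by simp)

theorem polyR_inv_le : PolyR A₀ t⁻¹ ≤ PolyR2 A₀ t :=
  Algebra.adjoin_mono (by simp)

/-- `A₀[t] → A₀[t, t⁻¹]` -/
instance algP1 : Algebra (PolyR A₀ t) (PolyR2 A₀ t) := algIncl (polyR_le A₀ t)

/-- `A₀[t⁻¹] → A₀[t, t⁻¹]` -/
instance algP2 : Algebra (PolyR A₀ t⁻¹) (PolyR2 A₀ t) := algIncl (polyR_inv_le A₀ t)

instance towerP1 : IsScalarTower (PolyR A₀ t) (PolyR2 A₀ t) F := tower_algIncl (polyR_le A₀ t)

instance towerP2 : IsScalarTower (PolyR A₀ t⁻¹) (PolyR2 A₀ t) F :=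
  tower_algIncl (polyR_inv_le A₀ t)

instance algB1 : Algebra (Chart A₀ t) (Chart2 A₀ t) := algIC (PolyR A₀ t) (PolyR2 A₀ t) F

instance algB2 : Algebra (Chart A₀ t⁻¹) (Chart2 A₀ t) := algIC (PolyR A₀ t⁻¹) (PolyR2 A₀ t) F

instance towerB1F : IsScalarTower (Chart A₀ t) (Chart2 A₀ t) F :=
  tower_algIC_F (R := PolyR A₀ t) (R' := PolyR2 A₀ t)

instance towerB2F : IsScalarTower (Chart A₀ t⁻¹) (Chart2 A₀ t) F :=
  tower_algIC_F (R := PolyR A₀ t⁻¹) (R' := PolyR2 A₀ t)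

instance towerPB1 : IsScalarTower (PolyR A₀ t) (Chart A₀ t) (Chart2 A₀ t) :=
  tower_algIC (R := PolyR A₀ t) (R' := PolyR2 A₀ t)

instance towerPB2 : IsScalarTower (PolyR A₀ t⁻¹) (Chart A₀ t⁻¹) (Chart2 A₀ t) :=
  tower_algIC (R := PolyR A₀ t⁻¹) (R' := PolyR2 A₀ t)

instance faithfulP (x : F) : FaithfulSMul (PolyR A₀ x) F := faithful_sub _

theorem coe_polyX (x : F) : ((polyX A₀ x : PolyR A₀ x) : F) = x := rfl

variable {t}

theorem awayP1 (ht : t ≠ 0) : IsLocalization.Away (polyX A₀ t) (PolyR2 A₀ t) :=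
  away_algIncl (polyR_le A₀ t) (polyX A₀ t)
    ⟨t⁻¹, Algebra.subset_adjoin (by simp)⟩ (mul_inv_cancel₀ ht)
    (fun y hy => exists_pow_mul_mem_adjoin t t⁻¹ (mul_inv_cancel₀ ht) y hy)

theorem awayP2 (ht : t ≠ 0) : IsLocalization.Away (polyX A₀ t⁻¹) (PolyR2 A₀ t) :=
  away_algIncl (polyR_inv_le A₀ t) (polyX A₀ t⁻¹)
    ⟨t, Algebra.subset_adjoin (by simp)⟩ (inv_mul_cancel₀ ht)
    (fun y hy => exists_pow_mul_mem_adjoin t⁻¹ t (inv_mul_cancel₀ ht) y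
      (by rw [Set.pair_comm]; exact hy))

theorem awayB1 (hO : Stmt_chartOverlap) (ht : t ≠ 0) :
    IsLocalization.Away (crd A₀ t) (Chart2 A₀ t) := by
  haveI := awayP1 A₀ ht
  refine away_algIC (R := PolyR A₀ t) (R' := PolyR2 A₀ t) (polyX A₀ t)
    (IsLocalization.Away.algebraMap_isUnit _) ?_
  intro y hy
  obtain ⟨k, hk⟩ := (hO A₀ F t ht y hy).1
  refine ⟨k, ?_⟩
  rw [algebraMap_sub_apply, coe_polyX, mul_comm]
  exact hk

theorem awayB2 (hO : Stmt_chartOverlap) (ht : t ≠ 0) :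
    IsLocalization.Away (crd A₀ t⁻¹) (Chart2 A₀ t) := by
  haveI := awayP2 A₀ ht
  refine away_algIC (R := PolyR A₀ t⁻¹) (R' := PolyR2 A₀ t) (polyX A₀ t⁻¹)
    (IsLocalization.Away.algebraMap_isUnit _) ?_
  intro y hy
  obtain ⟨k, hk⟩ := (hO A₀ F t ht y hy).2
  refine ⟨k, ?_⟩
  rw [algebraMap_sub_apply, coe_polyX, mul_comm]
  exact hk

theorem compat1 (ht : t ≠ 0) :
    algebraMap (PolyR A₀ t) (PolyR2 A₀ t) (polyX A₀ t) *
      algebraMap (PolyR A₀ t⁻¹) (PolyR2 A₀ t) (polyX A₀ t⁻¹) = 1 :=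
  mul_eq_one_incl (polyR_le A₀ t) (polyR_inv_le A₀ t) (polyX A₀ t) (polyX A₀ t⁻¹)
    (mul_inv_cancel₀ ht)

variable (t) in
theorem compat2 (a : A₀) :
    algebraMap (PolyR A₀ t) (PolyR2 A₀ t) (algebraMap A₀ (PolyR A₀ t) a) =
      algebraMap (PolyR A₀ t⁻¹) (PolyR2 A₀ t) (algebraMap A₀ (PolyR A₀ t⁻¹) a) :=
  cst_incl (polyR_le A₀ t) (polyR_inv_le A₀ t) a

end TK

end Fermat.Agent.KL
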