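/-
KL-TK : the concrete two-chart package in the form needed by `Stmt_TK4` / `Stmt_glue`
(requested by S36/ABS-COV).  `A₀`-algebra structures are the canonical ones
(`Subalgebra.algebra'`).
-/
import Fermat.Agent.KL.TKCharts

set_option autoImplicit false
set_option linter.style.haveILetI false

namespace Fermat.Agent.KL

namespace TK

/-! ### generic lemmas -/

section Generic

variable {A₀ B₁ B₂ BB F : Type*} [CommRing A₀] [CommRing B₁] [CommRing B₂] [CommRing BB]
  [CommRing F] [Algebra A₀ BB] [Algebra A₀ F] [Algebra BB F] [IsScalarTower A₀ BB F]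
  [Algebra B₁ BB] [Algebra B₁ F] [IsScalarTower B₁ BB F]
  [Algebra B₂ BB] [Algebra B₂ F] [IsScalarTower B₂ BB F]

theorem h1_generic [IsNoetherianRing A₀] (hinjBB : Function.Injective (algebraMap BB F))
    (hfg : ∃ S : Finset F, ∀ y : BB, ∃ (a : B₁) (b : B₂), ∃ n ∈ Submodule.span A₀ (S : Set F),
      algebraMap BB F y = algebraMap B₁ F a + algebraMap B₂ F b + n) :
    ∃ N : Submodule A₀ BB, N.FG ∧ ∀ y : BB, ∃ (a : B₁) (b : B₂), ∃ n ∈ N,
      y = algebraMap B₁ BB a + algebraMap B₂ BB b + n := by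
  obtain ⟨S, hS⟩ := hfg
  let φ : BB →ₗ[A₀] F := (IsScalarTower.toAlgHom A₀ BB F).toLinearMap
  have hφ : ∀ y, φ y = algebraMap BB F y := fun _ => rfl
  refine ⟨(Submodule.span A₀ (S : Set F)).comap φ, ?_, ?_⟩
  · apply Submodule.fg_of_fg_map_injective φ hinjBB
    exact Submodule.FG.of_le (Submodule.fg_span S.finite_toSet) (Submodule.map_comap_le _ _)
  · intro y
    obtain ⟨a, b, n, hn, hy⟩ := hS y
    refine ⟨a, b, y - algebraMap B₁ BB a - algebraMap B₂ BB b, ?_, by ring⟩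
    rw [Submodule.mem_comap, hφ, map_sub, map_sub, ← IsScalarTower.algebraMap_apply B₁ BB F,
      ← IsScalarTower.algebraMap_apply B₂ BB F, hy]
    have : algebraMap B₁ F a + algebraMap B₂ F b + n - algebraMap B₁ F a - algebraMap B₂ F b =
        n := by ring
    rw [this]
    exact hn

omit [Algebra A₀ BB] [IsScalarTower A₀ BB F] in
theorem h0_generic [Algebra A₀ B₁] [IsScalarTower A₀ B₁ F]
    (hinj₁ : Function.Injective (algebraMap B₁ F))
    (hinter : ∀ (a : B₁) (b : B₂), algebraMap B₁ F a = algebraMap B₂ F b →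
      ∃ α : A₀, algebraMap B₁ F a = algebraMap A₀ F α) :
    ∀ (a : B₁) (b : B₂), algebraMap B₁ BB a = algebraMap B₂ BB b →
      ∃ α : A₀, a = algebraMap A₀ B₁ α := by
  intro a b hab
  have : algebraMap B₁ F a = algebraMap B₂ F b := by
    rw [IsScalarTower.algebraMap_apply B₁ BB F, IsScalarTower.algebraMap_apply B₂ BB F, hab]
  obtain ⟨α, hα⟩ := hinter a b this
  exact ⟨α, hinj₁ (by rw [hα, ← IsScalarTower.algebraMap_apply A₀ B₁ F])⟩

/-- a tower criterion through an injective map to `F` -/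
theorem tower_of_injective [Algebra A₀ B₁] [IsScalarTower A₀ B₁ F]
    (hinjBB : Function.Injective (algebraMap BB F)) : IsScalarTower A₀ B₁ BB :=
  IsScalarTower.of_algebraMap_eq (fun a => hinjBB (by
    rw [← IsScalarTower.algebraMap_apply B₁ BB F, ← IsScalarTower.algebraMap_apply A₀ B₁ F,
      ← IsScalarTower.algebraMap_apply A₀ BB F]))

end Generic

/-! ### the concrete charts -/

variable (A₀ : Type) {F : Type} [CommRing A₀] [Field F] [Algebra A₀ F] (t : F)

theorem injective_BB : Function.Injective (algebraMap (Chart2 A₀ t) F) :=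
  IsIntegralClosure.algebraMap_injective (Chart2 A₀ t) (PolyR2 A₀ t) F

theorem injective_B (x : F) : Function.Injective (algebraMap (Chart A₀ x) F) :=
  IsIntegralClosure.algebraMap_injective (Chart A₀ x) (PolyR A₀ x) F

instance towerA1 : IsScalarTower A₀ (Chart A₀ t) (Chart2 A₀ t) :=
  tower_of_injective (F := F) (injective_BB A₀ t)

instance towerA2 : IsScalarTower A₀ (Chart A₀ t⁻¹) (Chart2 A₀ t) :=
  tower_of_injective (F := F) (injective_BB A₀ t)

/-- `cst` is the canonical structure map. -/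
theorem cst_eq (x : F) (a : A₀) : cst A₀ x a = algebraMap A₀ (Chart A₀ x) a :=
  (IsScalarTower.algebraMap_apply A₀ (PolyR A₀ x) (Chart A₀ x) a).symm

variable {t}

/-- first hypothesis of `Stmt_TK4` for the concrete charts -/
theorem chart_h1 (hH : Stmt_H1fg) [IsDomain A₀] [IsDiscreteValuationRing A₀] [CharZero F]
    [FaithfulSMul A₀ F] (htr : Transcendental A₀ t) (hF : FinOverR (PolyR A₀ t) F) :
    ∃ N : Submodule A₀ (Chart2 A₀ t), N.FG ∧ ∀ y : Chart2 A₀ t,
      ∃ (a : Chart A₀ t) (b : Chart A₀ t⁻¹), ∃ n ∈ N,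
      y = algebraMap (Chart A₀ t) (Chart2 A₀ t) a + algebraMap (Chart A₀ t⁻¹) (Chart2 A₀ t) b + n := by
  refine h1_generic (F := F) (injective_BB A₀ t) ?_
  obtain ⟨S, hS⟩ := hH A₀ F t htr hF
  refine ⟨S, fun y => ?_⟩
  obtain ⟨a, b, n, ha, hb', hn, hy⟩ := hS y.1 y.2
  exact ⟨⟨a, ha⟩, ⟨b, hb'⟩, n, hn, hy⟩

/-- second hypothesis of `Stmt_TK4` for the concrete charts -/
theorem chart_h0 (hI : Stmt_chartInter) [IsDomain A₀] [IsIntegrallyClosed A₀]
    [FaithfulSMul A₀ F] (htr : Transcendental A₀ t)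
    (hconst : ∀ y : F, IsIntegral A₀ y → y ∈ (algebraMap A₀ F).range) :
    ∀ (a : Chart A₀ t) (b : Chart A₀ t⁻¹),
      algebraMap (Chart A₀ t) (Chart2 A₀ t) a = algebraMap (Chart A₀ t⁻¹) (Chart2 A₀ t) b →
      ∃ α : A₀, a = algebraMap A₀ (Chart A₀ t) α := by
  refine h0_generic (F := F) (injective_B A₀ t) ?_
  intro a b hab
  have h1 : IsIntegral (PolyR A₀ t) (a : F) := a.2
  have h2 : IsIntegral (PolyR A₀ t⁻¹) (a : F) := by
    have : (a : F) = (b : F) := hab
    rw [this]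
    exact b.2
  obtain ⟨α, hα⟩ := hconst _ (hI A₀ F t htr _ h1 h2)
  exact ⟨α, hα.symm⟩

/-- constants agree on the overlap -/
theorem cst_compat (a : A₀) :
    algebraMap (Chart A₀ t) (Chart2 A₀ t) (cst A₀ t a) =
      algebraMap (Chart A₀ t⁻¹) (Chart2 A₀ t) (cst A₀ t⁻¹ a) := by
  rw [cst_eq, cst_eq, ← IsScalarTower.algebraMap_apply A₀ (Chart A₀ t) (Chart2 A₀ t),
    ← IsScalarTower.algebraMap_apply A₀ (Chart A₀ t⁻¹) (Chart2 A₀ t)]

/-- `t * t⁻¹ = 1` on the overlap -/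
theorem crd_compat (ht : t ≠ 0) :
    algebraMap (Chart A₀ t) (Chart2 A₀ t) (crd A₀ t) *
      algebraMap (Chart A₀ t⁻¹) (Chart2 A₀ t) (crd A₀ t⁻¹) = 1 := by
  rw [← IsScalarTower.algebraMap_apply (PolyR A₀ t) (Chart A₀ t) (Chart2 A₀ t),
    ← IsScalarTower.algebraMap_apply (PolyR A₀ t⁻¹) (Chart A₀ t⁻¹) (Chart2 A₀ t),
    IsScalarTower.algebraMap_apply (PolyR A₀ t) (PolyR2 A₀ t) (Chart2 A₀ t),
    IsScalarTower.algebraMap_apply (PolyR A₀ t⁻¹) (PolyR2 A₀ t) (Chart2 A₀ t), ← map_mul,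
    compat1 A₀ ht, map_one]

end TK

end Fermat.Agent.KL
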