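/-
KL-TK : Theorem K (assembly).
-/
import Fermat.Agent.KL.TKCharts
import Fermat.Agent.KL.TKAbs

set_option autoImplicit false
set_option linter.style.haveILetI false

namespace Fermat.Agent.KL

open Polynomial IsLocalRing

/-- Theorem K from the abstract packages. -/
theorem theoremK_of (hTK1 : Stmt_TK1) (hTK2 : Stmt_TK2) (hTK4 : Stmt_TK4) (hglue : Stmt_glue)
    (htr : Stmt_locIrredTransfer) (hB : Stmt_chartBasic) (hPR : Stmt_polyRing)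
    (hM : Stmt_polyMaximal) (hPC : Stmt_polyRConcrete) (hO : Stmt_chartOverlap)
    (hI : Stmt_chartInter) (hH : Stmt_H1fg) (hNM : Stmt_notMemMinimalPrimes) : Stmt_theoremK := by
  intro A₀ F _ _ _ _ _ _ _ ϖ t e ζ C hϖ htr' hF₁ hconst he hζ hC hb hc hc' hc''
  have ht : t ≠ 0 := by
    rintro rfl
    exact htr' (isAlgebraic_zero)
  obtain ⟨hx₁, htr₂, hF₂'⟩ := hPC A₀ F t htr'
  have hF₂ := hF₂' hF₁
  obtain ⟨hx₂, -, -⟩ := hPC A₀ F t⁻¹ htr₂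
  haveI := TK.awayP1 A₀ ht
  haveI := TK.awayP2 A₀ ht
  haveI := TK.awayB1 A₀ hO ht
  haveI := TK.awayB2 A₀ hO ht
  -- STEP 3
  have h3 : ∀ x : F, IsPolyVar A₀ (polyX A₀ x) →
      ∀ P ∈ (Ideal.span {cst A₀ x ϖ}).minimalPrimes, crd A₀ x ∉ P := by
    intro x hx
    obtain ⟨hd, -, -, hic, -, hpr⟩ := hPR A₀ (PolyR A₀ x) (polyX A₀ x) hx
    have hnd : ¬ algebraMap A₀ (PolyR A₀ x) ϖ ∣ polyX A₀ x := by
      have := ((hM A₀ (PolyR A₀ x) (polyX A₀ x) hx ϖ hϖ).2.1 0).2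
      rwa [map_zero, sub_zero] at this
    exact hNM (PolyR A₀ x) F _ _ (hpr ϖ hϖ) hnd
  refine TK.abs hTK1 hTK2 hTK4 hglue htr hB A₀ F (PolyR A₀ t) (Chart A₀ t) (PolyR A₀ t⁻¹)
    (Chart A₀ t⁻¹) (PolyR2 A₀ t) (Chart2 A₀ t) ϖ (polyX A₀ t) (polyX A₀ t⁻¹) e ζ C hϖ hx₁ hx₂ hF₁
    hF₂ (TK.compat1 A₀ ht) (TK.compat2 A₀ t) he hζ hC hb hc hc' hc'' (h3 t hx₁) (h3 t⁻¹ hx₂)
    (IsIntegralClosure.algebraMap_injective (Chart2 A₀ t) (PolyR2 A₀ t) F) ?_ ?_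
  · obtain ⟨S, hS⟩ := hH A₀ F t htr' hF₁
    refine ⟨S, fun y => ?_⟩
    obtain ⟨a, b, n, ha, hb', hn, hy⟩ := hS y.1 y.2
    exact ⟨⟨a, ha⟩, ⟨b, hb'⟩, n, hn, hy⟩
  · intro a b hab
    have h1 : IsIntegral (PolyR A₀ t) (a : F) := a.2
    have h2 : IsIntegral (PolyR A₀ t⁻¹) (a : F) := by
      have : (a : F) = (b : F) := hab
      rw [this]
      exact b.2
    obtain ⟨α, hα⟩ := hconst _ (hI A₀ F t htr' _ h1 h2)
    exact ⟨α, hα.symm⟩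

end Fermat.Agent.KL
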