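import Fermat.Agent.KL.Interface2

/-! KL (G3, G4, G6): the two charts `t`, `t⁻¹`: overlap, intersection, `H¹` finitely generated. -/

set_option autoImplicit false

namespace Fermat.Agent.KL

open Polynomial

namespace G346

section General

variable {A₀ F : Type} [CommRing A₀] [Field F] [Algebra A₀ F]

theorem isIntegral_of_mem {R : Subalgebra A₀ F} {z : F} (hz : z ∈ R) : IsIntegral R z :=
  isIntegral_algebraMap (x := (⟨z, hz⟩ : R))

/-- a root of a monic polynomial with coefficients in `R` is integral over `R`. -/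
theorem isIntegral_of_monic {R : Subalgebra A₀ F} {z : F} (Q : F[X]) (hQ : Q.Monic)
    (hc : ∀ i, Q.coeff i ∈ R) (hz : Q.eval z = 0) : IsIntegral R z := by
  have hl : Q ∈ lifts (algebraMap R F) := by
    rw [lifts_iff_coeff_lifts]
    intro i
    exact ⟨⟨_, hc i⟩, rfl⟩
  obtain ⟨q, hq, -, hqm⟩ := lifts_and_natDegree_eq_and_monic hl hQ
  exact ⟨q, hqm, by rw [← eval_map, hq, hz]⟩

theorem exists_monic_of_isIntegral {R : Subalgebra A₀ F} {z : F} (h : IsIntegral R z) :
    ∃ Q : F[X], Q.Monic ∧ (∀ i, Q.coeff i ∈ R) ∧ Q.eval z = 0 := by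
  obtain ⟨p, hp, hz⟩ := h
  refine ⟨p.map (algebraMap R F), hp.map _, fun i => ?_, by rw [eval_map, hz]⟩
  rw [coeff_map]
  exact (p.coeff i).2

theorem polyR_le_polyR2 (t : F) : PolyR A₀ t ≤ PolyR2 A₀ t :=
  Algebra.adjoin_mono (by simp)

theorem polyR2_inv (t : F) : PolyR2 A₀ t⁻¹ = PolyR2 A₀ t := by
  unfold PolyR2
  rw [inv_inv, Set.pair_comm]

theorem polyR_inv_le_polyR2 (t : F) : PolyR A₀ t⁻¹ ≤ PolyR2 A₀ t :=
  Algebra.adjoin_mono (by simp)

theorem self_mem (t : F) : t ∈ PolyR A₀ t := Algebra.self_mem_adjoin_singleton A₀ t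

/-- every element of `A₀[t, t⁻¹]` is `t ^ (-k)` times an element of `A₀[t]`. -/
theorem exists_pow_mul_mem {t : F} (ht : t ≠ 0) {z : F} (hz : z ∈ PolyR2 A₀ t) :
    ∃ k : ℕ, t ^ k * z ∈ PolyR A₀ t := by
  induction hz using Algebra.adjoin_induction with
  | mem x hx =>
    rcases hx with rfl | hx
    · exact ⟨0, by simp⟩
    · rw [Set.mem_singleton_iff] at hx
      subst hx
      exact ⟨1, by simp [ht, one_mem]⟩
  | algebraMap r => exact ⟨0, by simp⟩
  | add x y _ _ hx hy =>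
    obtain ⟨k, hk⟩ := hx
    obtain ⟨l, hl⟩ := hy
    refine ⟨k + l, ?_⟩
    have : t ^ (k + l) * (x + y) = t ^ l * (t ^ k * x) + t ^ k * (t ^ l * y) := by ring
    rw [this]
    exact add_mem (mul_mem (pow_mem (self_mem t) _) hk) (mul_mem (pow_mem (self_mem t) _) hl)
  | mul x y _ _ hx hy =>
    obtain ⟨k, hk⟩ := hx
    obtain ⟨l, hl⟩ := hy
    refine ⟨k + l, ?_⟩
    have : t ^ (k + l) * (x * y) = (t ^ k * x) * (t ^ l * y) := by ring
    rw [this]
    exact mul_mem hk hl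

theorem pow_mul_mem_of_le {t z : F} {k l : ℕ} (h : t ^ k * z ∈ PolyR A₀ t) (hkl : k ≤ l) :
    t ^ l * z ∈ PolyR A₀ t := by
  obtain ⟨j, rfl⟩ := Nat.exists_eq_add_of_le hkl
  have : t ^ (k + j) * z = t ^ j * (t ^ k * z) := by ring
  rw [this]
  exact mul_mem (pow_mem (self_mem t) _) h

/-- common denominator for the coefficients of a polynomial. -/
theorem exists_common_pow {t : F} (ht : t ≠ 0) (Q : F[X]) (h : ∀ i, Q.coeff i ∈ PolyR2 A₀ t) :
    ∃ k : ℕ, ∀ i, t ^ k * Q.coeff i ∈ PolyR A₀ t := by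
  choose f hf using fun i => exists_pow_mul_mem ht (h i)
  refine ⟨Q.support.sup f, fun i => ?_⟩
  by_cases hi : i ∈ Q.support
  · exact pow_mul_mem_of_le (hf i) (Finset.le_sup hi)
  · rw [notMem_support_iff.mp hi, mul_zero]
    exact zero_mem _

theorem overlap_aux {t : F} (ht : t ≠ 0) {y : F} (hy : IsIntegral (PolyR2 A₀ t) y) :
    ∃ k : ℕ, IsIntegral (PolyR A₀ t) (t ^ k * y) := by
  obtain ⟨Q, hQ, hc, hz⟩ := exists_monic_of_isIntegral hy
  obtain ⟨k, hk⟩ := exists_common_pow ht Q hc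
  refine ⟨k, isIntegral_of_monic (scaleRoots Q (t ^ k)) ((monic_scaleRoots_iff _).mpr hQ)
    (fun i => ?_) ?_⟩
  · rw [coeff_scaleRoots]
    rcases lt_trichotomy i Q.natDegree with hi | hi | hi
    · obtain ⟨j, hj⟩ : ∃ j, Q.natDegree - i = j + 1 := ⟨Q.natDegree - i - 1, by omega⟩
      rw [hj, pow_succ]
      have : Q.coeff i * ((t ^ k) ^ j * t ^ k) = (t ^ k * Q.coeff i) * (t ^ k) ^ j := by ring
      rw [this]
      exact mul_mem (hk i) (pow_mem (pow_mem (self_mem t) _) _)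
    · subst hi
      rw [hQ.coeff_natDegree]
      simp [one_mem]
    · rw [coeff_eq_zero_of_natDegree_lt hi, zero_mul]
      exact zero_mem _
  · have := scaleRoots_eval₂_eq_zero (p := Q) (RingHom.id F) (r := y) (s := t ^ k)
      (by simpa [eval₂_id] using hz)
    simpa [eval₂_id] using this

end General

section Inter

variable {A₀ F : Type} [CommRing A₀] [Field F] [Algebra A₀ F]

theorem transcendental_inv {t : F} (ht : Transcendental A₀ t) : Transcendental A₀ t⁻¹ :=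
  fun h => ht (IsAlgebraic.inv_iff.mp h)

theorem ne_zero_of_transcendental {t : F} (ht : Transcendental A₀ t) : t ≠ 0 := by
  rintro rfl
  have : Nontrivial A₀ := (algebraMap A₀ F).domain_nontrivial
  exact ht isAlgebraic_zero

theorem mem_polyR_iff {t z : F} : z ∈ PolyR A₀ t ↔ ∃ p : A₀[X], aeval t p = z := by
  unfold PolyR
  rw [Algebra.adjoin_singleton_eq_range_aeval]
  exact AlgHom.mem_range _

variable [IsDomain A₀]

/-- `A₀[t] ∩ A₀[t⁻¹] = A₀`. -/
theorem mem_range_of_mem_of_mem {t : F} (ht : Transcendental A₀ t) {z : F}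
    (h1 : z ∈ PolyR A₀ t) (h2 : z ∈ PolyR A₀ t⁻¹) : z ∈ Set.range (algebraMap A₀ F) := by
  have ht0 := ne_zero_of_transcendental ht
  obtain ⟨p, rfl⟩ := mem_polyR_iff.mp h1
  obtain ⟨r, hr⟩ := mem_polyR_iff.mp h2
  let _ : Invertible t⁻¹ := invertibleOfNonzero (inv_ne_zero ht0)
  have h3 := eval₂_reverse_mul_pow (algebraMap A₀ F) t⁻¹ r
  rw [invOf_eq_inv, inv_inv] at h3
  have h4 : aeval t (X ^ r.natDegree * p - reverse r) = 0 := by
    rw [map_sub, map_mul, map_pow, aeval_X, ← hr, aeval_def, aeval_def, ← h3]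
    have h9 : t ^ r.natDegree * t⁻¹ ^ r.natDegree = 1 := by
      rw [← mul_pow, mul_inv_cancel₀ ht0, one_pow]
    linear_combination (eval₂ (algebraMap A₀ F) t r.reverse) * h9
  have h5 : X ^ r.natDegree * p = reverse r :=
    sub_eq_zero.mp ((transcendental_iff.mp ht) _ h4)
  by_cases hp : p = 0
  · subst hp
    exact ⟨0, by simp⟩
  have h6 : (X ^ r.natDegree * p).natDegree = r.natDegree + p.natDegree := by
    rw [natDegree_X_pow_mul _ hp, add_comm]
  have h7 := reverse_natDegree_le r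
  rw [← h5, h6] at h7
  have h8 : p.natDegree = 0 := by omega
  rw [eq_C_of_natDegree_eq_zero h8]
  exact ⟨p.coeff 0, by simp⟩

variable [IsIntegrallyClosed A₀]

theorem isIntegrallyClosed_polyR {t : F} (ht : Transcendental A₀ t) :
    IsIntegrallyClosed (PolyR A₀ t) :=
  IsIntegrallyClosed.of_equiv (Polynomial.algEquivOfTranscendental A₀ t ht).toRingEquiv

/-- a nonzero polynomial with coefficients in `A₀[t, t⁻¹]` killing `y` has degree at least the
degree of the minimal polynomial of `y` over `A₀[t]`. -/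
theorem degree_minpoly_le {t : F} (ht : Transcendental A₀ t) {y : F} (Q : F[X]) (hQ : Q ≠ 0)
    (hc : ∀ i, Q.coeff i ∈ PolyR2 A₀ t) (hy : Q.eval y = 0) :
    (minpoly (PolyR A₀ t) y).degree ≤ Q.degree := by
  have ht0 := ne_zero_of_transcendental ht
  have := isIntegrallyClosed_polyR ht
  obtain ⟨k, hk⟩ := exists_common_pow ht0 Q hc
  have hl : C (t ^ k) * Q ∈ lifts (algebraMap (PolyR A₀ t) F) := by
    rw [lifts_iff_coeff_lifts]
    intro i
    rw [coeff_C_mul]
    exact ⟨⟨_, hk i⟩, rfl⟩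
  obtain ⟨q, hq⟩ := hl
  have hq' : q.map (algebraMap (PolyR A₀ t) F) = C (t ^ k) * Q := hq
  have hinj : Function.Injective (algebraMap (PolyR A₀ t) F) := Subtype.val_injective
  have hdeg : q.degree = Q.degree := by
    rw [← degree_map_eq_of_injective hinj, hq', degree_C_mul (pow_ne_zero _ ht0)]
  have hq0 : q ≠ 0 := by
    intro h0
    rw [h0, degree_zero] at hdeg
    exact hQ (degree_eq_bot.mp hdeg.symm)
  have hroot : aeval y q = 0 := by
    rw [aeval_def, ← eval_map, hq', eval_mul, hy, mul_zero]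
  rw [← hdeg]
  exact minpoly.IsIntegrallyClosed.degree_le_of_ne_zero hq0 hroot

theorem inter_aux {t : F} (ht : Transcendental A₀ t) {y : F}
    (h1 : IsIntegral (PolyR A₀ t) y) (h2 : IsIntegral (PolyR A₀ t⁻¹) y) : IsIntegral A₀ y := by
  have ht' := transcendental_inv ht
  set P1 : F[X] := (minpoly (PolyR A₀ t) y).map (algebraMap (PolyR A₀ t) F) with hP1
  set P2 : F[X] := (minpoly (PolyR A₀ t⁻¹) y).map (algebraMap (PolyR A₀ t⁻¹) F) with hP2
  have hm1 : P1.Monic := (minpoly.monic h1).map _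
  have hm2 : P2.Monic := (minpoly.monic h2).map _
  have hc1 : ∀ i, P1.coeff i ∈ PolyR A₀ t := fun i => by
    rw [hP1, coeff_map]; exact ((minpoly (PolyR A₀ t) y).coeff i).2
  have hc2 : ∀ i, P2.coeff i ∈ PolyR A₀ t⁻¹ := fun i => by
    rw [hP2, coeff_map]; exact ((minpoly (PolyR A₀ t⁻¹) y).coeff i).2
  have he1 : P1.eval y = 0 := by rw [hP1, eval_map, ← aeval_def, minpoly.aeval]
  have he2 : P2.eval y = 0 := by rw [hP2, eval_map, ← aeval_def, minpoly.aeval]
  have hd1 : (minpoly (PolyR A₀ t) y).degree = P1.degree :=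
    (degree_map_eq_of_injective Subtype.val_injective _).symm
  have hd2 : (minpoly (PolyR A₀ t⁻¹) y).degree = P2.degree :=
    (degree_map_eq_of_injective Subtype.val_injective _).symm
  have hle12 : P1.degree ≤ P2.degree := by
    rw [← hd1]
    exact degree_minpoly_le ht P2 hm2.ne_zero (fun i => polyR_inv_le_polyR2 t (hc2 i)) he2
  have hle21 : P2.degree ≤ P1.degree := by
    rw [← hd2]
    refine degree_minpoly_le ht' P1 hm1.ne_zero (fun i => ?_) he1
    rw [polyR2_inv]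
    exact polyR_le_polyR2 t (hc1 i)
  have heq : P1 = P2 := by
    by_contra hne
    have hsub : P1 - P2 ≠ 0 := sub_ne_zero.mpr hne
    have hlt : (P1 - P2).degree < P1.degree :=
      degree_sub_lt_left (le_antisymm hle12 hle21) hm1.ne_zero (by rw [hm1.leadingCoeff, hm2.leadingCoeff])
    have hge : P1.degree ≤ (P1 - P2).degree := by
      rw [← hd1]
      refine degree_minpoly_le ht (P1 - P2) hsub (fun i => ?_) (by rw [eval_sub, he1, he2, sub_zero])
      rw [coeff_sub]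
      exact sub_mem (polyR_le_polyR2 t (hc1 i)) (polyR_inv_le_polyR2 t (hc2 i))
    exact absurd hlt (not_lt.mpr hge)
  have hl : P1 ∈ lifts (algebraMap A₀ F) := by
    rw [lifts_iff_coeff_lifts]
    intro i
    exact mem_range_of_mem_of_mem ht (hc1 i) (heq ▸ hc2 i)
  obtain ⟨q, hq, -, hqm⟩ := lifts_and_natDegree_eq_and_monic hl hm1
  exact ⟨q, hqm, by rw [← eval_map, hq, he1]⟩

end Inter

section H1

variable (A₀ : Type) {F : Type} [CommRing A₀] [Field F] [Algebra A₀ F]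

/-- `y ∈ B₁ + B₂ + span S`. -/
def Dec (t : F) (S : Finset F) (y : F) : Prop :=
  ∃ a b n : F, IsIntegral (PolyR A₀ t) a ∧ IsIntegral (PolyR A₀ t⁻¹) b ∧
    n ∈ Submodule.span A₀ (S : Set F) ∧ y = a + b + n

variable {A₀}

theorem Dec.zero (t : F) (S : Finset F) : Dec A₀ t S 0 :=
  ⟨0, 0, 0, isIntegral_zero, isIntegral_zero, zero_mem _, by simp⟩

theorem Dec.add {t : F} {S : Finset F} {y y' : F} (h : Dec A₀ t S y) (h' : Dec A₀ t S y') :
    Dec A₀ t S (y + y') := by
  obtain ⟨a, b, n, ha, hb, hn, rfl⟩ := h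
  obtain ⟨a', b', n', ha', hb', hn', rfl⟩ := h'
  exact ⟨a + a', b + b', n + n', ha.add ha', hb.add hb', add_mem hn hn', by ring⟩

theorem Dec.sum {t : F} {S : Finset F} {ι : Type} (s : Finset ι) (f : ι → F)
    (h : ∀ i ∈ s, Dec A₀ t S (f i)) : Dec A₀ t S (∑ i ∈ s, f i) := by
  classical
  induction s using Finset.induction_on with
  | empty => simpa using Dec.zero t S
  | insert i u hi ih =>
    rw [Finset.sum_insert hi]
    exact (h i (Finset.mem_insert_self i u)).add (ih fun j hj => h j (Finset.mem_insert_of_mem hj))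

theorem isIntegral_mono {R R' : Subalgebra A₀ F} (h : R ≤ R') {z : F} (hz : IsIntegral R z) :
    IsIntegral R' z := by
  obtain ⟨Q, hQ, hc, hz⟩ := exists_monic_of_isIntegral hz
  exact isIntegral_of_monic Q hQ (fun i => h (hc i)) hz

theorem dec_monomial {t : F} (ht0 : t ≠ 0) {β : F} (hβ : IsIntegral (PolyR A₀ t) β) {D : ℕ}
    (hD : ∀ m, D ≤ m → IsIntegral (PolyR A₀ t⁻¹) (t⁻¹ ^ m * β)) {S : Finset F}
    (hS : ∀ j < D, t⁻¹ ^ j * β ∈ S) (c : A₀) (k j : ℕ) :
    Dec A₀ t S (algebraMap A₀ F c * (t⁻¹ ^ k * t ^ j) * β) := by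
  rcases le_or_gt k j with hkj | hkj
  · obtain ⟨i, rfl⟩ := Nat.exists_eq_add_of_le hkj
    have h1 : t⁻¹ ^ k * t ^ (k + i) = t ^ i := by
      rw [pow_add, ← mul_assoc, ← mul_pow, inv_mul_cancel₀ ht0, one_pow, one_mul]
    rw [h1]
    refine ⟨algebraMap A₀ F c * t ^ i * β, 0, 0, ?_, isIntegral_zero, zero_mem _, by ring⟩
    exact (isIntegral_of_mem (mul_mem (Subalgebra.algebraMap_mem _ c)
      (pow_mem (self_mem t) i))).mul hβ
  · obtain ⟨i, rfl⟩ := Nat.exists_eq_add_of_le hkj.le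
    have h1 : t⁻¹ ^ (j + i) * t ^ j = t⁻¹ ^ i := by
      rw [pow_add, mul_comm (t⁻¹ ^ j), mul_assoc, ← mul_pow, inv_mul_cancel₀ ht0, one_pow, mul_one]
    rw [h1]
    rcases le_or_gt D i with hi | hi
    · refine ⟨0, algebraMap A₀ F c * (t⁻¹ ^ i * β), 0, isIntegral_zero, ?_, zero_mem _, by ring⟩
      exact (isIntegral_of_mem (Subalgebra.algebraMap_mem _ c)).mul (hD i hi)
    · refine ⟨0, 0, c • (t⁻¹ ^ i * β), isIntegral_zero, isIntegral_zero, ?_, ?_⟩
      · exact Submodule.smul_mem _ _ (Submodule.subset_span (hS i hi))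
      · rw [Algebra.smul_def]; ring

theorem dec_mul_gen {t : F} (ht0 : t ≠ 0) {β : F} (hβ : IsIntegral (PolyR A₀ t) β) {D : ℕ}
    (hD : ∀ m, D ≤ m → IsIntegral (PolyR A₀ t⁻¹) (t⁻¹ ^ m * β)) {S : Finset F}
    (hS : ∀ j < D, t⁻¹ ^ j * β ∈ S) {z : F} (hz : z ∈ PolyR2 A₀ t) : Dec A₀ t S (z * β) := by
  obtain ⟨k, hk⟩ := exists_pow_mul_mem ht0 hz
  obtain ⟨p, hp⟩ := mem_polyR_iff.mp hk
  have h1 : z = t⁻¹ ^ k * aeval t p := by
    rw [hp, ← mul_assoc, ← mul_pow, inv_mul_cancel₀ ht0, one_pow, one_mul]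
  rw [h1, aeval_eq_sum_range, Finset.mul_sum, Finset.sum_mul]
  refine Dec.sum _ _ fun j _ => ?_
  have h2 : t⁻¹ ^ k * p.coeff j • t ^ j * β = algebraMap A₀ F (p.coeff j) * (t⁻¹ ^ k * t ^ j) * β := by
    rw [Algebra.smul_def]; ring
  rw [h2]
  exact dec_monomial ht0 hβ hD hS _ _ _

theorem h1fg_aux {t : F} (ht0 : t ≠ 0) [Module.Finite (PolyR A₀ t) (Chart A₀ t)] :
    ∃ S : Finset F, ∀ y : F, IsIntegral (PolyR2 A₀ t) y → Dec A₀ t S y := by
  classical
  obtain ⟨s, hs⟩ := Module.Finite.fg_top (R := PolyR A₀ t) (M := Chart A₀ t)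
  have hex : ∀ β : Chart A₀ t, ∃ k : ℕ, IsIntegral (PolyR A₀ t⁻¹) (t⁻¹ ^ k * (β : F)) := by
    intro β
    have h1 : IsIntegral (PolyR2 A₀ t⁻¹) (β : F) := by
      rw [polyR2_inv]
      exact isIntegral_mono (polyR_le_polyR2 t) β.2
    exact overlap_aux (inv_ne_zero ht0) h1
  choose kf hkf using hex
  set D : ℕ := s.sup kf with hDdef
  set S : Finset F := (Finset.range D ×ˢ s).image (fun x => t⁻¹ ^ x.1 * ((x.2 : Chart A₀ t) : F))
    with hSdef
  refine ⟨S, fun y hy => ?_⟩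
  have key : ∀ x ∈ Submodule.span (PolyR A₀ t) (s : Set (Chart A₀ t)),
      ∀ z ∈ PolyR2 A₀ t, Dec A₀ t S (z * (x : F)) := by
    intro x hx
    induction hx using Submodule.span_induction with
    | mem β hβ =>
      intro z hz
      refine dec_mul_gen ht0 β.2 (D := D) (fun m hm => ?_) (fun j hj => ?_) hz
      · have hle : kf β ≤ m := le_trans (Finset.le_sup hβ) hm
        obtain ⟨i, rfl⟩ := Nat.exists_eq_add_of_le hle
        have : t⁻¹ ^ (kf β + i) * (β : F) = t⁻¹ ^ i * (t⁻¹ ^ kf β * (β : F)) := by ring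
        rw [this]
        exact (isIntegral_of_mem (pow_mem (self_mem t⁻¹) i)).mul (hkf β)
      · rw [hSdef, Finset.mem_image]
        exact ⟨(j, β), Finset.mem_product.mpr ⟨Finset.mem_range.mpr hj, hβ⟩, rfl⟩
    | zero =>
      intro z _
      simpa using Dec.zero t S
    | add x x' _ _ hx hx' =>
      intro z hz
      have : z * ((x + x' : Chart A₀ t) : F) = z * (x : F) + z * (x' : F) := by
        push_cast; ring
      rw [this]
      exact (hx z hz).add (hx' z hz)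
    | smul r x _ hx =>
      intro z hz
      have : z * ((r • x : Chart A₀ t) : F) = (z * (r : F)) * (x : F) := by
        rw [mul_assoc]; rfl
      rw [this]
      exact hx _ (mul_mem hz (polyR_le_polyR2 t r.2))
  obtain ⟨k, hk⟩ := overlap_aux ht0 hy
  have h1 := key ⟨t ^ k * y, hk⟩ (by rw [hs]; trivial) (t⁻¹ ^ k)
    (pow_mem (Algebra.subset_adjoin (by simp)) k)
  have h2 : t⁻¹ ^ k * (t ^ k * y) = y := by
    rw [← mul_assoc, ← mul_pow, inv_mul_cancel₀ ht0, one_pow, one_mul]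
  rwa [h2] at h1

end H1

end G346

theorem stmt_H1fg (h : Stmt_chartBasic) (h' : Stmt_polyRConcrete) : Stmt_H1fg := by
  intro A₀ F _ _ _ _ _ _ _ t ht hfin
  have hpv := (h' A₀ F t ht).1
  have hb := h A₀ (PolyR A₀ t) F (Chart A₀ t) (polyX A₀ t) hpv hfin
  have := hb.1
  exact G346.h1fg_aux (G346.ne_zero_of_transcendental ht)

theorem stmt_chartInter : Stmt_chartInter := by
  intro A₀ F _ _ _ _ _ _ t ht y h1 h2
  exact G346.inter_aux ht h1 h2

theorem stmt_chartOverlap : Stmt_chartOverlap := by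
  intro A₀ F _ _ _ t ht y hy
  refine ⟨G346.overlap_aux ht hy, ?_⟩
  have hy' : IsIntegral (PolyR2 A₀ t⁻¹) y := by
    rw [G346.polyR2_inv]; exact hy
  exact G346.overlap_aux (inv_ne_zero ht) hy'

end Fermat.Agent.KL
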