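/-
KL-M1: `Algebra.IsUnramifiedAt` is insensitive to localisation of base and top.
-/
import Fermat.Agent.KL.Interface2

set_option autoImplicit false

namespace Fermat.Agent.KL

theorem stmt_unramLocalization : Stmt_unramLocalization := by
  intro R B R' B' _ _ _ _ _ _ _ _ _ _ _ M _ _ 𝔔 _ 𝔓 _ h𝔓
  subst h𝔓
  -- towers
  have tRR' : IsScalarTower R R' (Localization.AtPrime 𝔔) := by
    refine IsScalarTower.of_algebraMap_eq fun x => ?_
    rw [IsScalarTower.algebraMap_apply R B' (Localization.AtPrime 𝔔),
      IsScalarTower.algebraMap_apply R' B' (Localization.AtPrime 𝔔),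
      IsScalarTower.algebraMap_apply R R' B']
  have tRB : IsScalarTower R B (Localization.AtPrime 𝔔) := by
    refine IsScalarTower.of_algebraMap_eq fun x => ?_
    rw [IsScalarTower.algebraMap_apply R B' (Localization.AtPrime 𝔔),
      IsScalarTower.algebraMap_apply B B' (Localization.AtPrime 𝔔),
      IsScalarTower.algebraMap_apply R B B']
  have hloc : IsLocalization.AtPrime (Localization.AtPrime 𝔔) (𝔔.under B) :=
    IsLocalization.isLocalization_isLocalization_atPrime_isLocalization
      (Algebra.algebraMapSubmonoid B M) (Localization.AtPrime 𝔔) 𝔔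
  let e : Localization.AtPrime (𝔔.under B) ≃ₐ[B] Localization.AtPrime 𝔔 :=
    IsLocalization.algEquiv (𝔔.under B).primeCompl _ _
  let e' : Localization.AtPrime (𝔔.under B) ≃ₐ[R] Localization.AtPrime 𝔔 := e.restrictScalars R
  have hRR' : Algebra.FormallyUnramified R R' := Algebra.FormallyUnramified.of_isLocalization M
  constructor
  · intro h
    have h1 : Algebra.FormallyUnramified R (Localization.AtPrime 𝔔) :=
      Algebra.FormallyUnramified.of_equiv e'
    exact Algebra.FormallyUnramified.of_restrictScalars R R' _
  · intro h
    have h1 : Algebra.FormallyUnramified R (Localization.AtPrime 𝔔) :=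
      Algebra.FormallyUnramified.comp R R' _
    exact Algebra.FormallyUnramified.of_equiv e'.symm

end Fermat.Agent.KL
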