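/-
KL-TK : Theorem K, unconditional.
-/
import Fermat.Agent.KL.TheoremK
import Fermat.Agent.KL.TK1
import Fermat.Agent.KL.TK2
import Fermat.Agent.KL.TK4
import Fermat.Agent.KL.PolyRing
import Fermat.Agent.KL.TwoCharts
import Fermat.Agent.KL.SmallG
import Fermat.Agent.KL.Glue
import Fermat.Agent.KL.IdempotentLift
import Fermat.Agent.KL.LocBasic
import Fermat.Agent.KL.UnramLocalization
import Fermat.Agent.KL.ChartPoint
import Fermat.Agent.KL.CuspFinal
import Fermat.Agent.KL.Purity
import Fermat.Agent.KL.FreeIntegralClosure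
import Fermat.Agent.KL.FreeOfRegular
import Fermat.Agent.KL.DiscrUnit
import Fermat.Agent.KL.DiscrNeZero
import Fermat.Agent.KL.LocPrimeDiscr
import Fermat.Agent.KL.ReducedDomain
import Fermat.Agent.KL.RootUnit
import Fermat.Agent.KL.Abhyankar
import Fermat.Agent.KL.HtOne
import Fermat.Agent.KL.GaloisDescent

set_option autoImplicit false

namespace Fermat.Agent.KL

theorem stmt_purity' : Stmt_purity :=
  stmt_purity (stmt_freeIntegralClosure stmt_freeOfRegular) stmt_htOneOfLiesOver
    (stmt_discrUnit stmt_discrNeZero)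
    (stmt_locPrimeOfDiscrUnit stmt_reducedOfDiscr stmt_domainOfPrincipal)

theorem stmt_chartPoint' : Stmt_chartPoint :=
  stmt_chartPoint stmt_purity' stmt_unramLocalization stmt_locPrimeLocalization
    stmt_htOneLocalization stmt_polyRing stmt_polyMaximal stmt_finOver stmt_chartBasic

theorem stmt_cuspPoint' : Stmt_cuspPoint :=
  stmt_cuspPoint stmt_chartPoint' stmt_locIrredOfLocPrime stmt_rootUnit stmt_abhyankar
    stmt_unramOfLocGen stmt_dvrAtHtOne stmt_galoisGoingDown stmt_locIrredDescent
    stmt_notMemMinimalPrimes stmt_polyRing stmt_polyMaximal stmt_chartBasic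

/-- **Theorem K**, unconditional. -/
theorem stmt_theoremK : Stmt_theoremK :=
  theoremK_of
    (stmt_TK1 stmt_locIrredOfLocPrime stmt_polyMaximal stmt_chartBasic stmt_chartPoint'
      stmt_cuspPoint')
    (stmt_TK2 stmt_polyMaximal stmt_chartBasic stmt_cuspPoint' stmt_htOneLocalization
      stmt_unramLocalization)
    (stmt_TK4 stmt_H1bound) (stmt_glue stmt_idempotentLift) stmt_locIrredTransfer stmt_chartBasic
    stmt_polyRing stmt_polyMaximal stmt_polyRConcrete stmt_chartOverlap stmt_chartInter
    (stmt_H1fg stmt_chartBasic stmt_polyRConcrete) stmt_notMemMinimalPrimes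

end Fermat.Agent.KL
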